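import Mathlib
import Fermat.Prelude.Def_AlgebraicCurve_Correspondence
import Fermat.Agent.S24.FFPlaces

/-!
# S29 (R3, block Desc): extension of places and push/pull of divisors

Abstract setting: function fields `FK / K`, `FL / L`, a ring homomorphism `ι : FK →+* FL` (think of
the constant field extension `K ⊆ L`) and a map `up : Place K FK → Place L FL` with

* `ord_up : (up P₀).ord (ι f) = P₀.ord f`, and
* `dich : ∀ P : Place L FL, (∀ f, P.ord (ι f) = 0) ∨ ∃ P₀, P = up P₀`.

Two such levels `(FK, FL, ι, up)`, `(FK', FL', ι', up')` and integral homomorphisms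
`φK : FK →ₐ[K] FK'`, `φL : FL →ₐ[L] FL'` with `ι' ∘ φK = φL ∘ ι`.  Then

* `restrictAlong_up` : `(up' w₀).restrictAlong φL = up (w₀.restrictAlong φK)`;
* `ramificationIndexAlong_up`, `inertiaDegAlong_up` : `e` and `f` are preserved;
* `exists_up_of_restrictAlong_eq_up` : every place over `up v₀` is `up' w₀` with `w₀` over `v₀`;
* `mapDomain_pullbackAlong`, `mapDomain_pushforwardAlong`, `mapDomain_correspondence` :
  `Finsupp.mapDomain up` commutes with pull-back, push-forward and correspondences of divisors.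

Everything is stated for plain functions `up`, `up'` (no structure), so that it can be instantiated
with any packaging of the place extension.
-/

set_option autoImplicit false

noncomputable section

open AlgebraicCurve

namespace Fermat.Agent.S29.Desc.BcPushPull

section OneLevel

variable {K FK : Type*} [Field K] [Field FK] [Algebra K FK]

/-- a place is determined by its order function. -/
theorem place_ext_of_ord {v w : Place K FK} (h : ∀ f : FK, v.ord f = w.ord f) : v = w := by
  apply Place.ext
  ext f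
  rcases eq_or_ne f 0 with rfl | hf
  · exact ⟨fun _ => zero_mem _, fun _ => zero_mem _⟩
  · rw [Fermat.Agent.S24.mem_iff_ord_nonneg v hf, Fermat.Agent.S24.mem_iff_ord_nonneg w hf, h f]

/-- every place has an element of order one. -/
theorem exists_ord_eq_one (v : Place K FK) : ∃ f : FK, f ≠ 0 ∧ v.ord f = 1 := by
  obtain ⟨π, hπ⟩ := IsDiscreteValuationRing.exists_irreducible v.toValuationSubring
  refine ⟨(π : FK), ?_, v.ord_coe_irreducible hπ⟩
  intro h0
  exact hπ.ne_zero (Subtype.ext h0)

variable {L FL : Type*} [Field L] [Field FL] [Algebra L FL]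
  (ι : FK →+* FL) (up : Place K FK → Place L FL)
  (ord_up : ∀ (P₀ : Place K FK) (f : FK), (up P₀).ord (ι f) = P₀.ord f)

include ord_up in
theorem up_injective : Function.Injective up := fun P Q h =>
  place_ext_of_ord fun f => by rw [← ord_up P f, h, ord_up Q f]

end OneLevel

section TwoLevels

variable {K L FK FL FK' FL' : Type*} [Field K] [Field L] [Field FK] [Field FL] [Field FK']
  [Field FL'] [Algebra K FK] [Algebra K FK'] [Algebra L FL] [Algebra L FL']
  (ι : FK →+* FL) (ι' : FK' →+* FL')
  (up : Place K FK → Place L FL) (up' : Place K FK' → Place L FL')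
  (ord_up : ∀ (P₀ : Place K FK) (f : FK), (up P₀).ord (ι f) = P₀.ord f)
  (ord_up' : ∀ (P₀ : Place K FK') (f : FK'), (up' P₀).ord (ι' f) = P₀.ord f)
  (dich : ∀ P : Place L FL, (∀ f : FK, P.ord (ι f) = 0) ∨ ∃ P₀, P = up P₀)
  (dich' : ∀ P : Place L FL', (∀ f : FK', P.ord (ι' f) = 0) ∨ ∃ P₀, P = up' P₀)
  (φK : FK →ₐ[K] FK') (hφK : φK.toRingHom.IsIntegral)
  (φL : FL →ₐ[L] FL') (hφL : φL.toRingHom.IsIntegral)
  (hsq : ∀ f : FK, ι' (φK f) = φL (ι f))

omit [Algebra L FL] [Algebra L FL'] in
theorem ramificationIndexAlong_pos' {K F F' : Type*} [Field K] [Field F] [Field F']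
    [Algebra K F] [Algebra K F'] (φ : F →ₐ[K] F') (hφ : φ.toRingHom.IsIntegral)
    (W : Place K F') : 0 < W.ramificationIndexAlong φ := by
  letI := algebraAlong φ
  haveI := isScalarTower_along φ
  haveI := isIntegral_along φ hφ
  exact W.ramificationIndex_pos (F := F)

include ord_up ord_up' dich hsq in
/-- **restriction commutes with `up`, and the ramification index is preserved.** -/
theorem restrictAlong_up_and_ramification (w₀ : Place K FK') :
    (up' w₀).restrictAlong φL hφL = up (w₀.restrictAlong φK hφK) ∧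
      (up' w₀).ramificationIndexAlong φL = w₀.ramificationIndexAlong φK := by
  set P := (up' w₀).restrictAlong φL hφL with hP
  set r₀ := w₀.restrictAlong φK hφK with hr₀
  set eL := (up' w₀).ramificationIndexAlong φL with heL
  set eK := w₀.ramificationIndexAlong φK with heK
  have heLpos : 0 < eL := ramificationIndexAlong_pos' φL hφL (up' w₀)
  have heKpos : 0 < eK := ramificationIndexAlong_pos' φK hφK w₀
  -- the key identity
  have key : ∀ f : FK, (eL : ℤ) * P.ord (ι f) = (eK : ℤ) * r₀.ord f := by
    intro f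
    rw [← Place.ord_restrictAlong φL hφL (up' w₀) (ι f), ← hsq, ord_up',
      Place.ord_restrictAlong φK hφK w₀ f]
  rcases dich P with htriv | ⟨v₀, hv₀⟩
  · exfalso
    obtain ⟨f, -, hf⟩ := exists_ord_eq_one r₀
    have := key f
    rw [htriv f, hf, mul_zero, mul_one] at this
    have h0 : (eK : ℤ) = 0 := this.symm
    omega
  · have key' : ∀ f : FK, (eL : ℤ) * v₀.ord f = (eK : ℤ) * r₀.ord f := by
      intro f
      rw [← ord_up v₀ f, ← hv₀]
      exact key f
    obtain ⟨f₁, -, hf₁⟩ := exists_ord_eq_one v₀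
    obtain ⟨f₂, -, hf₂⟩ := exists_ord_eq_one r₀
    have h1 := key' f₁
    have h2 := key' f₂
    rw [hf₁, mul_one] at h1
    rw [hf₂, mul_one] at h2
    -- `eL = eK * a`, `eL * b = eK` with `a, b` integers
    have hLK : (eL : ℤ) = (eK : ℤ) := by
      have hapos : 0 < r₀.ord f₁ := by
        by_contra hcon
        have : r₀.ord f₁ ≤ 0 := not_lt.mp hcon
        have : (eK : ℤ) * r₀.ord f₁ ≤ 0 :=
          mul_nonpos_of_nonneg_of_nonpos (by positivity) this
        have : (0 : ℤ) < eL := by exact_mod_cast heLpos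
        omega
      have hbpos : 0 < v₀.ord f₂ := by
        by_contra hcon
        have : v₀.ord f₂ ≤ 0 := not_lt.mp hcon
        have : (eL : ℤ) * v₀.ord f₂ ≤ 0 :=
          mul_nonpos_of_nonneg_of_nonpos (by positivity) this
        have : (0 : ℤ) < eK := by exact_mod_cast heKpos
        omega
      have hK0 : (0 : ℤ) < eK := by exact_mod_cast heKpos
      have hL0 : (0 : ℤ) < eL := by exact_mod_cast heLpos
      have hle1 : (eK : ℤ) ≤ eL := by
        rw [h1]
        exact le_mul_of_one_le_right hK0.le hapos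
      have hle2 : (eL : ℤ) ≤ eK := by
        rw [← h2]
        exact le_mul_of_one_le_right hL0.le hbpos
      omega
    refine ⟨?_, by exact_mod_cast hLK⟩
    rw [hv₀]
    congr 1
    apply place_ext_of_ord
    intro f
    have h3 := key' f
    rw [hLK] at h3
    have hK0 : (eK : ℤ) ≠ 0 := by
      have : (0 : ℤ) < eK := by exact_mod_cast heKpos
      omega
    exact mul_left_cancel₀ hK0 h3

include ord_up ord_up' dich hsq in
theorem restrictAlong_up (w₀ : Place K FK') :
    (up' w₀).restrictAlong φL hφL = up (w₀.restrictAlong φK hφK) :=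
  (restrictAlong_up_and_ramification ι ι' up up' ord_up ord_up' dich φK hφK φL hφL hsq w₀).1

include ord_up ord_up' dich hsq hφK hφL in
theorem ramificationIndexAlong_up (w₀ : Place K FK') :
    (up' w₀).ramificationIndexAlong φL = w₀.ramificationIndexAlong φK :=
  (restrictAlong_up_and_ramification ι ι' up up' ord_up ord_up' dich φK hφK φL hφL hsq w₀).2

include ord_up ord_up' dich dich' hsq in
/-- **every place over `up v₀` comes from a place over `v₀`.** -/
theorem exists_up_of_restrictAlong_eq_up (P' : Place L FL') (v₀ : Place K FK)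
    (h : P'.restrictAlong φL hφL = up v₀) :
    ∃ w₀ : Place K FK', P' = up' w₀ ∧ w₀.restrictAlong φK hφK = v₀ := by
  rcases dich' P' with htriv | ⟨w₀, hw₀⟩
  · exfalso
    obtain ⟨f, -, hf⟩ := exists_ord_eq_one v₀
    have h1 := Place.ord_restrictAlong φL hφL P' (ι f)
    rw [← hsq, htriv, h, ord_up, hf, mul_one] at h1
    have := ramificationIndexAlong_pos' φL hφL P'
    have h0 : (P'.ramificationIndexAlong φL : ℤ) = 0 := h1.symm
    omega
  · refine ⟨w₀, hw₀, ?_⟩
    have h2 := restrictAlong_up ι ι' up up' ord_up ord_up' dich φK hφK φL hφL hsq w₀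
    rw [← hw₀, h] at h2
    exact (up_injective ι up ord_up h2).symm

section Inertia

variable (deg_up : ∀ P₀ : Place K FK, (up P₀).deg = P₀.deg)
  (deg_up' : ∀ P₀ : Place K FK', (up' P₀).deg = P₀.deg)
  (hdeg : ∀ v : Place K FK, v.deg ≠ 0)

omit [Algebra L FL] [Algebra L FL'] in
theorem deg_restrictAlong_mul_inertiaDegAlong {K F F' : Type*} [Field K] [Field F] [Field F']
    [Algebra K F] [Algebra K F'] (φ : F →ₐ[K] F') (hφ : φ.toRingHom.IsIntegral)
    (W : Place K F') :
    (W.restrictAlong φ hφ).deg * W.inertiaDegAlong φ hφ = W.deg := by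
  letI := algebraAlong φ
  haveI := isScalarTower_along φ
  haveI := isIntegral_along φ hφ
  exact W.deg_restrict_mul_inertiaDeg (F := F)

include ord_up ord_up' dich hsq deg_up deg_up' hdeg in
/-- **the inertia degree is preserved.** -/
theorem inertiaDegAlong_up (w₀ : Place K FK') :
    (up' w₀).inertiaDegAlong φL hφL = w₀.inertiaDegAlong φK hφK := by
  have h1 := deg_restrictAlong_mul_inertiaDegAlong φL hφL (up' w₀)
  have h2 := deg_restrictAlong_mul_inertiaDegAlong φK hφK w₀
  rw [restrictAlong_up ι ι' up up' ord_up ord_up' dich φK hφK φL hφL hsq w₀, deg_up, deg_up',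
    ← h2] at h1
  exact Nat.eq_of_mul_eq_mul_left (Nat.pos_of_ne_zero (hdeg _)) h1

end Inertia

section Divisors

variable [HasPrincipalDivisors K FK'] [HasPrincipalDivisors L FL']

include ord_up ord_up' dich dich' hsq in
/-- **`mapDomain up` commutes with pull-back of divisors.** -/
theorem mapDomain_pullbackAlong (D : Divisor K FK) :
    Finsupp.mapDomain up' (Divisor.pullbackAlong φK hφK D)
      = Divisor.pullbackAlong φL hφL (Finsupp.mapDomain up D) := by
  have hinj : Function.Injective up := up_injective ι up ord_up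
  have hinj' : Function.Injective up' := up_injective ι' up' ord_up'
  ext P'
  rw [Divisor.pullbackAlong_apply]
  by_cases hP' : P' ∈ Set.range up'
  · obtain ⟨w₀, rfl⟩ := hP'
    rw [Finsupp.mapDomain_apply hinj', Divisor.pullbackAlong_apply,
      restrictAlong_up ι ι' up up' ord_up ord_up' dich φK hφK φL hφL hsq w₀,
      ramificationIndexAlong_up ι ι' up up' ord_up ord_up' dich φK hφK φL hφL hsq w₀,
      Finsupp.mapDomain_apply hinj]
  · rw [Finsupp.mapDomain_of_notMem_range _ _ hP']
    have hnot : P'.restrictAlong φL hφL ∉ Set.range up := by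
      rintro ⟨v₀, hv₀⟩
      obtain ⟨w₀, hw₀, -⟩ := exists_up_of_restrictAlong_eq_up ι ι' up up' ord_up ord_up' dich
        dich' φK hφK φL hφL hsq P' v₀ hv₀.symm
      exact hP' ⟨w₀, hw₀.symm⟩
    rw [Finsupp.mapDomain_of_notMem_range _ _ hnot, mul_zero]

omit [HasPrincipalDivisors K FK'] [HasPrincipalDivisors L FL'] in
include ord_up ord_up' dich hsq in
/-- **`mapDomain up` commutes with push-forward of divisors.** -/
theorem mapDomain_pushforwardAlong
    (deg_up : ∀ P₀ : Place K FK, (up P₀).deg = P₀.deg)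
    (deg_up' : ∀ P₀ : Place K FK', (up' P₀).deg = P₀.deg)
    (hdeg : ∀ v : Place K FK, v.deg ≠ 0) (D' : Divisor K FK') :
    Finsupp.mapDomain up (Divisor.pushforwardAlong φK hφK D')
      = Divisor.pushforwardAlong φL hφL (Finsupp.mapDomain up' D') := by
  induction D' using Finsupp.induction_linear with
  | zero => simp only [map_zero, Finsupp.mapDomain_zero]
  | add D₁ D₂ h₁ h₂ => rw [map_add, Finsupp.mapDomain_add, Finsupp.mapDomain_add, map_add, h₁, h₂]
  | single w₀ n =>
    rw [Divisor.pushforwardAlong_single, Finsupp.mapDomain_single, Finsupp.mapDomain_single,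
      Divisor.pushforwardAlong_single,
      restrictAlong_up ι ι' up up' ord_up ord_up' dich φK hφK φL hφL hsq w₀,
      inertiaDegAlong_up ι ι' up up' ord_up ord_up' dich φK hφK φL hφL hsq deg_up deg_up' hdeg w₀]

end Divisors

end TwoLevels

section Correspondence

variable {K L FK FL FK' FL' : Type*} [Field K] [Field L] [Field FK] [Field FL] [Field FK']
  [Field FL'] [Algebra K FK] [Algebra K FK'] [Algebra L FL] [Algebra L FL']
  [HasPrincipalDivisors K FK'] [HasPrincipalDivisors L FL']
  (ι : FK →+* FL) (ι' : FK' →+* FL')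
  (up : Place K FK → Place L FL) (up' : Place K FK' → Place L FL')
  (ord_up : ∀ (P₀ : Place K FK) (f : FK), (up P₀).ord (ι f) = P₀.ord f)
  (ord_up' : ∀ (P₀ : Place K FK') (f : FK'), (up' P₀).ord (ι' f) = P₀.ord f)
  (dich : ∀ P : Place L FL, (∀ f : FK, P.ord (ι f) = 0) ∨ ∃ P₀, P = up P₀)
  (dich' : ∀ P : Place L FL', (∀ f : FK', P.ord (ι' f) = 0) ∨ ∃ P₀, P = up' P₀)
  (deg_up : ∀ P₀ : Place K FK, (up P₀).deg = P₀.deg)
  (deg_up' : ∀ P₀ : Place K FK', (up' P₀).deg = P₀.deg)
  (hdeg : ∀ v : Place K FK, v.deg ≠ 0)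
  (φK ψK : FK →ₐ[K] FK') (hφK : φK.toRingHom.IsIntegral) (hψK : ψK.toRingHom.IsIntegral)
  (φL ψL : FL →ₐ[L] FL') (hφL : φL.toRingHom.IsIntegral) (hψL : ψL.toRingHom.IsIntegral)
  (hsqφ : ∀ f : FK, ι' (φK f) = φL (ι f)) (hsqψ : ∀ f : FK, ι' (ψK f) = ψL (ι f))

include ord_up ord_up' dich dich' deg_up deg_up' hdeg hsqφ hsqψ in
/-- **`mapDomain up` commutes with correspondences of divisors.** -/
theorem mapDomain_correspondence (D : Divisor K FK) :
    Finsupp.mapDomain up (Divisor.correspondence φK ψK hφK hψK D)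
      = Divisor.correspondence φL ψL hφL hψL (Finsupp.mapDomain up D) := by
  rw [Divisor.correspondence_apply, Divisor.correspondence_apply,
    mapDomain_pushforwardAlong ι ι' up up' ord_up ord_up' dich ψK hψK ψL hψL hsqψ deg_up deg_up'
      hdeg,
    mapDomain_pullbackAlong ι ι' up up' ord_up ord_up' dich dich' φK hφK φL hφL hsqφ]

include ord_up ord_up' dich dich' deg_up deg_up' hdeg hsqφ hsqψ in
/-- **a base-change map on `Pic⁰` induced by `mapDomain up` commutes with correspondences.** -/
theorem bcPic_correspondence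
    (hFIK : FundamentalIdentityAlong K φK hφK) (hfinK : FiniteAlong K ψK)
    (hNK : NormFormulaAlong K ψK hfinK)
    (hFIL : FundamentalIdentityAlong L φL hφL) (hfinL : FiniteAlong L ψL)
    (hNL : NormFormulaAlong L ψL hfinL)
    (bcP : Pic0 K FK →+ Pic0 L FL)
    (hbc : ∀ D : Divisor.degZero (K := K) (F := FK),
      ∃ D' : Divisor.degZero (K := L) (F := FL),
        (D' : Divisor L FL) = Finsupp.mapDomain up (D : Divisor K FK) ∧
          bcP (Pic0.mk D) = Pic0.mk D')
    (x : Pic0 K FK) :
    bcP (Pic0.correspondence φK ψK hφK hψK hFIK hfinK hNK x)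
      = Pic0.correspondence φL ψL hφL hψL hFIL hfinL hNL (bcP x) := by
  obtain ⟨D, rfl⟩ := Pic0.mk_surjective x
  obtain ⟨D', hD', hmk⟩ := hbc D
  obtain ⟨E', hE', hmkE⟩ := hbc (Pic0.degZeroCorrespondence φK ψK hφK hψK hFIK D)
  rw [Pic0.correspondence_mk, hmkE, hmk, Pic0.correspondence_mk]
  congr 1
  apply Subtype.ext
  rw [hE', Pic0.coe_degZeroCorrespondence, Pic0.coe_degZeroCorrespondence, hD']
  exact mapDomain_correspondence ι ι' up up' ord_up ord_up' dich dich' deg_up deg_up' hdeg
    φK ψK hφK hψK φL ψL hφL hψL hsqφ hsqψ (D : Divisor K FK)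

end Correspondence

end Fermat.Agent.S29.Desc.BcPushPull

end
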