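import Mathlib

/-!
# S29 (R3), block (Desc), leaf (G2): the fixed field of `Aut(L/K)`

`K ⊆ L` algebraically closed fields (any characteristic).

* `exists_algEquiv_shift` : for a transcendence basis `v` of `L / K` and constants `c i : K` there
  is `σ : L ≃ₐ[K] L` with `σ (v i) = v i + c i`;
* `exists_algEquiv_translate` : a transcendental `y` can be moved to `y + c` by a `K`-automorphism;
* `mem_range_of_finite_orbit` : an element of `L` whose orbit under a finite-index subgroup of
  `L ≃ₐ[K] L` is finite lies in `K`;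
* `mem_range_of_forall_fixed` : the fixed field of `L ≃ₐ[K] L` is `K`.
-/

set_option autoImplicit false

open MvPolynomial

namespace Fermat.Agent.S29.Desc.AutFixed

section Translate

variable {K : Type*} [Field K] {ι : Type*}

/-- The `K`-algebra endomorphism `X_i ↦ X_i + c i` of the polynomial ring. -/
noncomputable def shiftHom (c : ι → K) : MvPolynomial ι K →ₐ[K] MvPolynomial ι K :=
  aeval fun i => X i + C (c i)

@[simp] theorem shiftHom_X (c : ι → K) (i : ι) : shiftHom c (X i) = X i + C (c i) := by
  simp [shiftHom]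

theorem shiftHom_comp (c d : ι → K) :
    (shiftHom c).comp (shiftHom d) = shiftHom (c + d) := by
  apply MvPolynomial.algHom_ext
  intro i
  simp [shiftHom, add_assoc, add_comm (C (c i))]

theorem shiftHom_zero : shiftHom (0 : ι → K) = AlgHom.id K (MvPolynomial ι K) := by
  apply MvPolynomial.algHom_ext
  intro i
  simp [shiftHom]

/-- The `K`-algebra automorphism `X_i ↦ X_i + c i` of the polynomial ring. -/
noncomputable def shiftEquiv (c : ι → K) : MvPolynomial ι K ≃ₐ[K] MvPolynomial ι K :=
  AlgEquiv.ofAlgHom (shiftHom c) (shiftHom (-c))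
    (by rw [shiftHom_comp, add_neg_cancel, shiftHom_zero])
    (by rw [shiftHom_comp, neg_add_cancel, shiftHom_zero])

@[simp] theorem shiftEquiv_X (c : ι → K) (i : ι) : shiftEquiv c (X i) = X i + C (c i) := by
  simp [shiftEquiv]

end Translate

section Extend

variable {K L : Type*} [Field K] [Field L] [Algebra K L] [IsAlgClosed L]
variable {ι : Type*} {v : ι → L}

/-- Given a transcendence basis `v` of an algebraically closed field `L` over `K` and a family of
constants `c`, there is a `K`-automorphism of `L` sending `v i` to `v i + c i`. -/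
theorem exists_algEquiv_shift (hv : IsTranscendenceBasis K v) (c : ι → K) :
    ∃ σ : L ≃ₐ[K] L, ∀ i, σ (v i) = v i + algebraMap K L (c i) := by
  classical
  let _ := IsAlgClosed.isAlgClosure_of_transcendence_basis v hv
  let A := Algebra.adjoin K (Set.range v)
  let e : A ≃ₐ[K] A := (hv.1.aevalEquiv.symm.trans (shiftEquiv c)).trans hv.1.aevalEquiv
  let σ₀ : L ≃+* L := IsAlgClosure.equivOfEquiv L L e.toRingEquiv
  have hσ₀ : ∀ a : A, σ₀ (algebraMap A L a) = algebraMap A L (e a) := fun a =>
    IsAlgClosure.equivOfEquiv_algebraMap L L e.toRingEquiv a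
  have hcomm : ∀ k : K, σ₀ (algebraMap K L k) = algebraMap K L k := by
    intro k
    have h1 : algebraMap K L k = algebraMap A L (algebraMap K A k) := rfl
    rw [h1, hσ₀, e.commutes]
  refine ⟨AlgEquiv.ofRingEquiv (f := σ₀) hcomm, fun i => ?_⟩
  have hvi : v i = algebraMap A L (hv.1.aevalEquiv (X i)) := by
    simp [AlgebraicIndependent.aevalEquiv]
  have he : e (hv.1.aevalEquiv (X i)) = hv.1.aevalEquiv (X i + C (c i)) := by
    simp [e]
  have h2 : algebraMap A L (hv.1.aevalEquiv (X i + C (c i))) = v i + algebraMap K L (c i) := by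
    simp [AlgebraicIndependent.aevalEquiv]
  show σ₀ (v i) = _
  conv_lhs => rw [hvi]
  rw [hσ₀, he, h2]

/-- A transcendental element can be translated by any constant by a `K`-automorphism. -/
theorem exists_algEquiv_translate {y : L} (hy : Transcendental K y) (c : K) :
    ∃ σ : L ≃ₐ[K] L, σ y = y + algebraMap K L c := by
  classical
  have hs : AlgebraicIndepOn K id ({y} : Set L) := by
    have : AlgebraicIndependent K (fun i : ({y} : Set L) => (i : L)) :=
      (algebraicIndependent_singleton_iff (⟨y, rfl⟩ : ({y} : Set L))).2 hy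
    exact this
  obtain ⟨t, hyt, ht⟩ := exists_isTranscendenceBasis_superset hs
  have hyt' : y ∈ t := hyt rfl
  obtain ⟨σ, hσ⟩ := exists_algEquiv_shift ht (fun i : t => if (i : L) = y then c else 0)
  refine ⟨σ, ?_⟩
  have := hσ ⟨y, hyt'⟩
  simpa using this

end Extend

section Main

variable {K L : Type*} [Field K] [Field L] [Algebra K L] [IsAlgClosed K] [IsAlgClosed L]

omit [IsAlgClosed L] in
/-- Over an algebraically closed field, an element outside the base field is transcendental. -/
theorem transcendental_of_not_mem_range {y : L} (hy : y ∉ Set.range (algebraMap K L)) :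
    Transcendental K y := by
  intro halg
  apply hy
  have : Algebra.IsAlgebraic K (IntermediateField.adjoin K {y}) :=
    IntermediateField.isAlgebraic_adjoin_simple halg.isIntegral
  have hbot := IntermediateField.eq_bot_of_isAlgClosed_of_isAlgebraic (IntermediateField.adjoin K {y})
  have hmem : y ∈ IntermediateField.adjoin K {y} := IntermediateField.mem_adjoin_simple_self K y
  rw [hbot] at hmem
  exact IntermediateField.mem_bot.1 hmem

/-- An element of `L` with finite orbit under `Aut(L/K)` lies in `K`. -/
theorem mem_range_of_finite_orbit_top (y : L)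
    (hfin : (Set.range fun σ : L ≃ₐ[K] L => σ y).Finite) :
    y ∈ Set.range (algebraMap K L) := by
  by_contra hy
  have hy' : Transcendental K y := transcendental_of_not_mem_range hy
  choose σ hσ using fun c : K => exists_algEquiv_translate (L := L) hy' c
  have hinj : Function.Injective fun c : K => σ c y := by
    intro c d hcd
    simp only [hσ] at hcd
    exact (algebraMap K L).injective (add_left_cancel hcd)
  have hinf : (Set.range fun c : K => σ c y).Infinite := Set.infinite_range_of_injective hinj
  apply hinf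
  refine hfin.subset ?_
  rintro _ ⟨c, rfl⟩
  exact ⟨σ c, rfl⟩

/-- An element of `L` with finite orbit under a finite-index subgroup of `Aut(L/K)` lies in `K`. -/
theorem mem_range_of_finite_orbit (y : L) (H : Subgroup (L ≃ₐ[K] L)) [H.FiniteIndex]
    (hfin : (Set.range fun σ : H => (σ : L ≃ₐ[K] L) y).Finite) :
    y ∈ Set.range (algebraMap K L) := by
  classical
  apply mem_range_of_finite_orbit_top
  have : Finite ((L ≃ₐ[K] L) ⧸ H) := Subgroup.finite_quotient_of_finiteIndex
  set S := Set.range fun σ : H => (σ : L ≃ₐ[K] L) y with hS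
  have hsub : (Set.range fun σ : L ≃ₐ[K] L => σ y) ⊆
      ⋃ q : (L ≃ₐ[K] L) ⧸ H, (fun z => (Quotient.out q : L ≃ₐ[K] L) z) '' S := by
    rintro _ ⟨σ, rfl⟩
    refine Set.mem_iUnion.2 ⟨(QuotientGroup.mk σ : (L ≃ₐ[K] L) ⧸ H), ?_⟩
    set g : L ≃ₐ[K] L := Quotient.out (QuotientGroup.mk σ : (L ≃ₐ[K] L) ⧸ H) with hg
    have hmem : g⁻¹ * σ ∈ H := by
      have : (QuotientGroup.mk g : (L ≃ₐ[K] L) ⧸ H) = QuotientGroup.mk σ := by
        rw [hg]; exact Quotient.out_eq _
      exact QuotientGroup.eq.1 this
    refine ⟨(g⁻¹ * σ) y, ⟨⟨g⁻¹ * σ, hmem⟩, rfl⟩, ?_⟩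
    show g ((g⁻¹ * σ) y) = σ y
    rw [← AlgEquiv.mul_apply, mul_inv_cancel_left]
  exact (Set.finite_iUnion fun q => hfin.image _).subset hsub

/-- The fixed field of `Aut(L/K)` is `K`. -/
theorem mem_range_of_forall_fixed (y : L) (h : ∀ σ : L ≃ₐ[K] L, σ y = y) :
    y ∈ Set.range (algebraMap K L) := by
  apply mem_range_of_finite_orbit_top
  refine (Set.finite_singleton y).subset ?_
  rintro _ ⟨σ, rfl⟩
  exact h σ

end Main

end Fermat.Agent.S29.Desc.AutFixed
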