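import Mathlib
import Fermat.Prelude.Def_AlgebraicCurve_BaseChangeGalois
import Fermat.Agent.S24.FFDeriv

set_option autoImplicit false

/-!
(R3-Desc G3)  The canonical effective representative of a divisor class of degree zero,
relative to a place `P` of degree one and a divisor `Dinf`:

* `k` is the least natural number such that `L(D + k • Dinf) ≠ 0`,
* `w` is the (unique up to a constant) element of `L(D + k • Dinf)` of maximal order at `P`,
* `E = div w + D + k • Dinf ≥ 0`.

`E` depends only on the class of `D`, and is equivariant under every semilinear automorphism fixing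
`P` and `Dinf`.  No Riemann–Roch, no finite-dimensionality: only `HasPrincipalDivisors`.
-/

open AlgebraicCurve

namespace Fermat.Agent.S29.Desc.CanonicalRep

open Fermat.Agent.S24

variable {K F : Type*} [Field K] [Field F] [Algebra K F]

/-! ### the divisor of a function -/

section divOf

variable [HasPrincipalDivisors K F]

open Classical in
/-- the divisor of a function (zero for the zero function) -/
noncomputable def divOf (f : F) : Divisor K F :=
  if h : f ≠ 0 then Classical.choose (HasPrincipalDivisors.exists_divisor (K := K) f h) else 0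

theorem divOf_apply (f : F) (v : Place K F) : divOf (K := K) f v = v.ord f := by
  unfold divOf
  split_ifs with h
  · exact (Classical.choose_spec (HasPrincipalDivisors.exists_divisor (K := K) f h)).1 v
  · rw [not_not] at h
    subst h
    simp

theorem degree_divOf (f : F) : Divisor.degree (divOf (K := K) f) = 0 := by
  unfold divOf
  split_ifs with h
  · exact (Classical.choose_spec (HasPrincipalDivisors.exists_divisor (K := K) f h)).2
  · simp

theorem divOf_mul {f g : F} (hf : f ≠ 0) (hg : g ≠ 0) :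
    divOf (K := K) (f * g) = divOf f + divOf g := by
  ext v
  rw [Finsupp.add_apply, divOf_apply, divOf_apply, divOf_apply, v.ord_mul hf hg]

theorem divOf_const_mul {c : K} (f : F) :
    divOf (K := K) (algebraMap K F c * f) = divOf f ∨ c = 0 := by
  rcases eq_or_ne c 0 with rfl | hc
  · exact Or.inr rfl
  left
  rcases eq_or_ne f 0 with rfl | hf
  · simp
  ext v
  rw [divOf_apply, divOf_apply, v.ord_mul (by simpa using hc) hf, FFDeriv.ord_algebraMap, zero_add]

theorem divOf_smul (g : SemilinearAut K F) (f : F) :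
    divOf (K := K) (g • f) = g • divOf f := by
  ext v
  rw [SemilinearAut.divisor_smul_apply, divOf_apply, divOf_apply]
  have := SemilinearAut.ord_smul g (g⁻¹ • v) f
  rwa [smul_inv_smul] at this

theorem divOf_mem_principal {f : F} (hf : f ≠ 0) :
    divOf (K := K) f ∈ Divisor.principal (K := K) (F := F) :=
  ⟨f, hf, divOf_apply f⟩

end divOf

/-! ### nonzero elements of the Riemann–Roch space -/

/-- the nonzero elements of `L(D)` -/
def LSet (D : Divisor K F) : Set F := {f | f ≠ 0 ∧ ∀ v : Place K F, 0 ≤ v.ord f + D v}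

theorem mem_LSet {D : Divisor K F} {f : F} :
    f ∈ LSet D ↔ f ≠ 0 ∧ ∀ v : Place K F, 0 ≤ v.ord f + D v := Iff.rfl

theorem mul_mem_LSet_iff {D : Divisor K F} {f h : F} (hh : h ≠ 0) (Dh : Divisor K F)
    (hDh : ∀ v : Place K F, Dh v = v.ord h) :
    f ∈ LSet (D + Dh) ↔ f * h ∈ LSet D := by
  constructor
  · rintro ⟨hf, hv⟩
    refine ⟨mul_ne_zero hf hh, fun v => ?_⟩
    have := hv v
    rw [Finsupp.add_apply, hDh] at this
    rw [v.ord_mul hf hh]
    omega
  · rintro ⟨hfh, hv⟩
    have hf : f ≠ 0 := left_ne_zero_of_mul hfh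
    refine ⟨hf, fun v => ?_⟩
    have := hv v
    rw [v.ord_mul hf hh] at this
    rw [Finsupp.add_apply, hDh]
    omega

theorem smul_ne_zero_iff' (g : SemilinearAut K F) {f : F} : g • f ≠ 0 ↔ f ≠ 0 := by
  rw [SemilinearAut.smul_def]
  exact (map_ne_zero_iff _ (SemilinearAut.toRingAut g).injective)

theorem smul_mem_LSet_iff (g : SemilinearAut K F) {D : Divisor K F} {f : F} :
    g • f ∈ LSet (g • D) ↔ f ∈ LSet D := by
  constructor
  · rintro ⟨hf, hv⟩
    refine ⟨(smul_ne_zero_iff' g).mp hf, fun v => ?_⟩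
    have := hv (g • v)
    rwa [SemilinearAut.ord_smul, SemilinearAut.divisor_smul_apply_smul] at this
  · rintro ⟨hf, hv⟩
    refine ⟨(smul_ne_zero_iff' g).mpr hf, fun w => ?_⟩
    have := hv (g⁻¹ • w)
    have h1 := SemilinearAut.ord_smul g (g⁻¹ • w) f
    rw [smul_inv_smul] at h1
    rw [h1, SemilinearAut.divisor_smul_apply]
    exact this

theorem mem_LSet_smul_iff (g : SemilinearAut K F) {D : Divisor K F} {f : F} :
    f ∈ LSet (g • D) ↔ g⁻¹ • f ∈ LSet D := by
  rw [← smul_mem_LSet_iff g (f := g⁻¹ • f), smul_inv_smul]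

theorem const_mul_mem_LSet {D : Divisor K F} {c : K} (hc : c ≠ 0) {f : F} (hf : f ∈ LSet D) :
    algebraMap K F c * f ∈ LSet D := by
  have hc' : algebraMap K F c ≠ 0 := by simpa using hc
  refine ⟨mul_ne_zero hc' hf.1, fun v => ?_⟩
  rw [v.ord_mul hc' hf.1, FFDeriv.ord_algebraMap, zero_add]
  exact hf.2 v

theorem sub_mem_LSet {D : Divisor K F} {f g : F} (hf : f ∈ LSet D) (hg : g ∈ LSet D)
    (hne : f - g ≠ 0) : f - g ∈ LSet D := by
  refine ⟨hne, fun v => ?_⟩
  have h1 := FFDeriv.min_le_ord_add v (x := f) (y := -g) (by rwa [← sub_eq_add_neg])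
  rw [FFDeriv.ord_neg, ← sub_eq_add_neg] at h1
  have h2 := hf.2 v
  have h3 := hg.2 v
  rcases min_le_iff.mp (le_refl (min (v.ord f) (v.ord g))) with h | h <;> omega

/-! ### degree bound -/

theorem degree_eq_sum (E : Divisor K F) :
    Divisor.degree E = E.sum fun v n => n * (v.deg : ℤ) := by
  unfold Divisor.degree
  rw [Finsupp.liftAddHom_apply]
  rfl

theorem apply_mul_deg_le_degree (E : Divisor K F) (hE : ∀ v, 0 ≤ E v) (P : Place K F) :
    E P * (P.deg : ℤ) ≤ Divisor.degree E := by
  rw [degree_eq_sum, Finsupp.sum]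
  by_cases hP : P ∈ E.support
  · exact Finset.single_le_sum (f := fun v => E v * (v.deg : ℤ))
      (fun v _ => mul_nonneg (hE v) (Int.natCast_nonneg _)) hP
  · rw [Finsupp.notMem_support_iff.mp hP, zero_mul]
    exact Finset.sum_nonneg fun v _ => mul_nonneg (hE v) (Int.natCast_nonneg _)

theorem ord_le_of_mem_LSet [HasPrincipalDivisors K F] (P : Place K F) (hdeg : P.deg = 1)
    (D : Divisor K F) {f : F} (hf : f ∈ LSet D) :
    P.ord f ≤ Divisor.degree D - D P := by
  have h1 := apply_mul_deg_le_degree (divOf f + D)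
    (fun v => by rw [Finsupp.add_apply, divOf_apply]; exact hf.2 v) P
  rw [map_add, degree_divOf, zero_add, hdeg, Finsupp.add_apply, divOf_apply] at h1
  simp only [Nat.cast_one, mul_one] at h1
  omega

/-! ### residue field `= K` at a place of degree one -/

theorem pos_ord_of_mem_maximalIdeal (P : Place K F) {x : P.toValuationSubring}
    (hx : x ∈ IsLocalRing.maximalIdeal P.toValuationSubring) (hx0 : (x : F) ≠ 0) :
    0 < P.ord (x : F) := by
  have h0 : 0 ≤ P.ord (x : F) := FFDeriv.ord_nonneg_of_mem P x.2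
  rcases h0.lt_or_eq with h | h
  · exact h
  exfalso
  have hinv : (x : F)⁻¹ ∈ P.toValuationSubring := by
    apply FFDeriv.mem_of_ord_nonneg
    rw [P.ord_inv, ← h]
    simp
  have hunit : IsUnit x := by
    refine isUnit_iff_exists_inv.mpr ⟨⟨(x : F)⁻¹, hinv⟩, ?_⟩
    ext
    simp [hx0]
  exact (IsLocalRing.mem_maximalIdeal _).mp hx hunit

theorem exists_const_of_deg_eq_one (P : Place K F) (hdeg : P.deg = 1) {u : F}
    (hu : 0 ≤ P.ord u) :
    ∃ c : K, u - algebraMap K F c = 0 ∨ 0 < P.ord (u - algebraMap K F c) := by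
  have humem : u ∈ P.toValuationSubring := FFDeriv.mem_of_ord_nonneg P hu
  have hbot : (⊥ : Subalgebra K P.ResidueField) = ⊤ :=
    Subalgebra.bot_eq_top_of_finrank_eq_one hdeg
  have hmem : IsLocalRing.residue P.toValuationSubring ⟨u, humem⟩
      ∈ (⊥ : Subalgebra K P.ResidueField) := by
    rw [hbot]; exact Algebra.mem_top
  obtain ⟨c, hc⟩ := Algebra.mem_bot.mp hmem
  refine ⟨c, ?_⟩
  have hres : IsLocalRing.residue P.toValuationSubring
      (⟨u, humem⟩ - algebraMap K P.toValuationSubring c) = 0 := by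
    rw [map_sub, ← hc]
    exact sub_eq_zero.mpr rfl
  have hmax := (IsLocalRing.residue_eq_zero_iff _).mp hres
  by_cases h0 : u - algebraMap K F c = 0
  · exact Or.inl h0
  · right
    have := pos_ord_of_mem_maximalIdeal P hmax (by simpa using h0)
    simpa using this

/-! ### canonical pairs -/

variable (P : Place K F) (Dinf : Divisor K F)

/-- `(k, w)` is a canonical pair for `D`: `k` is minimal with `L(D + k Dinf) ≠ 0` and `w` has
maximal order at `P` in it. -/
structure IsCanon (D : Divisor K F) (k : ℕ) (w : F) : Prop where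
  mem : w ∈ LSet (D + k • Dinf)
  min : ∀ j : ℕ, j < k → ∀ f : F, f ∉ LSet (D + j • Dinf)
  max : ∀ f ∈ LSet (D + k • Dinf), P.ord f ≤ P.ord w

variable {P Dinf}

theorem IsCanon.unique (hdeg : P.deg = 1) {D : Divisor K F} {k k' : ℕ} {w w' : F}
    (h : IsCanon P Dinf D k w) (h' : IsCanon P Dinf D k' w') :
    k = k' ∧ ∃ c : K, c ≠ 0 ∧ w = algebraMap K F c * w' := by
  have hk : k = k' := by
    rcases lt_trichotomy k k' with hlt | heq | hgt
    · exact absurd h.mem (h'.min k hlt w)
    · exact heq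
    · exact absurd h'.mem (h.min k' hgt w')
  subst hk
  refine ⟨rfl, ?_⟩
  have hw : w ≠ 0 := h.mem.1
  have hw' : w' ≠ 0 := h'.mem.1
  have hord : P.ord w = P.ord w' := le_antisymm (h'.max w h.mem) (h.max w' h'.mem)
  have hu : P.ord (w / w') = 0 := by
    rw [div_eq_mul_inv, P.ord_mul hw (inv_ne_zero hw'), P.ord_inv, hord]; ring
  obtain ⟨c, hc⟩ := exists_const_of_deg_eq_one P hdeg (u := w / w') (by rw [hu])
  have hmul : w - algebraMap K F c * w' = (w / w' - algebraMap K F c) * w' := by
    field_simp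
  rcases hc with hc | hc
  · have hweq : w = algebraMap K F c * w' := by
      have : w - algebraMap K F c * w' = 0 := by rw [hmul, hc, zero_mul]
      exact sub_eq_zero.mp this
    refine ⟨c, ?_, hweq⟩
    rintro rfl
    apply hw
    rw [hweq]; simp
  · exfalso
    have hne : w / w' - algebraMap K F c ≠ 0 := by
      intro h0
      rw [h0] at hc
      simp at hc
    have hc0 : c ≠ 0 := by
      rintro rfl
      rw [map_zero, sub_zero, hu] at hc
      exact lt_irrefl _ hc
    have hne2 : w - algebraMap K F c * w' ≠ 0 := by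
      rw [hmul]; exact mul_ne_zero hne hw'
    have hmem := sub_mem_LSet h.mem (const_mul_mem_LSet hc0 h'.mem) hne2
    have hle := h.max _ hmem
    rw [hmul, P.ord_mul hne hw'] at hle
    omega

theorem IsCanon.of_add_principal {D : Divisor K F} {k : ℕ} {w h : F} (hh : h ≠ 0)
    (Dh : Divisor K F) (hDh : ∀ v : Place K F, Dh v = v.ord h)
    (hc : IsCanon P Dinf (D + Dh) k w) : IsCanon P Dinf D k (w * h) := by
  have hrw : ∀ j : ℕ, D + Dh + j • Dinf = (D + j • Dinf) + Dh := fun j => add_right_comm _ _ _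
  refine ⟨?_, ?_, ?_⟩
  · have := hc.mem
    rw [hrw, mul_mem_LSet_iff hh Dh hDh] at this
    exact this
  · intro j hj f hf
    apply hc.min j hj (f * h⁻¹)
    rw [hrw, mul_mem_LSet_iff hh Dh hDh, mul_assoc, inv_mul_cancel₀ hh, mul_one]
    exact hf
  · intro f hf
    have hmem : f * h⁻¹ ∈ LSet (D + Dh + k • Dinf) := by
      rw [hrw, mul_mem_LSet_iff hh Dh hDh, mul_assoc, inv_mul_cancel₀ hh, mul_one]
      exact hf
    have hle := hc.max _ hmem
    rw [P.ord_mul hf.1 (inv_ne_zero hh), P.ord_inv] at hle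
    rw [P.ord_mul hc.mem.1 hh]
    omega

theorem IsCanon.smul (g : SemilinearAut K F) (hP : g • P = P) (hD : g • Dinf = Dinf)
    {D : Divisor K F} {k : ℕ} {w : F} (hc : IsCanon P Dinf D k w) :
    IsCanon P Dinf (g • D) k (g • w) := by
  have hrw : ∀ j : ℕ, g • D + j • Dinf = g • (D + j • Dinf) := fun j => by
    rw [smul_add, smul_comm g j Dinf, hD]
  have hordP : ∀ f : F, P.ord (g • f) = P.ord f := fun f => by
    have := SemilinearAut.ord_smul g P f
    rwa [hP] at this
  refine ⟨?_, ?_, ?_⟩
  · rw [hrw, smul_mem_LSet_iff]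
    exact hc.mem
  · intro j hj f hf
    rw [hrw, mem_LSet_smul_iff] at hf
    exact hc.min j hj _ hf
  · intro f hf
    rw [hrw, mem_LSet_smul_iff] at hf
    have hle := hc.max _ hf
    rw [hordP]
    have : P.ord f = P.ord (g⁻¹ • f) := by
      rw [← hordP (g⁻¹ • f), smul_inv_smul]
    rw [this]
    exact hle

/-! ### existence -/

variable (P Dinf)

/-- the hypotheses on `(P, Dinf)` -/
structure Setup [HasPrincipalDivisors K F] : Prop where
  deg_eq_one : P.deg = 1
  exists_nonempty : ∀ D : Divisor K F, Divisor.degree D = 0 →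
    ∃ k : ℕ, (LSet (D + k • Dinf)).Nonempty

variable {P Dinf}

theorem exists_isCanon [HasPrincipalDivisors K F] (hS : Setup P Dinf) (D : Divisor K F)
    (hD : Divisor.degree D = 0) : ∃ (k : ℕ) (w : F), IsCanon P Dinf D k w := by
  classical
  have hex := hS.exists_nonempty D hD
  set k := Nat.find hex with hk
  have hkne : (LSet (D + k • Dinf)).Nonempty := Nat.find_spec hex
  have hmin : ∀ j : ℕ, j < k → ∀ f : F, f ∉ LSet (D + j • Dinf) := fun j hj f hf =>
    Nat.find_min hex hj ⟨f, hf⟩
  obtain ⟨f0, hf0⟩ := hkne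
  obtain ⟨m, ⟨w, hw, hwm⟩, hmax⟩ := Int.exists_greatest_of_bdd
    (P := fun z : ℤ => ∃ f ∈ LSet (D + k • Dinf), P.ord f = z)
    ⟨Divisor.degree (D + k • Dinf) - (D + k • Dinf) P, fun z ⟨f, hf, hz⟩ =>
      hz ▸ ord_le_of_mem_LSet P hS.deg_eq_one _ hf⟩
    ⟨P.ord f0, f0, hf0, rfl⟩
  exact ⟨k, w, hw, hmin, fun f hf => hwm ▸ hmax _ ⟨f, hf, rfl⟩⟩

/-! ### the canonical representative of a class -/

section canon

variable [HasPrincipalDivisors K F]

variable (P Dinf)

open Classical in
/-- the canonical effective representative `E(x)` of `x ∈ Pic⁰` (junk value `0` if no canonical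
pair exists) -/
noncomputable def canonRep (x : Pic0 K F) : Divisor K F :=
  if h : ∃ (D : Divisor.degZero (K := K) (F := F)) (k : ℕ) (w : F),
      Pic0.mk D = x ∧ IsCanon P Dinf (D : Divisor K F) k w then
    divOf h.choose_spec.choose_spec.choose + (h.choose : Divisor K F) + h.choose_spec.choose • Dinf
  else 0

open Classical in
/-- the canonical degree `k(x)` -/
noncomputable def canonDeg (x : Pic0 K F) : ℕ :=
  if h : ∃ (D : Divisor.degZero (K := K) (F := F)) (k : ℕ) (w : F),
      Pic0.mk D = x ∧ IsCanon P Dinf (D : Divisor K F) k w then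
    h.choose_spec.choose
  else 0

variable {P Dinf}

theorem canon_unique (hdeg : P.deg = 1) {D D' : Divisor.degZero (K := K) (F := F)}
    {k k' : ℕ} {w w' : F} (hxx : Pic0.mk D = Pic0.mk D')
    (hc : IsCanon P Dinf (D : Divisor K F) k w) (hc' : IsCanon P Dinf (D' : Divisor K F) k' w') :
    divOf w' + (D' : Divisor K F) + k' • Dinf = divOf w + (D : Divisor K F) + k • Dinf
      ∧ k' = k := by
  -- `D' - D` is principal
  have hprin : -(D : Divisor K F) + (D' : Divisor K F) ∈ Divisor.principal (K := K) (F := F) := by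
    have h1 : (QuotientAddGroup.mk D : Pic0 K F) = QuotientAddGroup.mk D' := hxx
    have h2 := QuotientAddGroup.eq.mp h1
    rw [AddSubgroup.mem_addSubgroupOf] at h2
    simpa using h2
  obtain ⟨t, ht, hDt⟩ := hprin
  have hD'eq : (D' : Divisor K F)
      = (D : Divisor K F) + (-(D : Divisor K F) + (D' : Divisor K F)) := by
    abel
  have hc'' : IsCanon P Dinf
      ((D : Divisor K F) + (-(D : Divisor K F) + (D' : Divisor K F))) k' w' := by
    rw [← hD'eq]; exact hc'
  have hc3 := hc''.of_add_principal ht _ hDt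
  obtain ⟨hkk, c, hc0, hwc⟩ := hc3.unique hdeg hc
  refine ⟨?_, hkk⟩
  rw [hkk]
  have hw'0 : w' ≠ 0 := hc'.mem.1
  have hdiv : divOf (K := K) w' + (-(D : Divisor K F) + (D' : Divisor K F)) = divOf w := by
    ext v
    rw [Finsupp.add_apply, divOf_apply, divOf_apply, hDt, ← v.ord_mul hw'0 ht, hwc,
      v.ord_mul (by simpa using hc0) hc.mem.1, FFDeriv.ord_algebraMap, zero_add]
  rw [← hdiv]
  abel

theorem canon_eq (hdeg : P.deg = 1) {x : Pic0 K F} {D : Divisor.degZero (K := K) (F := F)}
    {k : ℕ} {w : F} (hx : Pic0.mk D = x) (hc : IsCanon P Dinf (D : Divisor K F) k w) :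
    canonRep P Dinf x = divOf w + (D : Divisor K F) + k • Dinf ∧ canonDeg P Dinf x = k := by
  have h : ∃ (D : Divisor.degZero (K := K) (F := F)) (k : ℕ) (w : F),
      Pic0.mk D = x ∧ IsCanon P Dinf (D : Divisor K F) k w := ⟨D, k, w, hx, hc⟩
  have hrep : canonRep P Dinf x = divOf h.choose_spec.choose_spec.choose
      + (h.choose : Divisor K F) + h.choose_spec.choose • Dinf := by
    unfold canonRep; rw [dif_pos h]
  have hdegk : canonDeg P Dinf x = h.choose_spec.choose := by
    unfold canonDeg; rw [dif_pos h]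
  obtain ⟨hx', hc'⟩ := h.choose_spec.choose_spec.choose_spec
  have hu := canon_unique hdeg (hx.trans hx'.symm) hc hc'
  exact ⟨hrep.trans hu.1, hdegk.trans hu.2⟩

theorem exists_canon (hS : Setup P Dinf) (x : Pic0 K F) :
    ∃ (D : Divisor.degZero (K := K) (F := F)) (k : ℕ) (w : F),
      Pic0.mk D = x ∧ IsCanon P Dinf (D : Divisor K F) k w ∧
      canonRep P Dinf x = divOf w + (D : Divisor K F) + k • Dinf ∧ canonDeg P Dinf x = k := by
  obtain ⟨D, rfl⟩ := Pic0.mk_surjective x
  obtain ⟨k, w, hc⟩ := exists_isCanon hS (D : Divisor K F) D.2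
  exact ⟨D, k, w, rfl, hc, canon_eq hS.deg_eq_one rfl hc⟩

/-- `E(x)` is effective -/
theorem canonRep_nonneg (hS : Setup P Dinf) (x : Pic0 K F) (v : Place K F) :
    0 ≤ canonRep P Dinf x v := by
  obtain ⟨D, k, w, -, hc, hE, -⟩ := exists_canon hS x
  rw [hE]
  have := hc.mem.2 v
  rw [Finsupp.add_apply] at this
  rw [Finsupp.add_apply, Finsupp.add_apply, divOf_apply]
  omega

/-- `E(x) - k(x) • Dinf` has degree zero and represents `x` -/
theorem canonRep_class (hS : Setup P Dinf) (x : Pic0 K F) :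
    ∃ D : Divisor.degZero (K := K) (F := F), Pic0.mk D = x ∧
      (D : Divisor K F) = canonRep P Dinf x - canonDeg P Dinf x • Dinf := by
  obtain ⟨D, k, w, hx, hc, hE, hk⟩ := exists_canon hS x
  have hdeg0 : divOf (K := K) w + (D : Divisor K F) ∈ Divisor.degZero (K := K) (F := F) := by
    rw [Divisor.mem_degZero, map_add, degree_divOf, zero_add]
    exact D.2
  refine ⟨⟨_, hdeg0⟩, ?_, ?_⟩
  · rw [← hx]
    symm
    apply QuotientAddGroup.eq.mpr
    rw [AddSubgroup.mem_addSubgroupOf]
    have : ((-D + ⟨_, hdeg0⟩ : Divisor.degZero (K := K) (F := F)) : Divisor K F) = divOf w := by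
      simp
    rw [this]
    exact divOf_mem_principal hc.mem.1
  · rw [hE, hk]
    simp

/-- equivariance of `E(x)` and `k(x)` -/
theorem canon_smul (hS : Setup P Dinf) (g : SemilinearAut K F) (hP : g • P = P)
    (hD : g • Dinf = Dinf) (x : Pic0 K F) :
    canonRep P Dinf (g • x) = g • canonRep P Dinf x ∧
      canonDeg P Dinf (g • x) = canonDeg P Dinf x := by
  obtain ⟨D, k, w, hx, hc, hE, hk⟩ := exists_canon hS x
  have hc' := hc.smul g hP hD
  have hx' : Pic0.mk (SemilinearAut.degZeroSMulHom g D) = g • x := by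
    rw [← hx, SemilinearAut.pic0_smul_mk]
  have h := canon_eq hS.deg_eq_one hx' (by rw [SemilinearAut.coe_degZeroSMulHom]; exact hc')
  refine ⟨?_, h.2.trans hk.symm⟩
  rw [h.1, hE, SemilinearAut.coe_degZeroSMulHom, smul_add, smul_add, divOf_smul,
    smul_comm g k Dinf, hD]

theorem canonRep_smul (hS : Setup P Dinf) (g : SemilinearAut K F) (hP : g • P = P)
    (hD : g • Dinf = Dinf) (x : Pic0 K F) :
    canonRep P Dinf (g • x) = g • canonRep P Dinf x :=
  (canon_smul hS g hP hD x).1

theorem canonDeg_smul (hS : Setup P Dinf) (g : SemilinearAut K F) (hP : g • P = P)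
    (hD : g • Dinf = Dinf) (x : Pic0 K F) :
    canonDeg P Dinf (g • x) = canonDeg P Dinf x :=
  (canon_smul hS g hP hD x).2

/-- the stabiliser of `x` permutes the support of `E(x)` -/
theorem smul_mem_support (hS : Setup P Dinf) (g : SemilinearAut K F) (hP : g • P = P)
    (hD : g • Dinf = Dinf) {x : Pic0 K F} (hx : g • x = x) {v : Place K F}
    (hv : v ∈ (canonRep P Dinf x).support) : g • v ∈ (canonRep P Dinf x).support := by
  have h := canonRep_smul hS g hP hD x
  rw [hx] at h
  rw [Finsupp.mem_support_iff] at hv ⊢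
  rw [h, SemilinearAut.divisor_smul_apply_smul]
  exact hv

end canon

end Fermat.Agent.S29.Desc.CanonicalRep
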