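import Mathlib
import Fermat.Agent.S29.Desc.CanonicalRep

set_option autoImplicit false

/-!
(R3-Desc G3, second half)  The polar divisor `polarDiv t` of a function and the hypothesis
`Setup.exists_nonempty` for `Dinf := polarDiv t`: if `t` is not a constant and all places have
degree one then for every divisor `D` there is `k` with `L(D + k (t)_∞) ≠ 0`.
-/

open AlgebraicCurve

namespace Fermat.Agent.S29.Desc.CanonicalRep

open Fermat.Agent.S24

variable {K F : Type*} [Field K] [Field F] [Algebra K F] [HasPrincipalDivisors K F]

/-- the polar divisor `(t)_∞` -/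
noncomputable def polarDiv (t : F) : Divisor K F :=
  (divOf (K := K) t).mapRange (fun n : ℤ => max 0 (-n)) (by simp)

theorem polarDiv_apply (t : F) (v : Place K F) :
    polarDiv (K := K) t v = max 0 (-(v.ord t)) := by
  unfold polarDiv
  rw [Finsupp.mapRange_apply, divOf_apply]

theorem polarDiv_nonneg (t : F) (v : Place K F) : 0 ≤ polarDiv (K := K) t v := by
  rw [polarDiv_apply]; exact le_max_left _ _

theorem polarDiv_smul (g : SemilinearAut K F) (t : F) :
    g • polarDiv (K := K) t = polarDiv (g • t) := by
  ext v
  rw [SemilinearAut.divisor_smul_apply, polarDiv_apply, polarDiv_apply]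
  have := SemilinearAut.ord_smul g (g⁻¹ • v) t
  rw [smul_inv_smul] at this
  rw [this]

theorem polarDiv_smul_of_fixed (g : SemilinearAut K F) {t : F} (ht : g • t = t) :
    g • polarDiv (K := K) t = polarDiv t := by
  rw [polarDiv_smul, ht]

/-- `ord_v (t - c) ≥ - (t)_∞ (v)` -/
theorem neg_polarDiv_le_ord_sub (t : F) (c : K) (hne : t - algebraMap K F c ≠ 0) (v : Place K F) :
    -(polarDiv (K := K) t v) ≤ v.ord (t - algebraMap K F c) := by
  have h1 := FFDeriv.min_le_ord_add v (x := t) (y := -algebraMap K F c)
    (by rwa [← sub_eq_add_neg])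
  rw [FFDeriv.ord_neg, FFDeriv.ord_algebraMap, ← sub_eq_add_neg] at h1
  rw [polarDiv_apply]
  rcases le_total (v.ord t) 0 with h | h
  · rw [min_eq_left h] at h1
    rw [max_eq_right (by omega)]
    omega
  · rw [min_eq_right h] at h1
    rw [max_eq_left (by omega)]
    omega

theorem exists_nonempty_LSet (hdeg1 : ∀ v : Place K F, v.deg = 1) {t : F}
    (htr : ∀ c : K, t ≠ algebraMap K F c) (D : Divisor K F) :
    ∃ k : ℕ, (LSet (D + k • polarDiv (K := K) t)).Nonempty := by
  classical
  induction D using Finsupp.induction with
  | zero =>
      refine ⟨0, 1, one_ne_zero, fun v => ?_⟩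
      simp
  | single_add P n D' _ _ ih =>
      obtain ⟨k', f', hf'0, hf'⟩ := ih
      have hf'v : ∀ v : Place K F, 0 ≤ v.ord f' + D' v + (k' : ℤ) * polarDiv (K := K) t v := by
        intro v
        have := hf' v
        rwa [Finsupp.add_apply, Finsupp.smul_apply, nsmul_eq_mul, ← add_assoc] at this
      rcases le_or_gt 0 n with hn | hn
      · -- nonnegative coefficient: nothing to do
        refine ⟨k', f', hf'0, fun v => ?_⟩
        rw [Finsupp.add_apply, Finsupp.add_apply, Finsupp.smul_apply, nsmul_eq_mul]
        have h1 := hf'v v
        have h2 : 0 ≤ (Finsupp.single P n : Divisor K F) v := by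
          rw [Finsupp.single_apply]; split_ifs <;> omega
        omega
      · obtain ⟨m, hm⟩ : ∃ m : ℕ, (m : ℤ) = -n := ⟨(-n).toNat, Int.toNat_of_nonneg (by omega)⟩
        rcases lt_or_ge (P.ord t) 0 with hpole | hnp
        · -- `P` is a pole of `t`
          refine ⟨k' + m, f', hf'0, fun v => ?_⟩
          rw [Finsupp.add_apply, Finsupp.add_apply, Finsupp.smul_apply, nsmul_eq_mul]
          have h1 := hf'v v
          have h3 := polarDiv_nonneg (K := K) t v
          push_cast
          by_cases hv : v = P
          · subst hv
            rw [Finsupp.single_eq_same]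
            have h4 : 1 ≤ polarDiv (K := K) t v := by
              rw [polarDiv_apply]
              exact le_max_of_le_right (by omega)
            nlinarith
          · rw [Finsupp.single_eq_of_ne hv]
            nlinarith
        · -- `P` is not a pole of `t`
          obtain ⟨c, hc⟩ := exists_const_of_deg_eq_one P (hdeg1 P) hnp
          have hne : t - algebraMap K F c ≠ 0 := fun h => htr c (sub_eq_zero.mp h)
          have hcP : 0 < P.ord (t - algebraMap K F c) := hc.resolve_left hne
          have hpow : (t - algebraMap K F c) ^ m ≠ 0 := pow_ne_zero _ hne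
          refine ⟨k' + m, f' * (t - algebraMap K F c) ^ m, mul_ne_zero hf'0 hpow, fun v => ?_⟩
          rw [Finsupp.add_apply, Finsupp.add_apply, Finsupp.smul_apply, nsmul_eq_mul,
            v.ord_mul hf'0 hpow, FFDeriv.ord_pow]
          have h1 := hf'v v
          have h2 := neg_polarDiv_le_ord_sub t c hne v
          have h3 := polarDiv_nonneg (K := K) t v
          push_cast
          by_cases hv : v = P
          · subst hv
            rw [Finsupp.single_eq_same]
            have h4 : polarDiv (K := K) t v = 0 := by
              rw [polarDiv_apply]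
              exact max_eq_left (by omega)
            rw [h4] at h1 ⊢
            have h5 : (m : ℤ) * 1 ≤ (m : ℤ) * v.ord (t - algebraMap K F c) :=
              mul_le_mul_of_nonneg_left (by omega) (by omega)
            omega
          · rw [Finsupp.single_eq_of_ne hv]
            have h5 : 0 ≤ (m : ℤ) * (v.ord (t - algebraMap K F c) + polarDiv (K := K) t v) :=
              mul_nonneg (by omega) (by omega)
            nlinarith

/-- the `Setup` for `Dinf := (t)_∞` -/
theorem setup_polarDiv (P : Place K F) (hdeg1 : ∀ v : Place K F, v.deg = 1) {t : F}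
    (htr : ∀ c : K, t ≠ algebraMap K F c) : Setup P (polarDiv (K := K) t) :=
  ⟨hdeg1 P, fun D _ => exists_nonempty_LSet hdeg1 htr D⟩

end Fermat.Agent.S29.Desc.CanonicalRep
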