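import Mathlib
import Fermat.Agent.S29.Desc.AutFixed
import Fermat.Agent.S29.Desc.PolarSetup

set_option autoImplicit false
set_option linter.unusedSectionVars false

/-!
(R3-Desc G4 + surjectivity)  Abstract constant field extension `K ⊆ L` (both algebraically closed)
of function fields `FK / K`, `FL / L`, with the coefficientwise action of `Aut(L/K)` on `FL`.

* `comap_ne_top_of_finite_orbit` : a place of `FL` whose orbit under a finite-index subgroup of
  `Aut(L/K)` is finite restricts to a NONTRIVIAL valuation ring of `FK`;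
* `exists_preimage` : a class `x ∈ Pic⁰(FL)` with finite `Aut(L/K)`-orbit is the class of
  `mapDomain up D₀` for a divisor `D₀` of degree zero of `FK`.

Everything about places (`up`, injectivity, the dichotomy, degrees) is a hypothesis, bundled in the
structure `Data`.
-/

open AlgebraicCurve

namespace Fermat.Agent.S29.Desc.Surject

open Fermat.Agent.S24 Fermat.Agent.S29.Desc.CanonicalRep

variable (K L FK FL : Type*) [Field K] [Field L] [Field FK] [Field FL]
  [Algebra K L] [Algebra K FK] [Algebra L FL]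

/-- the hypotheses: a constant field extension with its places layer and the action of
`Aut(L/K)` -/
structure Data where
  /-- the embedding of function fields -/
  ι : FK →+* FL
  ι_const : ∀ a : K, ι (algebraMap K FK a) = algebraMap L FL (algebraMap K L a)
  /-- the coefficientwise action -/
  act : (L ≃ₐ[K] L) →* SemilinearAut L FL
  act_base : ∀ (σ : L ≃ₐ[K] L) (a : L), SemilinearAut.baseAut (act σ) a = σ a
  act_fix : ∀ (σ : L ≃ₐ[K] L) (f : FK), act σ • ι f = ι f
  /-- the unique extension of a place -/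
  up : Place K FK → Place L FL
  up_injective : Function.Injective up
  dich : ∀ P : Place L FL, P.toValuationSubring.comap ι = ⊤ ∨ ∃ P₀ : Place K FK, P = up P₀
  degree_up : ∀ D : Divisor K FK, Divisor.degree (Finsupp.mapDomain up D) = Divisor.degree D
  deg_one : ∀ v : Place L FL, v.deg = 1
  /-- a non-constant function -/
  t : FK
  t_nonconst : ∀ c : L, ι t ≠ algebraMap L FL c
  /-- a place fixed by the action -/
  Pinf : Place L FL
  act_Pinf : ∀ σ : L ≃ₐ[K] L, act σ • Pinf = Pinf

variable {K L FK FL}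

namespace Data

variable (d : Data K L FK FL)

theorem act_sub_const (σ : L ≃ₐ[K] L) (c : L) :
    d.act σ • (d.ι d.t - algebraMap L FL c) = d.ι d.t - algebraMap L FL (σ c) := by
  rw [smul_sub, d.act_fix, SemilinearAut.smul_algebraMap, d.act_base]

/-- the value of `t` at a place is determined by the place -/
theorem value_unique (P : Place L FL) {a b : L}
    (ha : 0 < P.ord (d.ι d.t - algebraMap L FL a))
    (hb : 0 < P.ord (d.ι d.t - algebraMap L FL b)) : a = b := by
  by_contra hab
  have hne : algebraMap L FL (a - b) ≠ 0 := by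
    simpa [sub_eq_zero] using hab
  have heq : (d.ι d.t - algebraMap L FL b) + -(d.ι d.t - algebraMap L FL a)
      = algebraMap L FL (a - b) := by
    rw [map_sub]; ring
  have h1 := FFDeriv.min_le_ord_add P (x := d.ι d.t - algebraMap L FL b)
    (y := -(d.ι d.t - algebraMap L FL a)) (by rw [heq]; exact hne)
  rw [heq, FFDeriv.ord_neg, FFDeriv.ord_algebraMap] at h1
  rcases min_le_iff.mp h1 with h | h <;> omega

theorem comap_ne_top_of_pole (P : Place L FL) (hpole : P.ord (d.ι d.t) < 0) :
    P.toValuationSubring.comap d.ι ≠ ⊤ := by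
  intro htop
  have hmem : d.t ∈ P.toValuationSubring.comap d.ι := by rw [htop]; trivial
  have := FFDeriv.ord_nonneg_of_mem P (ValuationSubring.mem_comap.mp hmem)
  omega

theorem comap_ne_top_of_zero (P : Place L FL) {f₀ : FK}
    (hpos : 0 < P.ord (d.ι f₀)) : P.toValuationSubring.comap d.ι ≠ ⊤ := by
  intro htop
  have hmem : f₀⁻¹ ∈ P.toValuationSubring.comap d.ι := by rw [htop]; trivial
  have := FFDeriv.ord_nonneg_of_mem P (ValuationSubring.mem_comap.mp hmem)
  rw [map_inv₀, P.ord_inv] at this
  omega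

variable [IsAlgClosed K] [IsAlgClosed L]

/-- (G4) a place with finite orbit under a finite-index subgroup restricts nontrivially -/
theorem comap_ne_top_of_finite_orbit (P : Place L FL) (H : Subgroup (L ≃ₐ[K] L))
    [H.FiniteIndex]
    (hfin : (Set.range fun σ : H => d.act (σ : L ≃ₐ[K] L) • P).Finite) :
    P.toValuationSubring.comap d.ι ≠ ⊤ := by
  rcases lt_or_ge (P.ord (d.ι d.t)) 0 with hpole | hnp
  · exact d.comap_ne_top_of_pole P hpole
  obtain ⟨c, hc⟩ := exists_const_of_deg_eq_one P (d.deg_one P) hnp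
  have hc' : 0 < P.ord (d.ι d.t - algebraMap L FL c) :=
    hc.resolve_left (fun h => d.t_nonconst c (sub_eq_zero.mp h))
  -- the value `c` has a finite orbit
  have hfac : Function.FactorsThrough (fun σ : H => (σ : L ≃ₐ[K] L) c)
      (fun σ : H => d.act (σ : L ≃ₐ[K] L) • P) := by
    intro σ τ hστ
    simp only at hστ
    have h1 : 0 < (d.act (σ : L ≃ₐ[K] L) • P).ord
        (d.ι d.t - algebraMap L FL ((σ : L ≃ₐ[K] L) c)) := by
      rw [← d.act_sub_const, SemilinearAut.ord_smul]; exact hc'
    have h2 : 0 < (d.act (τ : L ≃ₐ[K] L) • P).ord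
        (d.ι d.t - algebraMap L FL ((τ : L ≃ₐ[K] L) c)) := by
      rw [← d.act_sub_const, SemilinearAut.ord_smul]; exact hc'
    rw [← hστ] at h2
    exact d.value_unique _ h1 h2
  have hfinc : (Set.range fun σ : H => (σ : L ≃ₐ[K] L) c).Finite := by
    have hcomp := hfac.extend_comp (fun _ => c)
    rw [← hcomp, Set.range_comp]
    exact hfin.image _
  obtain ⟨c₀, rfl⟩ := AutFixed.mem_range_of_finite_orbit c H hfinc
  have hι : d.ι (d.t - algebraMap K FK c₀) = d.ι d.t - algebraMap L FL (algebraMap K L c₀) := by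
    rw [map_sub, d.ι_const]
  rw [← hι] at hc'
  exact d.comap_ne_top_of_zero P hc'

theorem exists_up_of_finite_orbit (P : Place L FL) (H : Subgroup (L ≃ₐ[K] L))
    [H.FiniteIndex]
    (hfin : (Set.range fun σ : H => d.act (σ : L ≃ₐ[K] L) • P).Finite) :
    ∃ P₀ : Place K FK, P = d.up P₀ :=
  (d.dich P).resolve_left (d.comap_ne_top_of_finite_orbit P H hfin)

/-- the stabiliser of a class -/
noncomputable def stab (x : Pic0 L FL) : Subgroup (L ≃ₐ[K] L) :=
  (MulAction.stabilizer (SemilinearAut L FL) x).comap d.act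

theorem mem_stab {x : Pic0 L FL} {σ : L ≃ₐ[K] L} : σ ∈ d.stab x ↔ d.act σ • x = x := Iff.rfl

theorem stab_finiteIndex (x : Pic0 L FL)
    (hfin : (Set.range fun σ : L ≃ₐ[K] L => d.act σ • x).Finite) :
    (d.stab x).FiniteIndex := by
  let _ : MulAction (L ≃ₐ[K] L) (Pic0 L FL) := MulAction.compHom _ d.act
  have hstab : d.stab x = MulAction.stabilizer (L ≃ₐ[K] L) x := by
    ext σ; rfl
  have horb : (MulAction.orbit (L ≃ₐ[K] L) x).Finite := hfin
  have : Finite (MulAction.orbit (L ≃ₐ[K] L) x) := horb.to_subtype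
  have : Finite ((L ≃ₐ[K] L) ⧸ MulAction.stabilizer (L ≃ₐ[K] L) x) :=
    Finite.of_equiv _ (MulAction.orbitEquivQuotientStabilizer (L ≃ₐ[K] L) x)
  rw [hstab]
  exact Subgroup.finiteIndex_of_finite_quotient

variable [HasPrincipalDivisors L FL]

theorem setup : Setup d.Pinf (polarDiv (K := L) (d.ι d.t)) :=
  setup_polarDiv d.Pinf d.deg_one d.t_nonconst

theorem act_polarDiv (σ : L ≃ₐ[K] L) :
    d.act σ • polarDiv (K := L) (d.ι d.t) = polarDiv (d.ι d.t) :=
  polarDiv_smul_of_fixed _ (d.act_fix σ d.t)

theorem polarDiv_support_subset :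
    ((polarDiv (K := L) (d.ι d.t)).support : Set (Place L FL)) ⊆ Set.range d.up := by
  intro v hv
  rw [Finset.mem_coe, Finsupp.mem_support_iff, polarDiv_apply] at hv
  have hpole : v.ord (d.ι d.t) < 0 := by
    by_contra h
    exact hv (max_eq_left (by omega))
  obtain ⟨P₀, rfl⟩ := (d.dich v).resolve_left (d.comap_ne_top_of_pole v hpole)
  exact ⟨P₀, rfl⟩

theorem canonRep_support_subset (x : Pic0 L FL)
    (hfin : (Set.range fun σ : L ≃ₐ[K] L => d.act σ • x).Finite) :
    ((canonRep d.Pinf (polarDiv (K := L) (d.ι d.t)) x).support : Set (Place L FL))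
      ⊆ Set.range d.up := by
  intro v hv
  have := d.stab_finiteIndex x hfin
  have hfinv : (Set.range fun σ : d.stab x => d.act (σ : L ≃ₐ[K] L) • v).Finite := by
    refine (Finset.finite_toSet
      (canonRep d.Pinf (polarDiv (K := L) (d.ι d.t)) x).support).subset ?_
    rintro _ ⟨σ, rfl⟩
    exact smul_mem_support d.setup _ (d.act_Pinf _) (d.act_polarDiv _) (d.mem_stab.mp σ.2) hv
  obtain ⟨P₀, rfl⟩ := d.exists_up_of_finite_orbit v (d.stab x) hfinv
  exact ⟨P₀, rfl⟩

/-- (surjectivity) a class with finite orbit comes from `FK` -/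
theorem exists_preimage (x : Pic0 L FL)
    (hfin : (Set.range fun σ : L ≃ₐ[K] L => d.act σ • x).Finite) :
    ∃ D₀ : Divisor K FK, Divisor.degree D₀ = 0 ∧
      ∃ h0 : Finsupp.mapDomain d.up D₀ ∈ Divisor.degZero (K := L) (F := FL),
        Pic0.mk ⟨Finsupp.mapDomain d.up D₀, h0⟩ = x := by
  classical
  obtain ⟨D, hDx, hDeq⟩ := canonRep_class d.setup x
  set E := canonRep d.Pinf (polarDiv (K := L) (d.ι d.t)) x with hE
  set k := canonDeg d.Pinf (polarDiv (K := L) (d.ι d.t)) x with hk
  have hsupp : (((D : Divisor L FL)).support : Set (Place L FL)) ⊆ Set.range d.up := by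
    intro v hv
    rw [Finset.mem_coe, Finsupp.mem_support_iff, hDeq, Finsupp.sub_apply, Finsupp.smul_apply] at hv
    by_cases hvE : v ∈ E.support
    · exact d.canonRep_support_subset x hfin hvE
    · by_cases hvD : v ∈ (polarDiv (K := L) (d.ι d.t)).support
      · exact d.polarDiv_support_subset hvD
      · exfalso
        rw [Finsupp.notMem_support_iff] at hvE hvD
        apply hv
        rw [hvE, hvD]; simp
  have hmap := Finsupp.mapDomain_comapDomain d.up d.up_injective (D : Divisor L FL) hsupp
  refine ⟨Finsupp.comapDomain d.up (D : Divisor L FL) d.up_injective.injOn, ?_, ?_⟩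
  · rw [← d.degree_up, hmap]
    exact D.2
  · refine ⟨by rw [hmap]; exact D.2, ?_⟩
    rw [← hDx]
    congr 1
    exact Subtype.ext hmap

end Data

end Fermat.Agent.S29.Desc.Surject
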