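import Mathlib
import Fermat.Prelude.Def_ModularCurve_ArithmeticGalois
import Fermat.Agent.S29.Desc.Surject

set_option autoImplicit false
set_option linter.unusedSectionVars false

/-!
(R3-Desc) glue for `Surject.Data`:

* `degree_mapDomain_of_deg_one` : `mapDomain up` preserves degrees when all places have degree one;
* `smul_up_eq` : the action fixes every `up P₀` (from `comap_up` + `up_unique`);
* `Data.ofPlaces` : the constructor of `Data` from the statements of the places layer;
* `coeffAct` : the coefficientwise action of `Aut(L/K)` on `laurentBaseChange L F₀`;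
* `Data.exists_preimage_torsion` : if `Pic⁰(FL)[n]` is finite, every `n`-torsion class comes from
  a divisor of degree zero of `FK`.
-/

open AlgebraicCurve

namespace Fermat.Agent.S29.Desc.Surject

open Fermat.Agent.S24 Fermat.Agent.S29.Desc.CanonicalRep

section abstract

variable {K L FK FL : Type*} [Field K] [Field L] [Field FK] [Field FL]
  [Algebra K L] [Algebra K FK] [Algebra L FL]

theorem degree_mapDomain_of_deg_one (up : Place K FK → Place L FL)
    (degK : ∀ v : Place K FK, v.deg = 1) (degL : ∀ v : Place L FL, v.deg = 1)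
    (D : Divisor K FK) : Divisor.degree (Finsupp.mapDomain up D) = Divisor.degree D := by
  classical
  induction D using Finsupp.induction with
  | zero => simp
  | single_add v n D _ _ ih =>
      rw [Finsupp.mapDomain_add, map_add, map_add, ih, Finsupp.mapDomain_single,
        Divisor.degree_single, Divisor.degree_single, degK, degL]

theorem up_injective_of_comap (ι : FK →+* FL) (up : Place K FK → Place L FL)
    (comap_up : ∀ P₀ : Place K FK,
      (up P₀).toValuationSubring.comap ι = P₀.toValuationSubring) :
    Function.Injective up := by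
  intro P₀ P₁ h
  apply Place.ext
  rw [← comap_up P₀, ← comap_up P₁, h]

theorem smul_up_eq (ι : FK →+* FL) (up : Place K FK → Place L FL)
    (comap_up : ∀ P₀ : Place K FK,
      (up P₀).toValuationSubring.comap ι = P₀.toValuationSubring)
    (up_unique : ∀ (P : Place L FL) (P₀ : Place K FK),
      P.toValuationSubring.comap ι = P₀.toValuationSubring → P = up P₀)
    (g : SemilinearAut L FL) (hg : ∀ f : FK, g⁻¹ • ι f = ι f) (P₀ : Place K FK) :
    g • up P₀ = up P₀ := by
  apply up_unique
  rw [← comap_up P₀]
  ext x
  rw [ValuationSubring.mem_comap, ValuationSubring.mem_comap,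
    SemilinearAut.smul_toValuationSubring,
    ValuationSubring.mem_pointwise_smul_iff_inv_smul_mem, hg]

/-- `Data` from the statements of the places layer -/
noncomputable def Data.ofPlaces (ι : FK →+* FL)
    (ι_const : ∀ a : K, ι (algebraMap K FK a) = algebraMap L FL (algebraMap K L a))
    (act : (L ≃ₐ[K] L) →* SemilinearAut L FL)
    (act_base : ∀ (σ : L ≃ₐ[K] L) (a : L), SemilinearAut.baseAut (act σ) a = σ a)
    (act_fix : ∀ (σ : L ≃ₐ[K] L) (f : FK), act σ • ι f = ι f)
    (up : Place K FK → Place L FL)
    (comap_up : ∀ P₀ : Place K FK,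
      (up P₀).toValuationSubring.comap ι = P₀.toValuationSubring)
    (up_unique : ∀ (P : Place L FL) (P₀ : Place K FK),
      P.toValuationSubring.comap ι = P₀.toValuationSubring → P = up P₀)
    (dich : ∀ P : Place L FL, P.toValuationSubring.comap ι = ⊤ ∨ ∃ P₀ : Place K FK, P = up P₀)
    (degK : ∀ v : Place K FK, v.deg = 1) (degL : ∀ v : Place L FL, v.deg = 1)
    (t : FK) (t_nonconst : ∀ c : L, ι t ≠ algebraMap L FL c) (P₀ : Place K FK) :
    Data K L FK FL where
  ι := ι
  ι_const := ι_const
  act := act
  act_base := act_base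
  act_fix := act_fix
  up := up
  up_injective := up_injective_of_comap ι up comap_up
  dich := dich
  degree_up := degree_mapDomain_of_deg_one up degK degL
  deg_one := degL
  t := t
  t_nonconst := t_nonconst
  Pinf := up P₀
  act_Pinf := fun σ => smul_up_eq ι up comap_up up_unique (act σ)
    (fun f => by rw [← map_inv]; exact act_fix σ⁻¹ f) P₀

variable [IsAlgClosed K] [IsAlgClosed L] [HasPrincipalDivisors L FL]

/-- if the `n`-torsion of `Pic⁰(FL)` is finite, every `n`-torsion class comes from `FK` -/
theorem Data.exists_preimage_torsion (d : Data K L FK FL) (n : ℕ)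
    [Finite (Pic0.torsion L FL n)] (x : Pic0 L FL) (hx : x ∈ Pic0.torsion L FL n) :
    ∃ D₀ : Divisor K FK, Divisor.degree D₀ = 0 ∧
      ∃ h0 : Finsupp.mapDomain d.up D₀ ∈ Divisor.degZero (K := L) (F := FL),
        Pic0.mk ⟨Finsupp.mapDomain d.up D₀, h0⟩ = x := by
  apply d.exists_preimage x
  have hfin : ((Pic0.torsion L FL n : AddSubgroup (Pic0 L FL)) : Set (Pic0 L FL)).Finite :=
    Set.toFinite _
  refine hfin.subset ?_
  rintro _ ⟨σ, rfl⟩
  exact SemilinearAut.smul_mem_torsion _ hx

end abstract

/-! ### the coefficientwise action of `Aut(L/K)` on `laurentBaseChange L F₀` -/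

section coeffAct

open ModularCurve

variable {K L : Type*} [Field K] [Field L] [Algebra ℚ K] [Algebra ℚ L] [Algebra K L]
  [IsScalarTower ℚ K L]
variable (F₀ : IntermediateField ℚ (LaurentSeries ℚ))

/-- the coefficientwise action of `Aut(L/K)` -/
noncomputable def coeffAct : (L ≃ₐ[K] L) →* SemilinearAut L (laurentBaseChange L F₀) :=
  (arithmeticGalois F₀).comp (AlgEquiv.restrictScalarsHom ℚ)

theorem coeffAct_base (σ : L ≃ₐ[K] L) (a : L) :
    SemilinearAut.baseAut (coeffAct F₀ σ) a = σ a := rfl

theorem coe_coeffAct_smul (σ : L ≃ₐ[K] L) (x : laurentBaseChange L F₀) :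
    ((coeffAct F₀ σ • x : laurentBaseChange L F₀) : LaurentSeries L)
      = coeffMap (σ : L →+* L) (x : LaurentSeries L) := rfl

/-- series with coefficients in `K` are fixed -/
theorem coeffAct_fix (σ : L ≃ₐ[K] L) (x : laurentBaseChange L F₀)
    (hx : ∃ y : LaurentSeries K, coeffMap (algebraMap K L) y = (x : LaurentSeries L)) :
    coeffAct F₀ σ • x = x := by
  obtain ⟨y, hy⟩ := hx
  apply Subtype.ext
  rw [coe_coeffAct_smul, ← hy, coeffMap_coeffMap]
  exact coeffMap_congr (RingHom.ext fun c => σ.commutes c) y

end coeffAct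

end Fermat.Agent.S29.Desc.Surject
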