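import Mathlib
import Fermat.Prelude.Def_ModularCurve_LaurentCoeff
import Fermat.Prelude.Def_AlgebraicCurve_DivisorClassGroup
import Fermat.Prelude.Def_ModularCurve_ArithmeticGalois
import Fermat.Agent.S18.ConstExt.Place
import Fermat.Agent.S16.Bridge.Descent
import Fermat.Agent.S29.Desc.AutFixed

/-!
# S29 (R3, Desc, (G5) core): functions with `Aut(L/K)`-invariant divisor come from `F_K`

`K ⊆ L` algebraically closed fields of characteristic zero, `F₀ ⊆ ℚ((q))`,
`F_K = laurentBaseChange K F₀`, `F_L = laurentBaseChange L F₀`, `up : F_K → F_L` coefficientwise.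

If `z ∈ F_L` is nonzero and for every `σ ∈ Aut(L/K)` the coefficientwise conjugate `σ z` has the
same divisor as `z`, then `z = c · up x` with `c ∈ Lˣ` and `x ∈ F_K`.

Proof: `σ z / z` has trivial divisor, hence is a constant `a_σ` (`hconst`).  Normalise the leading
coefficient of `z` to `1`; then `a_σ = 1`, all coefficients are fixed by `Aut(L/K)`, hence lie in `K`
(`AutFixed`), and `F_L ∩ K((q)) = F_K` (`S16/Bridge/Descent`).
-/

set_option autoImplicit false

noncomputable section

open HahnSeries AlgebraicCurve ModularCurve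
open Fermat.Agent.S18.ConstExt
open Fermat.Agent.S16.Bridge.Descent

namespace Fermat.Agent.S29.Desc.InvDivisor

variable {K L : Type*} [Field K] [Field L] [Algebra ℚ K] [Algebra ℚ L] [Algebra K L]
variable (F₀ : IntermediateField ℚ (LaurentSeries ℚ))

/-- `F_L ∩ K((q)) = F_K`: a series over `K` whose coefficientwise image lies in `F_L` lies in
`F_K`. -/
theorem mem_of_toL_mem {W0 : LaurentSeries K}
    (h : toL K L W0 ∈ laurentBaseChange L F₀) : W0 ∈ laurentBaseChange K F₀ := by
  have hC : ∀ k : K, HahnSeries.C k ∈ (laurentBaseChange K F₀).toSubfield := fun k => by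
    rw [← algebraMap_eq_C]
    exact (laurentBaseChange K F₀).algebraMap_mem k
  refine mem_of_toL_mem_closure (L := L) (laurentBaseChange K F₀).toSubfield hC ?_
  have h' := mem_laurentBaseChange_iff.mp h
  refine Subfield.closure_mono ?_ h'
  rintro y (⟨a, rfl⟩ | ⟨y0, hy0, rfl⟩)
  · left
    exact ⟨a, (algebraMap_eq_C L a).symm⟩
  · right
    refine ⟨coeffEmb K y0, coeffEmb_mem_laurentBaseChange K hy0, ?_⟩
    exact coeffMap_coeffEmb_up (L1 := K) (K := L) y0

omit [Algebra ℚ K] [Algebra ℚ L] in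
/-- A Laurent series over `L` all of whose coefficients are fixed by `Aut(L/K)` has coefficients in
`K`. -/
theorem exists_toL_eq [IsAlgClosed K] [IsAlgClosed L] (W : LaurentSeries L)
    (hfix : ∀ (σ : L ≃ₐ[K] L) (n : ℤ), σ (W.coeff n) = W.coeff n) :
    ∃ W0 : LaurentSeries K, toL K L W0 = W := by
  obtain ⟨lam, hlam⟩ := exists_lam_one (K := K) (L := L)
  refine ⟨linHat lam W, ?_⟩
  ext n
  rw [toL_coeff, linHat_coeff]
  obtain ⟨k, hk⟩ := AutFixed.mem_range_of_forall_fixed (K := K) (W.coeff n) fun σ => hfix σ n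
  rw [← hk]
  congr 1
  rw [Algebra.algebraMap_eq_smul_one, map_smul, hlam, smul_eq_mul, mul_one]

theorem coe_algebraMap_mul (a : L) (z : laurentBaseChange L F₀) (n : ℤ) :
    ((algebraMap L (laurentBaseChange L F₀) a * z : laurentBaseChange L F₀) :
      LaurentSeries L).coeff n = a * (z : LaurentSeries L).coeff n := by
  have h : ((algebraMap L (laurentBaseChange L F₀) a * z : laurentBaseChange L F₀) :
      LaurentSeries L) = HahnSeries.C a * (z : LaurentSeries L) := by
    rw [← algebraMap_eq_C]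
    rfl
  rw [h, HahnSeries.C_mul_eq_smul, HahnSeries.coeff_smul, smul_eq_mul]

variable [IsAlgClosed K] [IsAlgClosed L]

/-- **(G5) core.**  A nonzero `z ∈ F_L` such that every coefficientwise `Aut(L/K)`-conjugate of `z`
has the same divisor as `z` is a constant times an element of `F_K`. -/
theorem exists_const_mul_up
    (hconst : ∀ u : laurentBaseChange L F₀, u ≠ 0 →
      (∀ P : Place L (laurentBaseChange L F₀), P.ord u = 0) →
        ∃ a : L, u = algebraMap L (laurentBaseChange L F₀) a)
    (z : laurentBaseChange L F₀) (hz : z ≠ 0)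
    (hinv : ∀ σ : L ≃ₐ[K] L, ∃ zσ : laurentBaseChange L F₀,
      (zσ : LaurentSeries L) = coeffMap (σ : L →+* L) (z : LaurentSeries L) ∧
        ∀ P : Place L (laurentBaseChange L F₀), P.ord zσ = P.ord z) :
    ∃ (c : L) (x : laurentBaseChange K F₀), c ≠ 0 ∧ x ≠ 0 ∧
      z = algebraMap L (laurentBaseChange L F₀) c * up (K := L) F₀ x := by
  have hZ : (z : LaurentSeries L) ≠ 0 := fun h => hz (Subtype.ext h)
  set n0 : ℤ := (z : LaurentSeries L).order with hn0
  set c : L := (z : LaurentSeries L).coeff n0 with hc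
  have hc0 : c ≠ 0 := fun h => hZ (HahnSeries.coeff_order_eq_zero.1 h)
  -- the normalised function
  set w : laurentBaseChange L F₀ := algebraMap L (laurentBaseChange L F₀) c⁻¹ * z with hw
  have hwcoeff : ∀ n, (w : LaurentSeries L).coeff n = c⁻¹ * (z : LaurentSeries L).coeff n :=
    fun n => coe_algebraMap_mul F₀ c⁻¹ z n
  -- all coefficients of `w` are fixed
  have hfix : ∀ (σ : L ≃ₐ[K] L) (n : ℤ),
      σ ((w : LaurentSeries L).coeff n) = (w : LaurentSeries L).coeff n := by
    intro σ n
    obtain ⟨zσ, hcoe, hord⟩ := hinv σ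
    have hσcoeff : ∀ m, (zσ : LaurentSeries L).coeff m = σ ((z : LaurentSeries L).coeff m) := by
      intro m
      rw [hcoe]
      rfl
    have hzσ : zσ ≠ 0 := by
      intro h0
      have := hσcoeff n0
      rw [h0] at this
      have h1 : σ c = 0 := by
        rw [← this]
        rfl
      exact hc0 ((map_eq_zero σ).1 h1)
    have hu0 : zσ * z⁻¹ ≠ 0 := mul_ne_zero hzσ (inv_ne_zero hz)
    obtain ⟨a, ha⟩ := hconst (zσ * z⁻¹) hu0 (fun P => by
      rw [P.ord_mul hzσ (inv_ne_zero hz), P.ord_inv, hord P, add_neg_cancel])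
    have hzσ' : zσ = algebraMap L (laurentBaseChange L F₀) a * z := by
      rw [← ha, mul_assoc, inv_mul_cancel₀ hz, mul_one]
    have hrel : ∀ m, σ ((z : LaurentSeries L).coeff m) = a * (z : LaurentSeries L).coeff m := by
      intro m
      rw [← hσcoeff m, hzσ', coe_algebraMap_mul]
    have hσc : σ c = a * c := hrel n0
    have ha0 : a ≠ 0 := by
      intro h0
      rw [h0, zero_mul] at hσc
      exact hc0 ((map_eq_zero σ).1 hσc)
    rw [hwcoeff, map_mul, map_inv₀, hσc, hrel n]
    field_simp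
  obtain ⟨W0, hW0⟩ := exists_toL_eq (K := K) (w : LaurentSeries L) hfix
  have hW0mem : W0 ∈ laurentBaseChange K F₀ := by
    apply mem_of_toL_mem (L := L) F₀
    rw [hW0]
    exact w.2
  refine ⟨c, ⟨W0, hW0mem⟩, hc0, ?_, ?_⟩
  · intro h0
    have hW00 : W0 = 0 := congrArg Subtype.val h0
    have hw0 : w = 0 := by
      apply Subtype.ext
      rw [← hW0, hW00, map_zero]
      rfl
    rw [hw] at hw0
    rcases mul_eq_zero.1 hw0 with h1 | h1
    · exact inv_ne_zero hc0 ((map_eq_zero _).1 h1)
    · exact hz h1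
  · have hup : up (K := L) F₀ ⟨W0, hW0mem⟩ = w := Subtype.ext hW0
    rw [hup, hw, ← mul_assoc, ← map_mul, mul_inv_cancel₀ hc0, map_one, one_mul]

/-- **(G5) core**, in the spelling of the Prelude's `arithmeticGalois`: `τ` runs over the
`ℚ`-automorphisms of `L` fixing `K`. -/
theorem exists_const_mul_up_of_arithmeticGalois
    (hconst : ∀ u : laurentBaseChange L F₀, u ≠ 0 →
      (∀ P : Place L (laurentBaseChange L F₀), P.ord u = 0) →
        ∃ a : L, u = algebraMap L (laurentBaseChange L F₀) a)
    (z : laurentBaseChange L F₀) (hz : z ≠ 0)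
    (hinv : ∀ τ : L ≃ₐ[ℚ] L, (∀ a : K, τ (algebraMap K L a) = algebraMap K L a) →
      ∀ P : Place L (laurentBaseChange L F₀), P.ord (arithmeticGalois F₀ τ • z) = P.ord z) :
    ∃ (c : L) (x : laurentBaseChange K F₀), c ≠ 0 ∧ x ≠ 0 ∧
      z = algebraMap L (laurentBaseChange L F₀) c * up (K := L) F₀ x := by
  refine exists_const_mul_up F₀ hconst z hz fun σ => ?_
  refine ⟨arithmeticGalois F₀ σ.toRingEquiv.toRatAlgEquiv • z, ?_, ?_⟩
  · rw [coe_arithmeticGalois_smul]
    rfl
  · exact hinv _ fun a => σ.commutes a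

end Fermat.Agent.S29.Desc.InvDivisor
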