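import Mathlib
import Fermat.Prelude.Def_AlgebraicCurve_DivisorClassGroup
import Fermat.Prelude.Def_AlgebraicCurve_BaseChangeGalois
import Fermat.Agent.S24.FFDeriv
import Fermat.Agent.S29.Desc.BcPushPull
import Fermat.Agent.S29.Desc.InvDivisor
import Fermat.Agent.S29.Desc.DataOf

/-!
# S29 (R3, Desc): the base-change map on divisor classes and its injectivity

Plain-function hypotheses (no structure), in the style of `Desc/BcPushPull`:
`ι : FK →+* FL`, `up : Place K FK → Place L FL` with `ord_up`, `dich`, and preservation of degrees.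

* `bcPic : Pic0 K FK →+ Pic0 L FL`, `bcPic_mk` (`rfl`): induced by `Finsupp.mapDomain up`;
* `bcPic_injective_of` : injectivity from the descent statement `hdesc`;
* `hdesc_laurent` : the descent statement for `laurentBaseChange K F₀ → laurentBaseChange L F₀`
  (`K ⊆ L` algebraically closed), from `InvDivisor.exists_const_mul_up`;
* `bcPic_injective_laurent` : the resulting injectivity.
-/

set_option autoImplicit false
set_option linter.unusedSectionVars false

noncomputable section

open AlgebraicCurve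

namespace Fermat.Agent.S29.Desc.BcClass

open Fermat.Agent.S29.Desc.BcPushPull

section Abstract

variable {K L FK FL : Type*} [Field K] [Field L] [Field FK] [Field FL]
  [Algebra K FK] [Algebra L FL]
  (ι : FK →+* FL) (up : Place K FK → Place L FL)
  (ord_up : ∀ (P₀ : Place K FK) (f : FK), (up P₀).ord (ι f) = P₀.ord f)
  (dich : ∀ P : Place L FL, (∀ f : FK, P.ord (ι f) = 0) ∨ ∃ P₀ : Place K FK, P = up P₀)
  (hdegree : ∀ D : Divisor K FK,
    Divisor.degree (Finsupp.mapDomain up D) = Divisor.degree D)

include ord_up in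
theorem mapDomain_apply_up (D : Divisor K FK) (P₀ : Place K FK) :
    Finsupp.mapDomain up D (up P₀) = D P₀ :=
  Finsupp.mapDomain_apply (up_injective ι up ord_up) D P₀

include ord_up in
theorem not_mem_range_of_forall_ord_eq_zero {P : Place L FL}
    (hP : ∀ f : FK, P.ord (ι f) = 0) : P ∉ Set.range up := by
  rintro ⟨P₀, rfl⟩
  obtain ⟨f, -, hf⟩ := exists_ord_eq_one P₀
  have h := hP f
  rw [ord_up, hf] at h
  exact one_ne_zero h

include ord_up dich in
/-- principal divisors go to principal divisors -/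
theorem mapDomain_principal {D : Divisor K FK} {f : FK}
    (hD : ∀ P₀ : Place K FK, D P₀ = P₀.ord f) (P : Place L FL) :
    Finsupp.mapDomain up D P = P.ord (ι f) := by
  rcases dich P with h | ⟨P₀, rfl⟩
  · rw [Finsupp.mapDomain_of_notMem_range _ _ (not_mem_range_of_forall_ord_eq_zero ι up ord_up h),
      h f]
  · rw [mapDomain_apply_up ι up ord_up, ord_up, hD]

/-- `mapDomain up` on divisors of degree zero -/
def divMap : Divisor.degZero (K := K) (F := FK) →+ Divisor.degZero (K := L) (F := FL) where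
  toFun D := ⟨Finsupp.mapDomain up (D : Divisor K FK), by
    rw [Divisor.mem_degZero, hdegree]
    exact D.2⟩
  map_zero' := Subtype.ext (by
    change Finsupp.mapDomain up (0 : Divisor K FK) = 0
    exact Finsupp.mapDomain_zero)
  map_add' a b := Subtype.ext (by
    change Finsupp.mapDomain up ((a : Divisor K FK) + (b : Divisor K FK)) = _
    rw [Finsupp.mapDomain_add]
    rfl)

@[simp]
theorem coe_divMap (D : Divisor.degZero (K := K) (F := FK)) :
    ((divMap up hdegree D : Divisor.degZero (K := L) (F := FL)) : Divisor L FL)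
      = Finsupp.mapDomain up (D : Divisor K FK) := rfl

include ι ord_up dich in
/-- **the base change map on divisor classes of degree zero** -/
def bcPic : Pic0 K FK →+ Pic0 L FL :=
  QuotientAddGroup.map _ _ (divMap up hdegree) (by
    rintro ⟨D, hD0⟩ hD
    simp only [AddSubgroup.mem_addSubgroupOf] at hD
    obtain ⟨f, hf, hDf⟩ := hD
    simp only [AddSubgroup.mem_comap, AddSubgroup.mem_addSubgroupOf]
    exact ⟨ι f, (map_ne_zero ι).2 hf, fun P => mapDomain_principal ι up ord_up dich hDf P⟩)

theorem bcPic_mk (D₀ : Divisor.degZero (K := K) (F := FK))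
    (h0 : Finsupp.mapDomain up (D₀ : Divisor K FK) ∈ Divisor.degZero (K := L) (F := FL)) :
    bcPic ι up ord_up dich hdegree (Pic0.mk D₀)
      = Pic0.mk ⟨Finsupp.mapDomain up (D₀ : Divisor K FK), h0⟩ := rfl

theorem bcPic_mk' (D₀ : Divisor.degZero (K := K) (F := FK)) :
    bcPic ι up ord_up dich hdegree (Pic0.mk D₀) = Pic0.mk (divMap up hdegree D₀) := rfl

/-- the hypothesis `hbc` of `BcPushPull.bcPic_correspondence` -/
theorem bcPic_hbc (D : Divisor.degZero (K := K) (F := FK)) :
    ∃ D' : Divisor.degZero (K := L) (F := FL),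
      (D' : Divisor L FL) = Finsupp.mapDomain up (D : Divisor K FK) ∧
        bcPic ι up ord_up dich hdegree (Pic0.mk D) = Pic0.mk D' :=
  ⟨divMap up hdegree D, rfl, rfl⟩

/-- **injectivity of `bcPic`** from the descent statement for principal divisors -/
theorem bcPic_injective_of
    (hdesc : ∀ (D : Divisor K FK) (z : FL), z ≠ 0 →
      (∀ P : Place L FL, Finsupp.mapDomain up D P = P.ord z) →
        ∃ x : FK, x ≠ 0 ∧ ∀ P₀ : Place K FK, D P₀ = P₀.ord x) :
    Function.Injective (bcPic ι up ord_up dich hdegree) := by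
  rw [injective_iff_map_eq_zero]
  intro x hx
  obtain ⟨D, rfl⟩ := Pic0.mk_surjective x
  rw [bcPic_mk'] at hx
  have hx' := (QuotientAddGroup.eq_zero_iff _).1 hx
  simp only [AddSubgroup.mem_addSubgroupOf] at hx'
  obtain ⟨z, hz, hDz⟩ := hx'
  obtain ⟨x0, hx0, hD⟩ := hdesc (D : Divisor K FK) z hz hDz
  apply (QuotientAddGroup.eq_zero_iff _).2
  simp only [AddSubgroup.mem_addSubgroupOf]
  exact ⟨x0, hx0, hD⟩

end Abstract

/-! ### the Laurent case -/

section Laurent

open ModularCurve Fermat.Agent.S18.ConstExt Fermat.Agent.S29.Desc.Surject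

variable {K L : Type*} [Field K] [Field L] [Algebra ℚ K] [Algebra ℚ L] [Algebra K L]
  [IsScalarTower ℚ K L] [IsAlgClosed K] [IsAlgClosed L]
variable (F₀ : IntermediateField ℚ (LaurentSeries ℚ))
variable (upP : Place K (laurentBaseChange K F₀) → Place L (laurentBaseChange L F₀))
  (ord_up : ∀ (P₀ : Place K (laurentBaseChange K F₀)) (f : laurentBaseChange K F₀),
    (upP P₀).ord (up (K := L) F₀ f) = P₀.ord f)
  (hfix : ∀ (σ : L ≃ₐ[K] L) (P₀ : Place K (laurentBaseChange K F₀)),
    coeffAct F₀ σ • upP P₀ = upP P₀)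
  (hconst : ∀ u : laurentBaseChange L F₀, u ≠ 0 →
    (∀ P : Place L (laurentBaseChange L F₀), P.ord u = 0) →
      ∃ a : L, u = algebraMap L (laurentBaseChange L F₀) a)

include hfix in
/-- the divisor `mapDomain upP D` is invariant under the coefficientwise action -/
theorem mapDomain_smul_eq (σ : L ≃ₐ[K] L) (D : Divisor K (laurentBaseChange K F₀))
    (P : Place L (laurentBaseChange L F₀)) :
    Finsupp.mapDomain upP D ((coeffAct F₀ σ)⁻¹ • P) = Finsupp.mapDomain upP D P := by
  by_cases hP : P ∈ Set.range upP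
  · obtain ⟨P₀, rfl⟩ := hP
    have h1 : (coeffAct F₀ σ)⁻¹ • upP P₀ = upP P₀ := by
      rw [inv_smul_eq_iff, hfix]
    rw [h1]
  · have hP' : (coeffAct F₀ σ)⁻¹ • P ∉ Set.range upP := by
      rintro ⟨P₁, h1⟩
      apply hP
      refine ⟨P₁, ?_⟩
      have h2 : P = coeffAct F₀ σ • upP P₁ := by
        rw [h1, smul_inv_smul]
      rw [h2, hfix]
    rw [Finsupp.mapDomain_of_notMem_range _ _ hP, Finsupp.mapDomain_of_notMem_range _ _ hP']

include hfix in
/-- the coefficientwise conjugates of a function with divisor `mapDomain upP D` have the same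
divisor -/
theorem ord_smul_eq_of_mapDomain (σ : L ≃ₐ[K] L) (D : Divisor K (laurentBaseChange K F₀))
    (z : laurentBaseChange L F₀)
    (h : ∀ P : Place L (laurentBaseChange L F₀), Finsupp.mapDomain upP D P = P.ord z)
    (P : Place L (laurentBaseChange L F₀)) : P.ord (coeffAct F₀ σ • z) = P.ord z := by
  have h1 : P.ord (coeffAct F₀ σ • z) = ((coeffAct F₀ σ)⁻¹ • P).ord z := by
    have h2 := SemilinearAut.ord_smul (coeffAct F₀ σ) ((coeffAct F₀ σ)⁻¹ • P) z
    rw [smul_inv_smul] at h2
    exact h2
  rw [h1, ← h, ← h]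
  exact mapDomain_smul_eq F₀ upP hfix σ D P

include ord_up hfix hconst in
/-- **descent of principal divisors** along `F_K → F_L` -/
theorem hdesc_laurent (D : Divisor K (laurentBaseChange K F₀)) (z : laurentBaseChange L F₀)
    (hz : z ≠ 0)
    (h : ∀ P : Place L (laurentBaseChange L F₀), Finsupp.mapDomain upP D P = P.ord z) :
    ∃ x : laurentBaseChange K F₀, x ≠ 0 ∧
      ∀ P₀ : Place K (laurentBaseChange K F₀), D P₀ = P₀.ord x := by
  have hinv : ∀ σ : L ≃ₐ[K] L, ∃ zσ : laurentBaseChange L F₀,
      (zσ : LaurentSeries L) = coeffMap (σ : L →+* L) (z : LaurentSeries L) ∧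
        ∀ P : Place L (laurentBaseChange L F₀), P.ord zσ = P.ord z := fun σ =>
    ⟨coeffAct F₀ σ • z, coe_coeffAct_smul F₀ σ z,
      fun P => ord_smul_eq_of_mapDomain F₀ upP hfix σ D z h P⟩
  obtain ⟨c, x, hc, hx, hzx⟩ := InvDivisor.exists_const_mul_up (K := K) F₀ hconst z hz hinv
  refine ⟨x, hx, fun P₀ => ?_⟩
  have h1 : D P₀ = (upP P₀).ord z := by
    rw [← h (upP P₀)]
    exact (mapDomain_apply_up (up (K := L) F₀) upP ord_up D P₀).symm
  have hc' : algebraMap L (laurentBaseChange L F₀) c ≠ 0 := (map_ne_zero _).2 hc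
  have hx' : up (K := L) F₀ x ≠ 0 := (map_ne_zero _).2 hx
  rw [h1, hzx, (upP P₀).ord_mul hc' hx', Fermat.Agent.S24.FFDeriv.ord_algebraMap, zero_add,
    ord_up]

include hfix hconst in
/-- **injectivity of the base change on divisor classes**, Laurent case -/
theorem bcPic_injective_laurent
    (dich : ∀ P : Place L (laurentBaseChange L F₀),
      (∀ f : laurentBaseChange K F₀, P.ord (up (K := L) F₀ f) = 0) ∨
        ∃ P₀ : Place K (laurentBaseChange K F₀), P = upP P₀)
    (hdegree : ∀ D : Divisor K (laurentBaseChange K F₀),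
      Divisor.degree (Finsupp.mapDomain upP D) = Divisor.degree D) :
    Function.Injective (bcPic (up (K := L) F₀) upP ord_up dich hdegree) :=
  bcPic_injective_of (up (K := L) F₀) upP ord_up dich hdegree
    (hdesc_laurent F₀ upP ord_up hfix hconst)

end Laurent

end Fermat.Agent.S29.Desc.BcClass
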