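import Mathlib
import Fermat.Prelude.Def_AlgebraicCurve_DivisorClassGroup
import Fermat.Agent.S24.PlaceOfVal
import Fermat.Agent.S24.FFDeriv

/-!
# S29 (R3), block (Desc): places under a transcendental constant field extension

Abstract setting: fields `K ⊆ L`, function fields `FK / K`, `FL / L` with a compatible embedding
`FK → FL`.  Hypotheses, packaged in `Setup K L FK FL`:

* every place of `FK / K` has residue field `K` (e.g. `K` algebraically closed);
* `O ⊗[K] L → FL` is injective for the valuation ring `O` of every place (linear disjointness);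
* `FL = L(FK)`;
* nontrivial valuation subrings of `FK` containing `K` are discrete valuation rings.

Results (`S : Setup K L FK FL`):

* `S.up P₀ : Place L FL`, the extension of a place `P₀` of `FK` (constructed from the `t`-adic
  filtration of `O ⊗[K] L`, `t` a uniformiser);
* `S.ord_up : (S.up P₀).ord (algebraMap FK FL f) = P₀.ord f` (`e = 1`), `S.comap_up`;
* `S.eq_up` : uniqueness of the extension; `S.up_injective`;
* `S.comap_eq_top_or_eq_up` : a place of `FL` is trivial on `FK` or is `S.up` of its restriction;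
  `S.ord_algebraMap_eq`, `S.exists_eq_up_of_ord_ne_zero`.
-/

set_option autoImplicit false
set_option linter.unusedSectionVars false

noncomputable section

namespace Fermat.Agent.S29.Desc.ConstExtTr

open AlgebraicCurve TensorProduct IsLocalRing

variable {K L FK FL : Type*} [Field K] [Field L] [Field FK] [Field FL]
  [Algebra K L] [Algebra K FK] [Algebra L FL] [Algebra K FL] [Algebra FK FL]
  [IsScalarTower K L FL] [IsScalarTower K FK FL]

variable (L FL) (P₀ : Place K FK)

/-- The tensor product `O ⊗[K] L`, `O` the valuation ring of `P₀`. -/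
abbrev TT : Type _ := P₀.toValuationSubring ⊗[K] L

/-- The inclusion of the valuation ring of `P₀` into `FL`. -/
def incl : P₀.toValuationSubring →ₐ[K] FL :=
  (IsScalarTower.toAlgHom K FK FL).comp (IsScalarTower.toAlgHom K P₀.toValuationSubring FK)

@[simp] theorem incl_apply (o : P₀.toValuationSubring) :
    incl FL P₀ o = algebraMap FK FL (o : FK) := rfl

/-- The multiplication map `O ⊗[K] L → FL`. -/
def mu : TT L P₀ →ₐ[K] FL :=
  Algebra.TensorProduct.productMap (incl FL P₀) (IsScalarTower.toAlgHom K L FL)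

@[simp] theorem mu_tmul (o : P₀.toValuationSubring) (c : L) :
    mu L FL P₀ (o ⊗ₜ[K] c) = algebraMap FK FL (o : FK) * algebraMap L FL c := by
  simp [mu]

variable {L FL}

/-- `P₀` has residue field `K`. -/
def ResSurj : Prop := Function.Surjective (algebraMap K P₀.ResidueField)

variable {P₀}

/-- The residue map `O → K` of a place with residue field `K`. -/
def resK (h : ResSurj P₀) : P₀.toValuationSubring →ₐ[K] K :=
  ((AlgEquiv.ofBijective (Algebra.ofId K P₀.ResidueField)
      ⟨(algebraMap K P₀.ResidueField).injective, h⟩).symm : P₀.ResidueField →ₐ[K] K).comp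
    (IsScalarTower.toAlgHom K P₀.toValuationSubring P₀.ResidueField)

theorem algebraMap_resK (h : ResSurj P₀) (o : P₀.toValuationSubring) :
    algebraMap K P₀.ResidueField (resK h o) = residue _ o := by
  simp only [resK, AlgHom.coe_comp, AlgEquiv.coe_toAlgHom, Function.comp_apply,
    IsScalarTower.coe_toAlgHom']
  exact (AlgEquiv.ofBijective (Algebra.ofId K P₀.ResidueField)
      ⟨(algebraMap K P₀.ResidueField).injective, h⟩).apply_symm_apply _

theorem resK_eq_zero_iff (h : ResSurj P₀) (o : P₀.toValuationSubring) :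
    resK h o = 0 ↔ o ∈ maximalIdeal P₀.toValuationSubring := by
  rw [← residue_eq_zero_iff, ← algebraMap_resK h]
  exact (map_eq_zero (algebraMap K P₀.ResidueField)).symm


variable (L)

/-- The reduction map `O ⊗[K] L → L`. -/
def red (h : ResSurj P₀) : TT L P₀ →ₐ[K] L :=
  Algebra.TensorProduct.productMap ((Algebra.ofId K L).comp (resK h)) (AlgHom.id K L)

@[simp] theorem red_tmul (h : ResSurj P₀) (o : P₀.toValuationSubring) (c : L) :
    red L h (o ⊗ₜ[K] c) = algebraMap K L (resK h o) * c := by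
  simp [red, Algebra.ofId_apply]

theorem red_smul (h : ResSurj P₀) (o : P₀.toValuationSubring) (x : TT L P₀) :
    red L h (o • x) = algebraMap K L (resK h o) * red L h x := by
  have : o • x = (o ⊗ₜ[K] (1 : L)) * x := by
    induction x using TensorProduct.induction_on with
    | zero => simp
    | tmul a c => simp [TensorProduct.smul_tmul', Algebra.TensorProduct.tmul_mul_tmul]
    | add a b ha hb => rw [smul_add, mul_add, ha, hb]
  rw [this, map_mul, red_tmul, mul_one]

variable {L}

section Core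

variable {J : Type*} (b : Module.Basis J K L) (h : ResSurj P₀)

/-- `red` in coordinates. -/
theorem red_eq_linearCombination (x : TT L P₀) :
    red L h x = Finsupp.linearCombination K b
      (((Algebra.TensorProduct.basis P₀.toValuationSubring b).repr x).mapRange (resK h)
        (map_zero _)) := by
  induction x using TensorProduct.induction_on with
  | zero => simp
  | tmul o c =>
    rw [red_tmul, Algebra.TensorProduct.basis_repr_tmul]
    have h1 : (o • Finsupp.mapRange (algebraMap K P₀.toValuationSubring) (map_zero _)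
        (b.repr c)).mapRange (resK h) (map_zero _) = resK h o • b.repr c := by
      ext j
      simp
    rw [h1, map_smul, b.linearCombination_repr, Algebra.smul_def]
  | add x y hx hy =>
    rw [map_add, hx, hy, map_add, Finsupp.mapRange_add (f := resK h) (by intros; simp),
      map_add]


theorem red_eq_zero_iff (x : TT L P₀) :
    red L h x = 0 ↔ ∀ j, (Algebra.TensorProduct.basis P₀.toValuationSubring b).repr x j
      ∈ maximalIdeal P₀.toValuationSubring := by
  rw [red_eq_linearCombination b h x]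
  constructor
  · intro h0 j
    have h1 := (b.linearIndependent.finsuppLinearCombination_injective
      (by rw [h0, map_zero] : Finsupp.linearCombination K b _ = Finsupp.linearCombination K b 0))
    have h2 := DFunLike.congr_fun h1 j
    rw [Finsupp.mapRange_apply, Finsupp.zero_apply] at h2
    exact (resK_eq_zero_iff h _).1 h2
  · intro h0
    have : ((Algebra.TensorProduct.basis P₀.toValuationSubring b).repr x).mapRange (resK h)
        (map_zero _) = 0 := by
      ext j
      rw [Finsupp.mapRange_apply, Finsupp.zero_apply]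
      exact (resK_eq_zero_iff h _).2 (h0 j)
    rw [this, map_zero]


/-- If `red x = 0` then `x` is divisible by a uniformiser, coordinatewise. -/
theorem exists_smul_of_red_eq_zero {t : P₀.toValuationSubring} (ht : Irreducible t)
    {x : TT L P₀} (hx : red L h x = 0) :
    ∃ x' : TT L P₀, x = t • x' ∧
      ∀ j, (Algebra.TensorProduct.basis P₀.toValuationSubring b).repr x j =
        t * (Algebra.TensorProduct.basis P₀.toValuationSubring b).repr x' j := by
  classical
  set B := Algebra.TensorProduct.basis P₀.toValuationSubring b with hB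
  have hdvd : ∀ j, t ∣ B.repr x j := by
    intro j
    have := (red_eq_zero_iff b h x).1 hx j
    rw [ht.maximalIdeal_eq, Ideal.mem_span_singleton] at this
    exact this
  let d : P₀.toValuationSubring → P₀.toValuationSubring := fun o =>
    if hd : t ∣ o then Classical.choose hd else 0
  have hd : ∀ o, t ∣ o → o = t * d o := by
    intro o ho
    simp only [d, dif_pos ho]
    exact Classical.choose_spec ho
  have hd0 : d 0 = 0 := by
    have := hd 0 (dvd_zero t)
    rcases mul_eq_zero.1 this.symm with h1 | h1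
    · exact absurd h1 ht.ne_zero
    · exact h1
  refine ⟨B.repr.symm ((B.repr x).mapRange d hd0), ?_, ?_⟩
  · apply B.repr.injective
    rw [map_smul, LinearEquiv.apply_symm_apply]
    refine Finsupp.ext fun j => ?_
    rw [Finsupp.smul_apply, Finsupp.mapRange_apply, smul_eq_mul]
    exact hd _ (hdvd j)
  · intro j
    rw [LinearEquiv.apply_symm_apply, Finsupp.mapRange_apply]
    exact hd _ (hdvd j)

include b in
/-- Every nonzero element of `O ⊗[K] L` is a power of the uniformiser times an element with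
nonzero reduction. -/
theorem exists_pow_smul {t : P₀.toValuationSubring} (ht : Irreducible t)
    {x : TT L P₀} (hx : x ≠ 0) :
    ∃ (n : ℕ) (u : TT L P₀), x = t ^ n • u ∧ red L h u ≠ 0 := by
  classical
  set B := Algebra.TensorProduct.basis P₀.toValuationSubring b with hB
  -- a nonzero coordinate
  have hrepr : B.repr x ≠ 0 := fun h0 => hx (B.repr.map_eq_zero_iff.1 h0)
  obtain ⟨j, hj⟩ : ∃ j, B.repr x j ≠ 0 := by
    by_contra hcon
    exact hrepr (Finsupp.ext fun j => by_contra fun hj => hcon ⟨j, hj⟩)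
  obtain ⟨k, w, hk⟩ := IsDiscreteValuationRing.eq_unit_mul_pow_irreducible hj ht
  clear hrepr hx
  induction k generalizing x w with
  | zero =>
    refine ⟨0, x, by simp, fun h0 => ?_⟩
    have := (red_eq_zero_iff b h x).1 h0 j
    rw [hk, pow_zero, mul_one] at this
    exact (mem_maximalIdeal _).1 this w.isUnit
  | succ k ih =>
    by_cases h0 : red L h x = 0
    · obtain ⟨x', hx', hc⟩ := exists_smul_of_red_eq_zero b h ht h0
      have hj' : B.repr x' j = w * t ^ k := by
        have h1 := hc j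
        rw [hk, pow_succ, ← mul_assoc, mul_comm t] at h1
        exact (mul_right_cancel₀ ht.ne_zero h1).symm
      have hj0 : B.repr x' j ≠ 0 := by
        rw [hj']
        exact mul_ne_zero w.ne_zero (pow_ne_zero _ ht.ne_zero)
      obtain ⟨n, u, hn, hu⟩ := ih hj0 w hj'
      refine ⟨n + 1, u, ?_, hu⟩
      rw [hx', hn, pow_succ, mul_smul, smul_comm]
    · exact ⟨0, x, by simp, h0⟩

end Core


section ValT

variable (h : ResSurj P₀) {t : P₀.toValuationSubring} (ht : Irreducible t)

include ht in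
theorem exists_pow_smul' {x : TT L P₀} (hx : x ≠ 0) :
    ∃ (n : ℕ) (u : TT L P₀), x = t ^ n • u ∧ red L h u ≠ 0 :=
  exists_pow_smul (Module.Basis.ofVectorSpace K L) h ht hx

include ht in
theorem exists_smul_of_red_eq_zero' {x : TT L P₀} (hx : red L h x = 0) :
    ∃ x' : TT L P₀, x = t • x' := by
  obtain ⟨x', hx', -⟩ := exists_smul_of_red_eq_zero (Module.Basis.ofVectorSpace K L) h ht hx
  exact ⟨x', hx'⟩

include ht in
theorem resK_uniformizer : resK h t = 0 :=
  (resK_eq_zero_iff h t).2 (by rw [ht.maximalIdeal_eq]; exact Ideal.mem_span_singleton_self t)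

include ht in
theorem red_pow_smul {n : ℕ} (hn : 0 < n) (x : TT L P₀) : red L h (t ^ n • x) = 0 := by
  rw [red_smul, map_pow, resK_uniformizer h ht, zero_pow hn.ne', map_zero, zero_mul]

include ht in
/-- uniqueness of the exponent -/
theorem pow_smul_unique {n m : ℕ} {u u' : TT L P₀} (hu : red L h u ≠ 0) (hu' : red L h u' ≠ 0)
    (he : t ^ n • u = t ^ m • u') : n = m := by
  wlog hnm : n ≤ m generalizing n m u u'
  · exact (this hu' hu he.symm (le_of_not_ge hnm)).symm
  by_contra hne
  have hlt : n < m := lt_of_le_of_ne hnm hne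
  obtain ⟨k, rfl⟩ := Nat.exists_eq_add_of_lt hlt
  rw [add_assoc, pow_add, mul_smul] at he
  have h1 := (smul_right_inj (pow_ne_zero n ht.ne_zero)).1 he
  apply hu
  rw [h1]
  exact red_pow_smul h ht (Nat.succ_pos k) u'

open Classical in
/-- The `t`-adic valuation on `O ⊗[K] L`. -/
def vT (x : TT L P₀) : ℕ :=
  if hx : x = 0 then 0 else Classical.choose (exists_pow_smul' h ht hx)

include ht in
theorem ne_zero_of_red_ne_zero {n : ℕ} {u : TT L P₀} (hu : red L h u ≠ 0) :
    t ^ n • u ≠ 0 := by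
  have hu0 : u ≠ 0 := fun h0 => hu (by rw [h0, map_zero])
  exact smul_ne_zero (pow_ne_zero n ht.ne_zero) hu0

theorem vT_eq {x u : TT L P₀} {n : ℕ} (hx : x = t ^ n • u) (hu : red L h u ≠ 0) :
    vT h ht x = n := by
  have hx0 : x ≠ 0 := hx ▸ ne_zero_of_red_ne_zero h ht hu
  rw [vT, dif_neg hx0]
  obtain ⟨u', hu'1, hu'2⟩ := Classical.choose_spec (exists_pow_smul' h ht hx0)
  exact pow_smul_unique h ht hu'2 hu (hu'1.symm.trans hx)

theorem exists_eq_pow_vT_smul {x : TT L P₀} (hx : x ≠ 0) :
    ∃ u : TT L P₀, x = t ^ vT h ht x • u ∧ red L h u ≠ 0 := by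
  obtain ⟨n, u, hn, hu⟩ := exists_pow_smul' h ht hx
  exact ⟨u, by rw [vT_eq h ht hn hu]; exact hn, hu⟩

include h ht in
theorem mul_ne_zero_TT {x y : TT L P₀} (hx : x ≠ 0) (hy : y ≠ 0) : x * y ≠ 0 := by
  obtain ⟨u, hu1, hu2⟩ := exists_eq_pow_vT_smul h ht hx
  obtain ⟨u', hu'1, hu'2⟩ := exists_eq_pow_vT_smul h ht hy
  rw [hu1, hu'1, smul_mul_smul_comm, ← pow_add]
  exact ne_zero_of_red_ne_zero h ht (by rw [map_mul]; exact mul_ne_zero hu2 hu'2)

theorem vT_mul {x y : TT L P₀} (hx : x ≠ 0) (hy : y ≠ 0) :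
    vT h ht (x * y) = vT h ht x + vT h ht y := by
  obtain ⟨u, hu1, hu2⟩ := exists_eq_pow_vT_smul h ht hx
  obtain ⟨u', hu'1, hu'2⟩ := exists_eq_pow_vT_smul h ht hy
  refine vT_eq h ht (u := u * u') ?_ (by rw [map_mul]; exact mul_ne_zero hu2 hu'2)
  conv_lhs => rw [hu1, hu'1]
  rw [smul_mul_smul_comm, ← pow_add]

theorem le_vT_of_eq_pow_smul {x a : TT L P₀} {n : ℕ} (hx0 : x ≠ 0) (hx : x = t ^ n • a) :
    n ≤ vT h ht x := by
  have ha0 : a ≠ 0 := fun h0 => hx0 (by rw [hx, h0, smul_zero])
  obtain ⟨u, hu1, hu2⟩ := exists_eq_pow_vT_smul h ht ha0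
  have : vT h ht x = n + vT h ht a := by
    refine vT_eq h ht (u := u) ?_ hu2
    rw [pow_add, mul_smul, ← hu1]
    exact hx
  omega

theorem vT_add {x y : TT L P₀} (hx : x ≠ 0) (hy : y ≠ 0) (hxy : x + y ≠ 0) :
    min (vT h ht x) (vT h ht y) ≤ vT h ht (x + y) := by
  obtain ⟨u, hu1, hu2⟩ := exists_eq_pow_vT_smul h ht hx
  obtain ⟨u', hu'1, hu'2⟩ := exists_eq_pow_vT_smul h ht hy
  rcases le_total (vT h ht x) (vT h ht y) with hle | hle
  · rw [min_eq_left hle]
    obtain ⟨k, hk⟩ := Nat.exists_eq_add_of_le hle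
    refine le_vT_of_eq_pow_smul h ht hxy (a := u + t ^ k • u') ?_
    conv_lhs => rw [hu1, hu'1]
    rw [smul_add, ← mul_smul, ← pow_add, ← hk]
  · rw [min_eq_right hle]
    obtain ⟨k, hk⟩ := Nat.exists_eq_add_of_le hle
    refine le_vT_of_eq_pow_smul h ht hxy (a := t ^ k • u + u') ?_
    conv_lhs => rw [hu1, hu'1]
    rw [smul_add, ← mul_smul, ← pow_add, ← hk]

theorem vT_tmul_of_red_ne_zero {x : TT L P₀} (hx : red L h x ≠ 0) : vT h ht x = 0 :=
  vT_eq h ht (u := x) (by simp) hx

theorem vT_unit_mul_pow_tmul (w : P₀.toValuationSubringˣ) (k : ℕ) :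
    vT h ht (((w : P₀.toValuationSubring) * t ^ k) ⊗ₜ[K] (1 : L)) = k := by
  refine vT_eq h ht (u := (w : P₀.toValuationSubring) ⊗ₜ[K] (1 : L)) ?_ ?_
  · rw [TensorProduct.smul_tmul', smul_eq_mul, mul_comm]
  · rw [red_tmul, mul_one]
    intro h0
    have h1 := (map_eq_zero (algebraMap K L)).1 h0
    exact (mem_maximalIdeal _).1 ((resK_eq_zero_iff h _).1 h1) w.isUnit

end ValT


section Gen

variable (L FL) (P₀)

/-- every element of `FL` is a quotient of elements of `O ⊗[K] L` -/
def GenProp : Prop :=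
  ∀ z : FL, ∃ x y : TT L P₀, y ≠ 0 ∧ z * mu L FL P₀ y = mu L FL P₀ x

variable {L FL P₀}

theorem genProp_of_adjoin (hmu : Function.Injective (mu L FL P₀))
    (hgen : IntermediateField.adjoin L (Set.range (algebraMap FK FL)) = ⊤) :
    GenProp L FL P₀ := by
  have hne : ∀ {y : TT L P₀}, mu L FL P₀ y ≠ 0 → y ≠ 0 := fun hy h0 => hy (by rw [h0, map_zero])
  have hne' : ∀ {y : TT L P₀}, y ≠ 0 → mu L FL P₀ y ≠ 0 := fun hy h0 =>
    hy (hmu (by rw [h0, map_zero]))
  have h1 : (1 : TT L P₀) ≠ 0 := hne (by rw [map_one]; exact one_ne_zero)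
  intro z
  have hz : z ∈ IntermediateField.adjoin L (Set.range (algebraMap FK FL)) := by
    rw [hgen]; exact IntermediateField.mem_top
  induction hz using IntermediateField.adjoin_induction with
  | mem z hz =>
    obtain ⟨f, rfl⟩ := hz
    rcases P₀.toValuationSubring.mem_or_inv_mem f with hf | hf
    · exact ⟨(⟨f, hf⟩ : P₀.toValuationSubring) ⊗ₜ[K] (1 : L), 1, h1, by simp⟩
    · rcases eq_or_ne f 0 with rfl | hf0
      · exact ⟨0, 1, h1, by simp⟩
      · refine ⟨1, (⟨f⁻¹, hf⟩ : P₀.toValuationSubring) ⊗ₜ[K] (1 : L), hne ?_, ?_⟩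
        · simp [hf0]
        · rw [mu_tmul, map_one, mul_one, map_one, ← map_mul, mul_inv_cancel₀ hf0, map_one]
  | algebraMap c =>
    exact ⟨(1 : P₀.toValuationSubring) ⊗ₜ[K] c, 1, h1, by simp⟩
  | add z₁ z₂ _ _ h₁ h₂ =>
    obtain ⟨x₁, y₁, hy₁, e₁⟩ := h₁
    obtain ⟨x₂, y₂, hy₂, e₂⟩ := h₂
    refine ⟨x₁ * y₂ + x₂ * y₁, y₁ * y₂, hne ?_, ?_⟩
    · rw [map_mul]; exact mul_ne_zero (hne' hy₁) (hne' hy₂)
    · rw [map_add, map_mul, map_mul, map_mul, ← e₁, ← e₂]; ring
  | inv z _ h₁ =>
    obtain ⟨x, y, hy, e⟩ := h₁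
    rcases eq_or_ne x 0 with rfl | hx
    · have : z = 0 := by
        rw [map_zero] at e
        exact (mul_eq_zero.1 e).resolve_right (hne' hy)
      exact ⟨0, 1, h1, by simp [this]⟩
    · refine ⟨y, x, hx, ?_⟩
      have hz0 : z ≠ 0 := by
        rintro rfl
        rw [zero_mul] at e
        exact hne' hx e.symm
      rw [← e, ← mul_assoc, inv_mul_cancel₀ hz0, one_mul]
  | mul z₁ z₂ _ _ h₁ h₂ =>
    obtain ⟨x₁, y₁, hy₁, e₁⟩ := h₁
    obtain ⟨x₂, y₂, hy₂, e₂⟩ := h₂
    refine ⟨x₁ * x₂, y₁ * y₂, hne ?_, ?_⟩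
    · rw [map_mul]; exact mul_ne_zero (hne' hy₁) (hne' hy₂)
    · rw [map_mul, map_mul, ← e₁, ← e₂]; ring

end Gen


section Up

variable (h : ResSurj P₀) {t : P₀.toValuationSubring} (ht : Irreducible t)
  (hmu : Function.Injective (mu L FL P₀)) (hgen : GenProp L FL P₀)

open Classical in
/-- the extended order function on `FL` -/
def wFL (z : FL) : ℤ :=
  if z = 0 then 0 else
    (vT h ht (Classical.choose (hgen z)) : ℤ) -
      vT h ht (Classical.choose (Classical.choose_spec (hgen z)))

include hmu in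
theorem mu_ne_zero {y : TT L P₀} (hy : y ≠ 0) : mu L FL P₀ y ≠ 0 := fun h0 =>
  hy (hmu (by rw [h0, map_zero]))

include hmu in
theorem vT_sub_eq {z : FL} {x y x₀ y₀ : TT L P₀} (hz : z ≠ 0) (hy : y ≠ 0) (hy₀ : y₀ ≠ 0)
    (hxy : z * mu L FL P₀ y = mu L FL P₀ x) (h₀ : z * mu L FL P₀ y₀ = mu L FL P₀ x₀) :
    (vT h ht x₀ : ℤ) - vT h ht y₀ = (vT h ht x : ℤ) - vT h ht y := by
  have hx : x ≠ 0 := by
    rintro rfl
    rw [map_zero] at hxy
    exact (mul_ne_zero hz (mu_ne_zero hmu hy)) hxy
  have hx₀ : x₀ ≠ 0 := by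
    rintro rfl
    rw [map_zero] at h₀
    exact (mul_ne_zero hz (mu_ne_zero hmu hy₀)) h₀
  have hcross : x * y₀ = x₀ * y := by
    apply hmu
    rw [map_mul, map_mul, ← hxy, ← h₀]
    ring
  have h1 := congrArg (vT h ht) hcross
  rw [vT_mul h ht hx hy₀, vT_mul h ht hx₀ hy] at h1
  omega

include hmu in
theorem wFL_eq {z : FL} {x y : TT L P₀} (hz : z ≠ 0) (hy : y ≠ 0)
    (hxy : z * mu L FL P₀ y = mu L FL P₀ x) :
    wFL h ht hgen z = (vT h ht x : ℤ) - vT h ht y := by
  rw [wFL, if_neg hz]
  exact vT_sub_eq h ht hmu hz hy (Classical.choose_spec (Classical.choose_spec (hgen z))).1 hxy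
    (Classical.choose_spec (Classical.choose_spec (hgen z))).2

include hmu in
theorem wFL_mul {z₁ z₂ : FL} (h₁ : z₁ ≠ 0) (h₂ : z₂ ≠ 0) :
    wFL h ht hgen (z₁ * z₂) = wFL h ht hgen z₁ + wFL h ht hgen z₂ := by
  obtain ⟨x₁, y₁, hy₁, e₁⟩ := hgen z₁
  obtain ⟨x₂, y₂, hy₂, e₂⟩ := hgen z₂
  have hx₁ : x₁ ≠ 0 := by
    rintro rfl
    rw [map_zero] at e₁
    exact (mul_ne_zero h₁ (mu_ne_zero hmu hy₁)) e₁
  have hx₂ : x₂ ≠ 0 := by
    rintro rfl
    rw [map_zero] at e₂
    exact (mul_ne_zero h₂ (mu_ne_zero hmu hy₂)) e₂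
  rw [wFL_eq h ht hmu hgen h₁ hy₁ e₁, wFL_eq h ht hmu hgen h₂ hy₂ e₂,
    wFL_eq h ht hmu hgen (mul_ne_zero h₁ h₂) (mul_ne_zero_TT h ht hy₁ hy₂)
      (x := x₁ * x₂) (by rw [map_mul, map_mul, ← e₁, ← e₂]; ring),
    vT_mul h ht hx₁ hx₂, vT_mul h ht hy₁ hy₂]
  push_cast
  ring

include hmu in
theorem wFL_add {z₁ z₂ : FL} (h₁ : z₁ ≠ 0) (h₂ : z₂ ≠ 0) (h₁₂ : z₁ + z₂ ≠ 0) :
    min (wFL h ht hgen z₁) (wFL h ht hgen z₂) ≤ wFL h ht hgen (z₁ + z₂) := by
  obtain ⟨x₁, y₁, hy₁, e₁⟩ := hgen z₁
  obtain ⟨x₂, y₂, hy₂, e₂⟩ := hgen z₂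
  have hx₁ : x₁ ≠ 0 := by
    rintro rfl
    rw [map_zero] at e₁
    exact (mul_ne_zero h₁ (mu_ne_zero hmu hy₁)) e₁
  have hx₂ : x₂ ≠ 0 := by
    rintro rfl
    rw [map_zero] at e₂
    exact (mul_ne_zero h₂ (mu_ne_zero hmu hy₂)) e₂
  have e₁₂ : (z₁ + z₂) * mu L FL P₀ (y₁ * y₂) = mu L FL P₀ (x₁ * y₂ + x₂ * y₁) := by
    rw [map_add, map_mul, map_mul, map_mul, ← e₁, ← e₂]; ring
  have hsum : x₁ * y₂ + x₂ * y₁ ≠ 0 := by
    intro h0
    rw [h0, map_zero] at e₁₂
    exact (mul_ne_zero h₁₂ (mu_ne_zero hmu (mul_ne_zero_TT h ht hy₁ hy₂))) e₁₂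
  rw [wFL_eq h ht hmu hgen h₁ hy₁ e₁, wFL_eq h ht hmu hgen h₂ hy₂ e₂,
    wFL_eq h ht hmu hgen h₁₂ (mul_ne_zero_TT h ht hy₁ hy₂) e₁₂, vT_mul h ht hy₁ hy₂]
  have hmin := vT_add h ht (mul_ne_zero_TT h ht hx₁ hy₂) (mul_ne_zero_TT h ht hx₂ hy₁) hsum
  rw [vT_mul h ht hx₁ hy₂, vT_mul h ht hx₂ hy₁] at hmin
  push_cast
  omega

include hmu in
theorem wFL_algebraMap_L {c : L} (hc : c ≠ 0) : wFL h ht hgen (algebraMap L FL c) = 0 := by
  have h1 : (1 : TT L P₀) ≠ 0 := fun h0 => by
    have := congrArg (mu L FL P₀) h0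
    rw [map_one, map_zero] at this
    exact one_ne_zero this
  have e : algebraMap L FL c * mu L FL P₀ 1 = mu L FL P₀ ((1 : P₀.toValuationSubring) ⊗ₜ[K] c) := by
    simp
  rw [wFL_eq h ht hmu hgen ((map_ne_zero _).2 hc) h1 e,
    vT_tmul_of_red_ne_zero h ht (x := (1 : P₀.toValuationSubring) ⊗ₜ[K] c) (by simpa using hc),
    vT_tmul_of_red_ne_zero h ht (x := (1 : TT L P₀)) (by rw [map_one]; exact one_ne_zero)]
  simp

include hmu in
theorem wFL_algebraMap_unit_mul_pow (w : P₀.toValuationSubringˣ) (k : ℕ) :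
    wFL h ht hgen (algebraMap FK FL (((w : P₀.toValuationSubring) * t ^ k :
      P₀.toValuationSubring) : FK)) = k := by
  have h1 : (1 : TT L P₀) ≠ 0 := fun h0 => by
    have := congrArg (mu L FL P₀) h0
    rw [map_one, map_zero] at this
    exact one_ne_zero this
  have hne : (((w : P₀.toValuationSubring) * t ^ k : P₀.toValuationSubring) : FK) ≠ 0 := by
    intro h0
    have : (w : P₀.toValuationSubring) * t ^ k = 0 := Subtype.ext h0
    exact mul_ne_zero w.ne_zero (pow_ne_zero _ ht.ne_zero) this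
  have e : algebraMap FK FL (((w : P₀.toValuationSubring) * t ^ k : P₀.toValuationSubring) : FK)
      * mu L FL P₀ 1 = mu L FL P₀ (((w : P₀.toValuationSubring) * t ^ k) ⊗ₜ[K] (1 : L)) := by
    simp
  rw [wFL_eq h ht hmu hgen ((map_ne_zero _).2 hne) h1 e, vT_unit_mul_pow_tmul h ht w k,
    vT_tmul_of_red_ne_zero h ht (x := (1 : TT L P₀)) (by rw [map_one]; exact one_ne_zero)]
  simp


open Fermat.Agent.S24 in
/-- the `ℤ`-valued valuation on `FL` extending `ord_{P₀}` -/
def upZVal : ZVal L FL where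
  w := wFL h ht hgen
  w_zero := by simp [wFL]
  w_mul := fun h₁ h₂ => wFL_mul h ht hmu hgen h₁ h₂
  w_add := fun h₁ h₂ h₁₂ => wFL_add h ht hmu hgen h₁ h₂ h₁₂
  w_alg := fun c hc => wFL_algebraMap_L h ht hmu hgen hc
  nontrivial := by
    refine ⟨algebraMap FK FL (t : FK), ?_, ?_⟩
    · rw [map_ne_zero]
      intro h0
      exact ht.ne_zero (Subtype.ext h0)
    · have := wFL_algebraMap_unit_mul_pow h ht hmu hgen 1 1
      simp only [Units.val_one, one_mul, pow_one] at this
      rw [this]
      norm_num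

/-- the unique extension of `P₀` to `FL` -/
def upAux : Place L FL := (upZVal h ht hmu hgen).place

theorem upZVal_w_t : (upZVal h ht hmu hgen).w (algebraMap FK FL (t : FK)) = 1 := by
  have := wFL_algebraMap_unit_mul_pow h ht hmu hgen 1 1
  simp only [Units.val_one, one_mul, pow_one] at this
  rw [show (upZVal h ht hmu hgen).w = wFL h ht hgen from rfl, this]
  norm_num

theorem upZVal_index : (upZVal h ht hmu hgen).index = 1 := by
  have h1 := (upZVal h ht hmu hgen).index_pos
  have ht0 : algebraMap FK FL (t : FK) ≠ 0 := by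
    rw [map_ne_zero]
    intro h0
    exact ht.ne_zero (Subtype.ext h0)
  have h2 := (upZVal h ht hmu hgen).index_le_of_pos ht0
    (by rw [upZVal_w_t]; norm_num)
  rw [upZVal_w_t] at h2
  omega

theorem upAux_ord (z : FL) : (upAux h ht hmu hgen).ord z = wFL h ht hgen z := by
  have := (upZVal h ht hmu hgen).place_ord_mul_index z
  rw [upZVal_index, Nat.cast_one, mul_one] at this
  exact this

theorem upAux_ord_algebraMap (f : FK) :
    (upAux h ht hmu hgen).ord (algebraMap FK FL f) = P₀.ord f := by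
  rcases eq_or_ne f 0 with rfl | hf
  · simp
  obtain ⟨u, hu⟩ := P₀.exists_unit_mul_zpow hf ht
  have ht0 : (t : FK) ≠ 0 := fun h0 => ht.ne_zero (Subtype.ext h0)
  have hu0 : ((u : P₀.toValuationSubring) : FK) ≠ 0 := fun h0 => u.ne_zero (Subtype.ext h0)
  have hwu : wFL h ht hgen (algebraMap FK FL ((u : P₀.toValuationSubring) : FK)) = 0 := by
    have := wFL_algebraMap_unit_mul_pow h ht hmu hgen u 0
    simpa using this
  rw [upAux_ord]
  conv_lhs => rw [hu]
  rw [map_mul, map_zpow₀,
    wFL_mul h ht hmu hgen ((map_ne_zero _).2 hu0) (zpow_ne_zero _ ((map_ne_zero _).2 ht0)), hwu,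
    zero_add]
  have := (upZVal h ht hmu hgen).w_zpow ((map_ne_zero (algebraMap FK FL)).2 ht0) (P₀.ord f)
  rw [upZVal_w_t, mul_one] at this
  exact this

theorem upAux_comap :
    (upAux h ht hmu hgen).toValuationSubring.comap (algebraMap FK FL) = P₀.toValuationSubring := by
  ext f
  rw [ValuationSubring.mem_comap, Fermat.Agent.S24.FFDeriv.mem_iff_ord_nonneg,
    Fermat.Agent.S24.FFDeriv.mem_iff_ord_nonneg, upAux_ord_algebraMap]


theorem mu_smul (o : P₀.toValuationSubring) (x : TT L P₀) :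
    mu L FL P₀ (o • x) = algebraMap FK FL (o : FK) * mu L FL P₀ x := by
  have : o • x = (o ⊗ₜ[K] (1 : L)) * x := by
    induction x using TensorProduct.induction_on with
    | zero => simp
    | tmul a c => simp [TensorProduct.smul_tmul', Algebra.TensorProduct.tmul_mul_tmul]
    | add a b ha hb => rw [smul_add, mul_add, ha, hb]
  rw [this, map_mul, mu_tmul, map_one, mul_one]

section Unique

variable (P : Place L FL)
  (hP : P.toValuationSubring.comap (algebraMap FK FL) = P₀.toValuationSubring)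

include hP in
theorem mu_mem (x : TT L P₀) : mu L FL P₀ x ∈ P.toValuationSubring := by
  induction x using TensorProduct.induction_on with
  | zero => rw [map_zero]; exact zero_mem _
  | tmul o c =>
    rw [mu_tmul]
    refine mul_mem ?_ (P.algebraMap_mem' c)
    have : (o : FK) ∈ P.toValuationSubring.comap (algebraMap FK FL) := by rw [hP]; exact o.2
    exact this
  | add a b ha hb => rw [map_add]; exact add_mem ha hb

include hP ht in
theorem valuation_t_lt_one :
    P.toValuationSubring.valuation (algebraMap FK FL (t : FK)) < 1 := by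
  have hmem : algebraMap FK FL (t : FK) ∈ P.toValuationSubring := by
    have : (t : FK) ∈ P.toValuationSubring.comap (algebraMap FK FL) := by rw [hP]; exact t.2
    exact this
  have hle := (P.toValuationSubring.valuation_le_one_iff _).2 hmem
  rcases lt_or_eq_of_le hle with hlt | heq
  · exact hlt
  · exfalso
    have ht0 : (t : FK) ≠ 0 := fun h0 => ht.ne_zero (Subtype.ext h0)
    have hinv : (algebraMap FK FL (t : FK))⁻¹ ∈ P.toValuationSubring := by
      rw [← P.toValuationSubring.valuation_le_one_iff, map_inv₀, heq, inv_one]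
    rw [← map_inv₀] at hinv
    have hinv' : (t : FK)⁻¹ ∈ P₀.toValuationSubring := (SetLike.ext_iff.1 hP _).1 hinv
    apply ht.not_isUnit
    refine isUnit_iff_exists_inv.mpr ⟨⟨(t : FK)⁻¹, hinv'⟩, Subtype.ext ?_⟩
    simp [ht0]

include hP ht in
theorem inv_mu_mem {u : TT L P₀} (hu : red L h u ≠ 0) :
    (mu L FL P₀ u)⁻¹ ∈ P.toValuationSubring := by
  by_contra hnot
  set v := P.toValuationSubring.valuation with hv
  have hlt : v (mu L FL P₀ u) < 1 := by
    have h1 : ¬ v (mu L FL P₀ u)⁻¹ ≤ 1 := fun hle =>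
      hnot ((P.toValuationSubring.valuation_le_one_iff _).1 hle)
    rw [not_le, map_inv₀] at h1
    have hne : v (mu L FL P₀ u) ≠ 0 := by
      intro h0
      rw [h0, inv_zero] at h1
      exact not_lt.2 zero_le_one h1
    exact (one_lt_inv₀ (zero_lt_iff.2 hne)).1 h1
  -- an inverse modulo `t`
  set c := red L h u with hc
  set a : TT L P₀ := (1 : P₀.toValuationSubring) ⊗ₜ[K] c⁻¹ with ha
  have hred : red L h (a * u - 1) = 0 := by
    rw [map_sub, map_mul, map_one, ha, red_tmul, map_one, map_one, one_mul, ← hc,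
      inv_mul_cancel₀ hu, sub_self]
  obtain ⟨x', hx'⟩ := exists_smul_of_red_eq_zero' h ht hred
  have h1 : (1 : FL) = mu L FL P₀ a * mu L FL P₀ u - algebraMap FK FL (t : FK) * mu L FL P₀ x' := by
    rw [← mu_smul, ← hx', map_sub, map_mul, map_one]
    ring
  have hva : v (mu L FL P₀ a) ≤ 1 := (P.toValuationSubring.valuation_le_one_iff _).2 (mu_mem P hP a)
  have hvx : v (mu L FL P₀ x') ≤ 1 :=
    (P.toValuationSubring.valuation_le_one_iff _).2 (mu_mem P hP x')
  have hvt : v (algebraMap FK FL (t : FK)) < 1 := valuation_t_lt_one ht P hP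
  have h2 : v (mu L FL P₀ a * mu L FL P₀ u) < 1 := by
    rw [map_mul]
    exact mul_lt_one_of_nonneg_of_lt_one_right hva zero_le hlt
  have h3 : v (algebraMap FK FL (t : FK) * mu L FL P₀ x') < 1 := by
    rw [map_mul]
    exact mul_lt_one_of_nonneg_of_lt_one_left zero_le hvt hvx
  have h4 : v (1 : FL) < 1 := by
    rw [h1]
    exact lt_of_le_of_lt (Valuation.map_sub _ _ _) (max_lt h2 h3)
  rw [map_one] at h4
  exact lt_irrefl _ h4

include hP in
theorem eq_upAux : P = upAux h ht hmu hgen := by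
  symm
  apply Place.ext
  refine ValuationSubring.eq_of_le_of_ne_top _ ?_ P.ne_top'
  intro z hz
  rcases eq_or_ne z 0 with rfl | hz0
  · exact zero_mem _
  rw [Fermat.Agent.S24.FFDeriv.mem_iff_ord_nonneg, upAux_ord] at hz
  obtain ⟨x, y, hy, e⟩ := hgen z
  have hx : x ≠ 0 := by
    rintro rfl
    rw [map_zero] at e
    exact (mul_ne_zero hz0 (mu_ne_zero hmu hy)) e
  rw [wFL_eq h ht hmu hgen hz0 hy e] at hz
  obtain ⟨u, hu1, hu2⟩ := exists_eq_pow_vT_smul h ht hx
  obtain ⟨u', hu'1, hu'2⟩ := exists_eq_pow_vT_smul h ht hy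
  obtain ⟨k, hk⟩ := Nat.exists_eq_add_of_le (by omega : vT h ht y ≤ vT h ht x)
  have ht0 : algebraMap FK FL (t : FK) ≠ 0 := by
    rw [map_ne_zero]
    intro h0
    exact ht.ne_zero (Subtype.ext h0)
  have hmu' : mu L FL P₀ u' ≠ 0 := by
    intro h0
    apply hu'2
    rw [hmu (h0.trans (map_zero _).symm), map_zero]
  have hz' : z = algebraMap FK FL (t : FK) ^ k * mu L FL P₀ u * (mu L FL P₀ u')⁻¹ := by
    have e' := e
    rw [hu1, hu'1, mu_smul, mu_smul, hk, pow_add] at e'
    simp only [SubmonoidClass.coe_pow, MulMemClass.coe_mul, map_pow, map_mul] at e'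
    field_simp
    have : z * mu L FL P₀ u' * (algebraMap FK FL (t : FK)) ^ vT h ht y =
        (algebraMap FK FL (t : FK)) ^ k * mu L FL P₀ u * (algebraMap FK FL (t : FK)) ^ vT h ht y := by
      linear_combination e'
    exact mul_right_cancel₀ (pow_ne_zero _ ht0) this
  rw [hz']
  refine mul_mem (mul_mem (pow_mem ?_ k) (mu_mem P hP u)) (inv_mu_mem h ht P hP hu'2)
  have : (t : FK) ∈ P.toValuationSubring.comap (algebraMap FK FL) := by rw [hP]; exact t.2
  exact this

end Unique

end Up

/-! ### The packaged statements -/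

variable (K L FK FL)

/-- The hypotheses on a constant field extension `FK / K ⊆ FL / L`. -/
structure Setup : Prop where
  /-- every place of `FK / K` has residue field `K` -/
  resSurj : ∀ P₀ : Place K FK, ResSurj P₀
  /-- linear disjointness: `O ⊗[K] L → FL` is injective -/
  mu_injective : ∀ P₀ : Place K FK, Function.Injective (mu L FL P₀)
  /-- `FL = L(FK)` -/
  gen : IntermediateField.adjoin L (Set.range (algebraMap FK FL)) = ⊤
  /-- nontrivial valuation subrings of `FK` containing `K` are discrete -/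
  dvr : ∀ V : ValuationSubring FK, (∀ c : K, algebraMap K FK c ∈ V) → V ≠ ⊤ →
    IsPrincipalIdealRing V

variable {K L FK FL}

namespace Setup

variable (S : Setup K L FK FL)

/-- The unique place of `FL / L` above a place of `FK / K`. -/
def up (P₀ : Place K FK) : Place L FL :=
  upAux (S.resSurj P₀)
    (Classical.choose_spec (IsDiscreteValuationRing.exists_irreducible P₀.toValuationSubring))
    (S.mu_injective P₀) (genProp_of_adjoin (S.mu_injective P₀) S.gen)

/-- `e = 1`. -/
theorem ord_up (P₀ : Place K FK) (f : FK) : (S.up P₀).ord (algebraMap FK FL f) = P₀.ord f :=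
  upAux_ord_algebraMap _ _ _ _ f

theorem comap_up (P₀ : Place K FK) :
    (S.up P₀).toValuationSubring.comap (algebraMap FK FL) = P₀.toValuationSubring :=
  upAux_comap _ _ _ _

theorem eq_up {P : Place L FL} {P₀ : Place K FK}
    (hP : P.toValuationSubring.comap (algebraMap FK FL) = P₀.toValuationSubring) : P = S.up P₀ :=
  eq_upAux _ _ _ _ P hP

theorem up_injective : Function.Injective S.up := by
  intro P₀ P₁ h
  apply Place.ext
  rw [← S.comap_up P₀, ← S.comap_up P₁, h]

theorem mem_up_iff (P₀ : Place K FK) (f : FK) :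
    algebraMap FK FL f ∈ (S.up P₀).toValuationSubring ↔ f ∈ P₀.toValuationSubring := by
  rw [← S.comap_up P₀, ValuationSubring.mem_comap]

/-- **Down.** A place of `FL / L` is trivial on `FK` or is the extension of its restriction. -/
theorem comap_eq_top_or_eq_up (P : Place L FL) :
    P.toValuationSubring.comap (algebraMap FK FL) = ⊤ ∨ ∃ P₀ : Place K FK, P = S.up P₀ := by
  by_cases htop : P.toValuationSubring.comap (algebraMap FK FL) = ⊤
  · exact Or.inl htop
  · right
    have hK : ∀ c : K, algebraMap K FK c ∈ P.toValuationSubring.comap (algebraMap FK FL) := by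
      intro c
      rw [ValuationSubring.mem_comap, ← IsScalarTower.algebraMap_apply,
        IsScalarTower.algebraMap_apply K L FL]
      exact P.algebraMap_mem' _
    exact ⟨⟨P.toValuationSubring.comap (algebraMap FK FL), hK, htop, S.dvr _ hK htop⟩,
      S.eq_up rfl⟩

/-- A place of `FL` which is trivial on `FK` has order zero on `FK`. -/
theorem ord_algebraMap_of_comap_eq_top {P : Place L FL}
    (hP : P.toValuationSubring.comap (algebraMap FK FL) = ⊤) (f : FK) :
    P.ord (algebraMap FK FL f) = 0 := by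
  have h1 : algebraMap FK FL f ∈ P.toValuationSubring := by
    have : f ∈ P.toValuationSubring.comap (algebraMap FK FL) := by rw [hP]; trivial
    exact this
  have h2 : algebraMap FK FL f⁻¹ ∈ P.toValuationSubring := by
    have : f⁻¹ ∈ P.toValuationSubring.comap (algebraMap FK FL) := by rw [hP]; trivial
    exact this
  rw [Fermat.Agent.S24.FFDeriv.mem_iff_ord_nonneg] at h1 h2
  rw [map_inv₀, P.ord_inv] at h2
  omega

/-- The order of `f ∈ FK` at any place of `FL`: either zero, or the order at the restriction. -/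
theorem ord_algebraMap_eq (P : Place L FL) (f : FK) :
    (P.toValuationSubring.comap (algebraMap FK FL) = ⊤ ∧ P.ord (algebraMap FK FL f) = 0) ∨
      ∃ P₀ : Place K FK, P = S.up P₀ ∧ P.ord (algebraMap FK FL f) = P₀.ord f := by
  rcases S.comap_eq_top_or_eq_up P with htop | ⟨P₀, rfl⟩
  · left
    exact ⟨htop, ord_algebraMap_of_comap_eq_top htop f⟩
  · exact Or.inr ⟨P₀, rfl, S.ord_up P₀ f⟩

/-- The places of `FL` at which a nonzero `f ∈ FK` has nonzero order are extensions of places of
`FK`. -/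
theorem exists_eq_up_of_ord_ne_zero {P : Place L FL} {f : FK}
    (hf : P.ord (algebraMap FK FL f) ≠ 0) : ∃ P₀ : Place K FK, P = S.up P₀ := by
  rcases S.ord_algebraMap_eq P f with ⟨-, h0⟩ | ⟨P₀, hP, -⟩
  · exact absurd h0 hf
  · exact ⟨P₀, hP⟩

end Setup

end Fermat.Agent.S29.Desc.ConstExtTr
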