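import Mathlib
import Fermat.Agent.S29.Desc.ConstExtTr
import Fermat.Agent.S18.ConstExt.Restrict
import Fermat.Agent.S18.Places.ConstExt
import Fermat.Agent.S24.FFGenus
import Fermat.Agent.S16.Bridge.Descent

set_option autoImplicit false

noncomputable section

namespace Fermat.Agent.S29.Desc.ConstExtTrLaurent

open AlgebraicCurve ModularCurve TensorProduct IsLocalRing HahnSeries IntermediateField
open Fermat.Agent.S29.Desc.ConstExtTr
open Fermat.Agent.S16.Bridge.Descent

variable {K L : Type*} [Field K] [Field L] [Algebra ℚ K] [Algebra ℚ L] [Algebra K L]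
variable (F₀ : IntermediateField ℚ (LaurentSeries ℚ))

/-- the base change ring homomorphism `F_K → F_L` (coefficientwise) -/
abbrev bc : laurentBaseChange K F₀ →+* laurentBaseChange L F₀ :=
  Fermat.Agent.S18.ConstExt.up (K := L) F₀

section Instances

/-- The algebra structure `F_K → F_L`. -/
@[reducible] def algUp : Algebra (laurentBaseChange K F₀) (laurentBaseChange L F₀) :=
  Fermat.Agent.S18.ConstExt.algUp (L1 := K) (K := L) F₀

/-- The algebra structure `K → F_L`. -/
@[reducible] def algConst : Algebra K (laurentBaseChange L F₀) :=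
  Fermat.Agent.S18.ConstExt.algConst (L1 := K) (K := L) F₀

end Instances

section ResSurj

omit [Algebra ℚ K] in
/-- `HRes` gives a surjective map to the residue field. -/
theorem resSurj_of_hres {F : Type*} [Field F] [Algebra K F] (v : Place K F)
    (h : Fermat.Agent.S24.FFGlue.HRes v) : ResSurj v := by
  intro r
  obtain ⟨y, rfl⟩ := IsLocalRing.residue_surjective r
  obtain ⟨c, hc⟩ := h (y : F) y.2
  refine ⟨c, ?_⟩
  have key : residue v.toValuationSubring (y - algebraMap K v.toValuationSubring c) = 0 := by
    rcases eq_or_ne ((y : F) - algebraMap K F c) 0 with h0 | h0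
    · have : y - algebraMap K v.toValuationSubring c = 0 := Subtype.ext (by simpa using h0)
      rw [this, map_zero]
    · have hpos : 0 < v.ord ((y : F) - algebraMap K F c) := by
        rcases hc with hc | hc
        · exact absurd (by rw [hc, sub_self]) h0
        · exact hc
      obtain ⟨hm, hmem⟩ := (Fermat.Agent.S24.ord_pos_iff_mem_maximalIdeal v h0).1 hpos
      rw [residue_eq_zero_iff]
      exact hmem
  rw [map_sub, sub_eq_zero] at key
  rw [key, IsScalarTower.algebraMap_apply K v.toValuationSubring v.ResidueField,
    IsLocalRing.ResidueField.algebraMap_eq]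

end ResSurj


section Laurent

local instance instAlgUp : Algebra (laurentBaseChange K F₀) (laurentBaseChange L F₀) :=
  algUp F₀

local instance instAlgConst : Algebra K (laurentBaseChange L F₀) :=
  algConst F₀

local instance instTowerConst : IsScalarTower K L (laurentBaseChange L F₀) :=
  Fermat.Agent.S18.ConstExt.isScalarTower_const (L1 := K) (K := L) F₀

local instance instTowerUp :
    IsScalarTower K (laurentBaseChange K F₀) (laurentBaseChange L F₀) :=
  Fermat.Agent.S18.ConstExt.isScalarTower_up (L1 := K) (K := L) F₀

theorem algebraMap_eq_bc (f : laurentBaseChange K F₀) :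
    algebraMap (laurentBaseChange K F₀) (laurentBaseChange L F₀) f = bc F₀ f := rfl

theorem coe_algebraMap_FL (c : L) :
    ((algebraMap L (laurentBaseChange L F₀) c : laurentBaseChange L F₀) : LaurentSeries L)
      = HahnSeries.C c := by
  rw [← algebraMap_eq_C]
  rfl

variable (P₀ : Place K (laurentBaseChange K F₀))

/-- the value of `mu` as a Laurent series -/
theorem coe_mu_smul_tmul (o : P₀.toValuationSubring) (c : L) :
    ((mu L (laurentBaseChange L F₀) P₀ (o ⊗ₜ[K] c) : laurentBaseChange L F₀) : LaurentSeries L)
      = toL K L ((o : laurentBaseChange K F₀) : LaurentSeries K) * HahnSeries.C c := by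
  rw [mu_tmul, algebraMap_eq_bc]
  show ((bc F₀ (o : laurentBaseChange K F₀) : laurentBaseChange L F₀) : LaurentSeries L) *
    ((algebraMap L (laurentBaseChange L F₀) c : laurentBaseChange L F₀) : LaurentSeries L) = _
  rw [coe_algebraMap_FL]
  rfl

theorem coe_smul_O (k : K) (o : P₀.toValuationSubring) :
    ((((k • o : P₀.toValuationSubring) : laurentBaseChange K F₀)) : LaurentSeries K)
      = HahnSeries.C k * ((o : laurentBaseChange K F₀) : LaurentSeries K) := by
  rw [Algebra.smul_def]
  show ((((algebraMap K P₀.toValuationSubring k : P₀.toValuationSubring) :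
    laurentBaseChange K F₀) * (o : laurentBaseChange K F₀) : laurentBaseChange K F₀) :
      LaurentSeries K) = _
  rw [Place.coe_algebraMap]
  show ((algebraMap K (laurentBaseChange K F₀) k : laurentBaseChange K F₀) : LaurentSeries K) *
    ((o : laurentBaseChange K F₀) : LaurentSeries K) = _
  congr 1
  rw [← algebraMap_eq_C]
  rfl

/-- coefficientwise functional applied to `mu` -/
theorem linHat_coe_mu (lam : L →ₗ[K] K) (x : TT L P₀) :
    linHat lam ((mu L (laurentBaseChange L F₀) P₀ x : laurentBaseChange L F₀) : LaurentSeries L)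
      = ((((TensorProduct.rid K P₀.toValuationSubring).toLinearMap.comp
          (LinearMap.lTensor P₀.toValuationSubring lam)) x : P₀.toValuationSubring) :
            LaurentSeries K) := by
  induction x using TensorProduct.induction_on with
  | zero => simp
  | tmul o c =>
    rw [coe_mu_smul_tmul, linHat_toL_mul, linHat_C]
    simp only [LinearMap.coe_comp, LinearEquiv.coe_coe, Function.comp_apply,
      LinearMap.lTensor_tmul, TensorProduct.rid_tmul]
    rw [mul_comm, coe_smul_O]
  | add a b ha hb =>
    rw [map_add, map_add]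
    show linHat lam (((mu L (laurentBaseChange L F₀) P₀ a : laurentBaseChange L F₀) :
      LaurentSeries L) + ((mu L (laurentBaseChange L F₀) P₀ b : laurentBaseChange L F₀) :
        LaurentSeries L)) = _
    rw [map_add, ha, hb]
    rfl


omit [Algebra ℚ L] in
/-- the coordinates of `x : O ⊗ L` in the `O`-basis induced by a `K`-basis of `L` -/
theorem basis_repr_eq {ι : Type*} (b : Module.Basis ι K L) (x : TT L P₀) (i : ι) :
    (Algebra.TensorProduct.basis P₀.toValuationSubring b).repr x i
      = ((TensorProduct.rid K P₀.toValuationSubring).toLinearMap.comp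
          (LinearMap.lTensor P₀.toValuationSubring (b.coord i))) x := by
  induction x using TensorProduct.induction_on with
  | zero => simp
  | tmul o c =>
    rw [Algebra.TensorProduct.basis_repr_tmul]
    simp only [LinearMap.coe_comp, LinearEquiv.coe_coe, Function.comp_apply,
      LinearMap.lTensor_tmul, TensorProduct.rid_tmul, Finsupp.smul_apply,
      Finsupp.mapRange_apply, Module.Basis.coord_apply]
    rw [smul_eq_mul, mul_comm, ← Algebra.smul_def]
  | add a b' ha hb =>
    rw [map_add, Finsupp.add_apply, ha, hb, map_add]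

theorem mu_injective : Function.Injective (mu L (laurentBaseChange L F₀) P₀) := by
  rw [injective_iff_map_eq_zero]
  intro x hx
  set b := Module.Basis.ofVectorSpace K L with hb
  have hcoord : ∀ i, (Algebra.TensorProduct.basis P₀.toValuationSubring b).repr x i = 0 := by
    intro i
    rw [basis_repr_eq]
    have h := linHat_coe_mu F₀ P₀ (b.coord i) x
    rw [hx] at h
    have h0 : (((0 : laurentBaseChange L F₀)) : LaurentSeries L) = 0 := rfl
    rw [h0, map_zero] at h
    apply Subtype.ext
    apply Subtype.ext
    exact h.symm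
  have : (Algebra.TensorProduct.basis P₀.toValuationSubring b).repr x = 0 :=
    Finsupp.ext hcoord
  exact (LinearEquiv.map_eq_zero_iff _).1 this


omit P₀ in
/-- `F_L = L(F_K)`. -/
theorem gen : IntermediateField.adjoin L
    (Set.range (algebraMap (laurentBaseChange K F₀) (laurentBaseChange L F₀))) = ⊤ := by
  rw [eq_top_iff]
  rintro ⟨x, hx⟩ -
  let T : Subfield (LaurentSeries L) :=
    (IntermediateField.adjoin L
      (Set.range (algebraMap (laurentBaseChange K F₀) (laurentBaseChange L F₀)))).toSubfield.map
        (laurentBaseChange L F₀).val.toRingHom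
  have hle : Subfield.closure (Set.range (algebraMap L (LaurentSeries L)) ∪
      (⇑(coeffEmb L) '' (F₀ : Set (LaurentSeries ℚ)))) ≤ T := by
    rw [Subfield.closure_le]
    rintro y (⟨a, rfl⟩ | ⟨z, hz, rfl⟩)
    · exact ⟨algebraMap L (laurentBaseChange L F₀) a,
        IntermediateField.algebraMap_mem _ _, rfl⟩
    · refine ⟨algebraMap (laurentBaseChange K F₀) (laurentBaseChange L F₀)
          ⟨coeffEmb K z, coeffEmb_mem_laurentBaseChange K hz⟩,
        IntermediateField.subset_adjoin _ _ ⟨_, rfl⟩, ?_⟩
      exact Fermat.Agent.S18.ConstExt.coeffMap_coeffEmb_up z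
  obtain ⟨y, hy, hyx⟩ := hle (mem_laurentBaseChange_iff.mp hx)
  have : y = ⟨x, hx⟩ := Subtype.ext hyx
  rw [← this]
  exact hy

omit P₀ in
/-- **The constant field extension `F_K ⊆ F_L` satisfies the hypotheses of the abstract places
layer**, given a separating transcendental `x` of `F_K / K` (`K` algebraically closed). -/
theorem setup [IsAlgClosed K] (x : laurentBaseChange K F₀) (hx : Transcendental K x)
    [FiniteDimensional K⟮x⟯ (laurentBaseChange K F₀)] :
    Setup K L (laurentBaseChange K F₀) (laurentBaseChange L F₀) := by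
  have : CharZero K := algebraRat.charZero K
  exact
  { resSurj := fun P₀ => resSurj_of_hres P₀ (Fermat.Agent.S24.FFGenus.hres x hx P₀)
    mu_injective := fun P₀ => mu_injective F₀ P₀
    gen := gen F₀
    dvr := fun V hK hne =>
      Fermat.Agent.S18.Places.ConstExt.isPrincipalIdealRing_of_transcendental x hx V hK hne }


section Exports

omit P₀

variable [IsAlgClosed K] (x : laurentBaseChange K F₀) (hx : Transcendental K x)
  [FiniteDimensional K⟮x⟯ (laurentBaseChange K F₀)]

/-- **The unique place of `F_L / L` above a place of `F_K / K`.** -/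
def upPlace (P₀ : Place K (laurentBaseChange K F₀)) : Place L (laurentBaseChange L F₀) :=
  (setup (L := L) F₀ x hx).up P₀

/-- `e = 1`. -/
theorem ord_upPlace (P₀ : Place K (laurentBaseChange K F₀)) (f : laurentBaseChange K F₀) :
    (upPlace (L := L) F₀ x hx P₀).ord (bc F₀ f) = P₀.ord f :=
  (setup (L := L) F₀ x hx).ord_up P₀ f

theorem comap_upPlace (P₀ : Place K (laurentBaseChange K F₀)) :
    (upPlace (L := L) F₀ x hx P₀).toValuationSubring.comap (bc F₀) = P₀.toValuationSubring :=
  (setup (L := L) F₀ x hx).comap_up P₀

theorem eq_upPlace (P : Place L (laurentBaseChange L F₀)) (P₀ : Place K (laurentBaseChange K F₀))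
    (h : P.toValuationSubring.comap (bc F₀) = P₀.toValuationSubring) :
    P = upPlace F₀ x hx P₀ :=
  (setup (L := L) F₀ x hx).eq_up h

theorem upPlace_injective :
    Function.Injective (upPlace (L := L) F₀ x hx) :=
  (setup (L := L) F₀ x hx).up_injective

theorem mem_upPlace_iff (P₀ : Place K (laurentBaseChange K F₀)) (f : laurentBaseChange K F₀) :
    bc F₀ f ∈ (upPlace (L := L) F₀ x hx P₀).toValuationSubring ↔ f ∈ P₀.toValuationSubring :=
  (setup (L := L) F₀ x hx).mem_up_iff P₀ f

/-- **Dichotomy** (valuation ring form). -/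
theorem dich (P : Place L (laurentBaseChange L F₀)) :
    P.toValuationSubring.comap (bc (K := K) F₀) = ⊤ ∨
      ∃ P₀ : Place K (laurentBaseChange K F₀), P = upPlace F₀ x hx P₀ :=
  (setup (L := L) F₀ x hx).comap_eq_top_or_eq_up P

/-- **Dichotomy** (order form). -/
theorem dich_ord (P : Place L (laurentBaseChange L F₀)) :
    (∀ f : laurentBaseChange K F₀, P.ord (bc F₀ f) = 0) ∨
      ∃ P₀ : Place K (laurentBaseChange K F₀), P = upPlace F₀ x hx P₀ := by
  rcases (setup (L := L) F₀ x hx).comap_eq_top_or_eq_up P with htop | h
  · exact Or.inl fun f => Setup.ord_algebraMap_of_comap_eq_top htop f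
  · exact Or.inr h

theorem exists_eq_upPlace_of_ord_ne_zero {P : Place L (laurentBaseChange L F₀)}
    {f : laurentBaseChange K F₀} (hf : P.ord (bc F₀ f) ≠ 0) :
    ∃ P₀ : Place K (laurentBaseChange K F₀), P = upPlace F₀ x hx P₀ :=
  (setup (L := L) F₀ x hx).exists_eq_up_of_ord_ne_zero hf

include hx in
/-- all places of `F_K` have degree one. -/
theorem deg_eq_one_K (P₀ : Place K (laurentBaseChange K F₀)) : P₀.deg = 1 :=
  haveI : CharZero K := algebraRat.charZero K
  Fermat.Agent.S24.FFGenus.deg_eq_one x hx P₀

end Exports

end Laurent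

end Fermat.Agent.S29.Desc.ConstExtTrLaurent
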