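import Mathlib
import Fermat.Agent.S29.HeckeInputsL

/-!
# S29 (R3, Desc, `hconst`): divisor-free modular functions are constants

`L` algebraically closed of characteristic zero, `F_L N = laurentBaseChange L (modularFunctionFieldFull N)`.
A nonzero `u : F_L N` with `P.ord u = 0` at every place `P` is a constant.  (A non-constant `u` is
transcendental over `L`, so its zero divisor has degree `[F_L N : L(u)] ≥ 1`.)
-/

set_option autoImplicit false

noncomputable section

open AlgebraicCurve IntermediateField ModularCurve
open Fermat.Agent.S24
open Fermat.Agent.S29.HeckeInputsL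

namespace Fermat.Agent.S29.Desc.ConstOfOrd

/-- An element of an extension of an algebraically closed field which is not a constant is
transcendental. -/
theorem transcendental_of_forall_ne {K F : Type*} [Field K] [Field F] [Algebra K F]
    [IsAlgClosed K] {u : F} (hu : ∀ a : K, u ≠ algebraMap K F a) : Transcendental K u := by
  intro halg
  have : Algebra.IsAlgebraic K (IntermediateField.adjoin K {u}) :=
    IntermediateField.isAlgebraic_adjoin_simple halg.isIntegral
  have hbot := IntermediateField.eq_bot_of_isAlgClosed_of_isAlgebraic
    (IntermediateField.adjoin K {u})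
  have hmem : u ∈ IntermediateField.adjoin K {u} := IntermediateField.mem_adjoin_simple_self K u
  rw [hbot] at hmem
  obtain ⟨a, ha⟩ := IntermediateField.mem_bot.1 hmem
  exact hu a ha.symm

/-- Abstract form: `K` algebraically closed of characteristic zero, `F / K(x)` finite with `x`
transcendental.  An element without zeros is a constant. -/
theorem const_of_forall_ord_le {K F : Type*} [Field K] [Field F] [Algebra K F] [IsAlgClosed K]
    [CharZero K] (x : F) (hx : Transcendental K x) [FiniteDimensional K⟮x⟯ F]
    (u : F) (h : ∀ P : Place K F, P.ord u ≤ 0) : ∃ a : K, u = algebraMap K F a := by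
  by_contra hne
  have htr : Transcendental K u := transcendental_of_forall_ne fun a ha => hne ⟨a, ha⟩
  have hfin := FFGenus.zeros_finite' x hx u htr
  have hsum := FFGenus.sum_ord_zeros' x hx u htr
  have hempty : hfin.toFinset = ∅ := by
    rw [Finset.eq_empty_iff_forall_notMem]
    intro P hP
    rw [Set.Finite.mem_toFinset] at hP
    change 0 < P.ord u at hP
    exact absurd (h P) (not_le.mpr hP)
  rw [hempty, Finset.sum_empty] at hsum
  have : FiniteDimensional K⟮u⟯ F := FFGenus.finiteDimensional_of x hx u htr
  have hpos : 0 < Module.finrank K⟮u⟯ F := Module.finrank_pos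
  omega

variable (L : Type*) [Field L] [Algebra ℚ L] [IsAlgClosed L]

/-- **`hconst` for the modular function field over `L`**: an element of `F_L N` without zeros is a
constant. -/
theorem const_of_forall_ord_le_L (N : ℕ) [NeZero N] (u : FL L N)
    (h : ∀ P : Place L (FL L N), P.ord u ≤ 0) : ∃ a : L, u = algebraMap L (FL L N) a := by
  have := charZero_L L
  have := finiteDimensional_JL L N
  exact const_of_forall_ord_le (JL L N) (transcendental_JL L N) u h

/-- **`hconst`**: a divisor-free element of `F_L N` is a constant. -/
theorem const_of_ord_eq_zero (N : ℕ) [NeZero N] (u : FL L N)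
    (h : ∀ P : Place L (FL L N), P.ord u = 0) : ∃ a : L, u = algebraMap L (FL L N) a :=
  const_of_forall_ord_le_L L N u fun P => (h P).le

end Fermat.Agent.S29.Desc.ConstOfOrd
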