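import Mathlib
import Fermat.Prelude.Def_AlgebraicCurve_DivisorClassGroup

set_option autoImplicit false

/-!
# S29 (R3, Desc, block F): finiteness of `Pic0[n]` from the easy direction of Kummer theory

Abstract form.  `Φ : F →+* M` embeds the function field into a field `M` ("meromorphic functions")
on which a group `Γ` acts from the right, fixing `Φ F` and the constants `ι C`.  If every `f` whose
divisor is divisible by `n` becomes an `n`-th power in `M`, and every `Γ`-invariant `n`-th root of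
an element of `Φ F` lies in `Φ F`, then `x ↦` (multiplier of a chosen root) is an injection of
`Pic0[n]` into `Hom(Γ, μ_n)`; the latter is finite when `Γ` is finitely generated.
-/

open AlgebraicCurve

namespace Fermat.Agent.S29.Desc.KummerFinite

section multiplier

variable {M : Type*} [Field M] {Γ : Type*} [Group Γ] {C : Type*} [CommRing C]

/-- A right action of `Γ` on the field `M` by ring endomorphisms, fixing the image of the injective
ring homomorphism `ι`. -/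
structure RightAct (ρ : Γ → M →+* M) (ι : C →+* M) : Prop where
  mul : ∀ γ δ m, ρ (γ * δ) m = ρ δ (ρ γ m)
  one : ∀ m, ρ 1 m = m
  fix : ∀ γ c, ρ γ (ι c) = ι c
  inj : Function.Injective ι

variable {ρ : Γ → M →+* M} {ι : C →+* M}

/-- an `n`-th root of unity of `M` comes from `C` -/
theorem exists_of_pow_eq_one [IsDomain C] {n : ℕ} (hn : 0 < n) (hι : Function.Injective ι)
    {ζ0 : C} (hζ0 : IsPrimitiveRoot ζ0 n) {ξ : M} (hξ : ξ ^ n = 1) :
    ∃ c : C, c ^ n = 1 ∧ ι c = ξ := by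
  have h1 : IsPrimitiveRoot (ι ζ0) n := hζ0.map_of_injective hι
  have : NeZero n := ⟨hn.ne'⟩
  obtain ⟨i, _, hi⟩ := h1.eq_pow_of_pow_eq_one hξ
  refine ⟨ζ0 ^ i, ?_, ?_⟩
  · rw [← pow_mul, mul_comm, pow_mul, hζ0.pow_eq_one, one_pow]
  · rw [map_pow, hi]

/-- **Existence of the multiplier.** -/
theorem exists_multiplier [IsDomain C] (hρ : RightAct ρ ι) {n : ℕ} (hn : 0 < n) {ζ0 : C}
    (hζ0 : IsPrimitiveRoot ζ0 n) {y : M} (hy : y ≠ 0) (hfix : ∀ γ, ρ γ (y ^ n) = y ^ n) (γ : Γ) :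
    ∃ c : C, c ^ n = 1 ∧ ρ γ y = ι c * y := by
  have h1 : (ρ γ y / y) ^ n = 1 := by
    rw [div_pow, ← map_pow, hfix γ, div_self (pow_ne_zero n hy)]
  obtain ⟨c, hc, hcy⟩ := exists_of_pow_eq_one hn hρ.inj hζ0 h1
  exact ⟨c, hc, by rw [hcy, div_mul_cancel₀ _ hy]⟩

/-- uniqueness of the multiplier -/
theorem multiplier_unique (hρ : RightAct ρ ι) {y : M} (hy : y ≠ 0) {c c' : C}
    (h : ι c * y = ι c' * y) : c = c' :=
  hρ.inj (mul_right_cancel₀ hy h)

/-- the chosen multiplier of `y` at `γ` -/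
noncomputable def mult [IsDomain C] (hρ : RightAct ρ ι) {n : ℕ} (hn : 0 < n) {ζ0 : C}
    (hζ0 : IsPrimitiveRoot ζ0 n) {y : M} (hy : y ≠ 0) (hfix : ∀ γ, ρ γ (y ^ n) = y ^ n) (γ : Γ) :
    C :=
  Classical.choose (exists_multiplier hρ hn hζ0 hy hfix γ)

theorem mult_pow [IsDomain C] (hρ : RightAct ρ ι) {n : ℕ} (hn : 0 < n) {ζ0 : C}
    (hζ0 : IsPrimitiveRoot ζ0 n) {y : M} (hy : y ≠ 0) (hfix : ∀ γ, ρ γ (y ^ n) = y ^ n) (γ : Γ) :
    mult hρ hn hζ0 hy hfix γ ^ n = 1 :=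
  (Classical.choose_spec (exists_multiplier hρ hn hζ0 hy hfix γ)).1

theorem mult_spec [IsDomain C] (hρ : RightAct ρ ι) {n : ℕ} (hn : 0 < n) {ζ0 : C}
    (hζ0 : IsPrimitiveRoot ζ0 n) {y : M} (hy : y ≠ 0) (hfix : ∀ γ, ρ γ (y ^ n) = y ^ n) (γ : Γ) :
    ρ γ y = ι (mult hρ hn hζ0 hy hfix γ) * y :=
  (Classical.choose_spec (exists_multiplier hρ hn hζ0 hy hfix γ)).2

theorem mult_mul [IsDomain C] (hρ : RightAct ρ ι) {n : ℕ} (hn : 0 < n) {ζ0 : C}
    (hζ0 : IsPrimitiveRoot ζ0 n) {y : M} (hy : y ≠ 0) (hfix : ∀ γ, ρ γ (y ^ n) = y ^ n)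
    (γ δ : Γ) :
    mult hρ hn hζ0 hy hfix (γ * δ) = mult hρ hn hζ0 hy hfix γ * mult hρ hn hζ0 hy hfix δ := by
  apply multiplier_unique hρ hy
  rw [← mult_spec hρ hn hζ0 hy hfix (γ * δ), hρ.mul, mult_spec hρ hn hζ0 hy hfix γ, map_mul,
    hρ.fix, mult_spec hρ hn hζ0 hy hfix δ, map_mul, mul_assoc]

/-- The multiplier of `y` (with `Γ`-fixed `n`-th power) as a homomorphism `Γ →* rootsOfUnity n C`. -/
noncomputable def multHom [IsDomain C] (hρ : RightAct ρ ι) {n : ℕ} (hn : 0 < n) {ζ0 : C}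
    (hζ0 : IsPrimitiveRoot ζ0 n) {y : M} (hy : y ≠ 0) (hfix : ∀ γ, ρ γ (y ^ n) = y ^ n) :
    Γ →* rootsOfUnity n C :=
  haveI : NeZero n := ⟨hn.ne'⟩
  MonoidHom.mk' (fun γ => rootsOfUnity.mkOfPowEq (mult hρ hn hζ0 hy hfix γ)
      (mult_pow hρ hn hζ0 hy hfix γ)) (by
    intro γ δ
    apply Subtype.ext
    apply Units.ext
    simp only [rootsOfUnity.coe_mkOfPowEq, Subgroup.coe_mul, Units.val_mul]
    exact mult_mul hρ hn hζ0 hy hfix γ δ)

theorem multHom_spec [IsDomain C] (hρ : RightAct ρ ι) {n : ℕ} (hn : 0 < n) {ζ0 : C}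
    (hζ0 : IsPrimitiveRoot ζ0 n) {y : M} (hy : y ≠ 0) (hfix : ∀ γ, ρ γ (y ^ n) = y ^ n) (γ : Γ) :
    ρ γ y = ι ((multHom hρ hn hζ0 hy hfix γ : Cˣ) : C) * y := by
  rw [multHom]
  simp only [MonoidHom.mk'_apply, rootsOfUnity.coe_mkOfPowEq]
  exact mult_spec hρ hn hζ0 hy hfix γ

end multiplier

section main

variable {K F : Type*} [Field K] [Field F] [Algebra K F]
variable {M : Type*} [Field M] {Γ : Type*} [Group Γ] {C : Type*} [CommRing C] [IsDomain C]

/-- Homomorphisms from a finitely generated group to `μ_n` form a finite set. -/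
theorem finite_hom_rootsOfUnity (hfg : Group.FG Γ) (n : ℕ) [NeZero n] :
    Finite (Γ →* rootsOfUnity n C) := by
  obtain ⟨S, hS⟩ := Group.fg_def.mp hfg
  have hinj : Function.Injective (fun (f : Γ →* rootsOfUnity n C) (s : S) => f s) := by
    intro f g h
    apply MonoidHom.eq_of_eqOn_dense hS
    intro s hs
    exact congrFun h ⟨s, hs⟩
  exact Finite.of_injective _ hinj

variable {ρ : Γ → M →+* M} {ι : C →+* M}

/-- equal multipliers: the quotient is invariant -/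
theorem div_fixed_of_multHom_eq (hρ : RightAct ρ ι) {n : ℕ} (hn : 0 < n) {ζ0 : C}
    (hζ0 : IsPrimitiveRoot ζ0 n) {y y' : M} (hy : y ≠ 0) (hy' : y' ≠ 0)
    (hfix : ∀ γ, ρ γ (y ^ n) = y ^ n) (hfix' : ∀ γ, ρ γ (y' ^ n) = y' ^ n)
    (h : multHom hρ hn hζ0 hy hfix = multHom hρ hn hζ0 hy' hfix') (γ : Γ) :
    ρ γ (y / y') = y / y' := by
  have hc : ι ((multHom hρ hn hζ0 hy' hfix' γ : Cˣ) : C) ≠ 0 := by
    intro h0
    have := multHom_spec hρ hn hζ0 hy' hfix' γ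
    rw [h0, zero_mul] at this
    exact (map_ne_zero (ρ γ)).mpr hy' this
  rw [map_div₀, multHom_spec hρ hn hζ0 hy hfix γ, multHom_spec hρ hn hζ0 hy' hfix' γ, h,
    mul_div_mul_left _ _ hc]

/-- **Finiteness of `Pic0[n]`** (abstract Kummer argument). -/
theorem finite_torsion (Φ : F →+* M) (ρ : Γ → M →+* M) (ι : C →+* M) (hρ : RightAct ρ ι)
    {n : ℕ} (hn : 0 < n) {ζ0 : C} (hζ0 : IsPrimitiveRoot ζ0 n) (hfg : Group.FG Γ)
    (hA : ∀ f : F, f ≠ 0 → (∀ P : Place K F, (n : ℤ) ∣ P.ord f) → ∃ y : M, y ^ n = Φ f)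
    (hB : ∀ γ f, ρ γ (Φ f) = Φ f)
    (hC : ∀ y : M, (∀ γ, ρ γ y = y) → (∃ f, y ^ n = Φ f) → ∃ w : F, Φ w = y) :
    Finite (Pic0.torsion K F n) := by
  classical
  have : NeZero n := ⟨hn.ne'⟩
  have := finite_hom_rootsOfUnity (C := C) hfg n
  have hn0 : (n : ℤ) ≠ 0 := Int.natCast_ne_zero.mpr hn.ne'
  -- data for each torsion class
  have hdata : ∀ x : Pic0.torsion K F n, ∃ (D : Divisor.degZero (K := K) (F := F)) (f : F)
      (y : M), Pic0.mk D = (x : Pic0 K F) ∧ f ≠ 0 ∧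
        (∀ v : Place K F, (n : ℤ) * (D : Divisor K F) v = v.ord f) ∧ y ^ n = Φ f := by
    intro x
    obtain ⟨D, hD⟩ := Pic0.mk_surjective (x : Pic0 K F)
    have hx : (n : ℤ) • (x : Pic0 K F) = 0 := Pic0.mem_torsion.mp x.2
    rw [← hD] at hx
    have h1 : Pic0.mk ((n : ℤ) • D) = 0 := by
      rw [← hx]
      exact QuotientAddGroup.mk_zsmul _ D (n : ℤ)
    have h2 : ((n : ℤ) • D) ∈ (Divisor.principal (K := K) (F := F)).addSubgroupOf
        (Divisor.degZero (K := K) (F := F)) := (QuotientAddGroup.eq_zero_iff _).mp h1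
    obtain ⟨f, hf, hfD⟩ := (AddSubgroup.mem_addSubgroupOf.mp h2 : Divisor.IsPrincipal _)
    have hfD' : ∀ v : Place K F, (n : ℤ) * (D : Divisor K F) v = v.ord f := by
      intro v
      rw [← hfD v]
      simp
    obtain ⟨y, hy⟩ := hA f hf (fun P => ⟨_, (hfD' P).symm⟩)
    exact ⟨D, f, y, hD, hf, hfD', hy⟩
  choose D f y hD hf hfD hy using hdata
  have hy0 : ∀ x, y x ≠ 0 := by
    intro x h0
    have := hy x
    rw [h0, zero_pow hn.ne'] at this
    exact (map_ne_zero Φ).mpr (hf x) this.symm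
  have hfix : ∀ x γ, ρ γ (y x ^ n) = y x ^ n := by
    intro x γ
    rw [hy x, hB]
  refine Finite.of_injective
    (fun x : Pic0.torsion K F n => multHom hρ hn hζ0 (hy0 x) (hfix x)) ?_
  intro x x' hxx'
  have hu := div_fixed_of_multHom_eq hρ hn hζ0 (hy0 x) (hy0 x') (hfix x) (hfix x') hxx'
  have hun : (y x / y x') ^ n = Φ (f x / f x') := by
    rw [div_pow, hy x, hy x', map_div₀]
  obtain ⟨w, hw⟩ := hC _ hu ⟨_, hun⟩
  have hwn : w ^ n = f x / f x' := by
    apply Φ.injective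
    rw [map_pow, hw, hun]
  have hw0 : w ≠ 0 := by
    rintro rfl
    rw [zero_pow hn.ne'] at hwn
    exact div_ne_zero (hf x) (hf x') hwn.symm
  have hord : ∀ v : Place K F, v.ord w = (D x : Divisor K F) v - (D x' : Divisor K F) v := by
    intro v
    apply mul_left_cancel₀ hn0
    have h1 : v.ord (w ^ n) = (n : ℤ) * v.ord w := by
      rw [← zpow_natCast, v.ord_zpow]
    rw [← h1, hwn, div_eq_mul_inv, v.ord_mul (hf x) (inv_ne_zero (hf x')), v.ord_inv, mul_sub,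
      hfD x v, hfD x' v]
    ring
  apply Subtype.ext
  rw [← hD x, ← hD x']
  symm
  rw [Pic0.mk, Pic0.mk, QuotientAddGroup.eq, AddSubgroup.mem_addSubgroupOf]
  refine ⟨w, hw0, fun v => ?_⟩
  rw [hord v]
  simp
  ring

end main

end Fermat.Agent.S29.Desc.KummerFinite
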