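import Mathlib
import Fermat.Prelude.Def_ModularCurve_ArithmeticGalois
import Fermat.Agent.S22.Gamma0FG
import Fermat.Agent.S24.BridgeInv
import Fermat.Agent.S29.Desc.KummerFinite
import Fermat.Agent.S29.Analytic.PthRoot
import Fermat.Agent.S29.Analytic.RootCusp

set_option autoImplicit false

/-!
# S29 (R3, Desc, block F): `Pic0(F_ℂ)[n]` is finite

Instantiation of the abstract Kummer finiteness `KummerFinite.finite_torsion` for the function
field `F_ℂ = ℂ(j_d : d ∣ N)` and the analytic carrier `S24.Mer`, for an arbitrary bridge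
`Φ : F_ℂ →+* Mer` satisfying the four interface properties delivered by the (MF) and (Dict)
blocks.  The analytic inputs proved here: `n`-th roots on `ℍ` (`PthRoot`) and at the cusps
(`RootCusp`).
-/

open AlgebraicCurve UpperHalfPlane CongruenceSubgroup
open scoped MatrixGroups
open Fermat.Agent.S24 Fermat.Agent.S24.PsiLe

namespace Fermat.Agent.S29.Desc.FiniteTorsionC

/-- `F_ℂ = ℂ(j_d : d ∣ N) ⊆ ℂ((q))` -/
abbrev FF (N : ℕ) : Type :=
  ↥(ModularCurve.laurentBaseChange ℂ (ModularCurve.modularFunctionFieldFull N))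

theorem compMer_const (γ : SL(2, ℤ)) (c : ℂ) :
    compMer γ (algebraMap ℂ Mer c) = algebraMap ℂ Mer c := by
  have h : algebraMap ℂ Mer c = algebraMap Hol Mer (algebraMap ℂ Hol c) :=
    IsScalarTower.algebraMap_apply ℂ Hol Mer c
  rw [h, compMer_algebraMap]
  congr 1

/-- the right action of `Γ₀(N)` on `Mer` -/
theorem rightAct (N : ℕ) :
    KummerFinite.RightAct (fun γ : ↥(Gamma0 N) => compMer (γ : SL(2, ℤ))) (algebraMap ℂ Mer) where
  mul γ δ m := by
    show compMer ((γ : SL(2, ℤ)) * (δ : SL(2, ℤ))) m = _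
    exact BridgeInv.compMer_mul _ _ m
  one m := BridgeInv.compMer_one m
  fix γ c := compMer_const _ c
  inj := (algebraMap ℂ Mer).injective

/-- **Finiteness of `Pic0(F_ℂ)[n]`**, for any bridge `Φ` with the (MF)/(Dict) interface. -/
theorem finite_torsion_of_bridge (N : ℕ) [NeZero N] {n : ℕ} (hn : 0 < n) (Φ : FF N →+* Mer)
    (hinv : ∀ γ ∈ Gamma0 N, ∀ x : FF N, compMer γ (Φ x) = Φ x)
    (hcusp : ∀ (g : SL(2, ℤ)) (x : FF N), compMer g (Φ x) ∈ MerInf N)
    (hconv : ∀ m : Mer, (∀ γ ∈ Gamma0 N, compMer γ m = m) →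
      (∀ g : SL(2, ℤ), compMer g m ∈ MerInf N) → m ∈ Φ.range)
    (hdvd : ∀ x : FF N, x ≠ 0 → (∀ P : Place ℂ (FF N), (n : ℤ) ∣ P.ord x) →
      ∀ w : ℍ, (n : ℤ) ∣ Mer.ordAt w (Φ x)) :
    Finite (Pic0.torsion ℂ (FF N) n) := by
  have hfg : Group.FG ↥(Gamma0 N) := (Group.fg_iff_subgroup_fg _).mpr (Fermat.Agent.S22.gamma0_fg N)
  refine KummerFinite.finite_torsion (K := ℂ) (F := FF N) Φ
    (fun γ : ↥(Gamma0 N) => compMer (γ : SL(2, ℤ))) (algebraMap ℂ Mer) (rightAct N) hn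
    (Complex.isPrimitiveRoot_exp n hn.ne') hfg ?_ ?_ ?_
  · intro f hf hP
    exact Fermat.Agent.S29.Analytic.PthRoot.exists_root_mer hn ((map_ne_zero Φ).mpr hf)
      (hdvd f hf hP)
  · intro γ f
    exact hinv γ γ.2 f
  · rintro y hy ⟨f, hf⟩
    have hy' : ∀ γ ∈ Gamma0 N, compMer γ y = y := fun γ hγ => hy ⟨γ, hγ⟩
    have hmem : ∀ g : SL(2, ℤ), compMer g y ∈ MerInf N :=
      Fermat.Agent.S29.Analytic.RootCusp.forall_mem_MerInf_of_pow N hn hy'
        (fun g => by rw [hf]; exact hcusp g f)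
    obtain ⟨w, hw⟩ := hconv y hy' hmem
    exact ⟨w, hw⟩

end Fermat.Agent.S29.Desc.FiniteTorsionC
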