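import Mathlib
import Fermat.Agent.S29.Desc.FiniteTorsionC
import Fermat.Agent.S29.ModFunC.IsBridgeC
import Fermat.Agent.S29.Dict.Main

set_option autoImplicit false

/-!
# S29 (R3, Desc, block F): `Pic0(F_ℂ)[n]` is finite — unconditional

`FiniteTorsionC.finite_torsion_of_bridge` at the bridge `PhiC N`, with the (MF) converse
`ModFunC.mem_range_PhiC` and the (Dict) consumer `Dict.Main.dvd_ordAt_of_forall_dvd_ord`.
-/

open AlgebraicCurve UpperHalfPlane CongruenceSubgroup
open scoped MatrixGroups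
open Fermat.Agent.S24 Fermat.Agent.S24.PsiLe Fermat.Agent.S29.ModFunC

namespace Fermat.Agent.S29.Desc.FiniteTorsionMain

/-- **`Pic0(F_ℂ)[n]` is finite**, `F_ℂ = ℂ(j_d : d ∣ N)` the function field of `X₀(N)` over `ℂ`. -/
theorem finite_torsion (N : ℕ) [NeZero N] {n : ℕ} (hn : 0 < n) :
    Finite (Pic0.torsion ℂ (FC N) n) :=
  FiniteTorsionC.finite_torsion_of_bridge N hn (PhiC N)
    (fun _ hγ x => compMer_PhiC N hγ x)
    (fun g x => compMer_PhiC_mem_MerInf N g x)
    (fun m hinv hcusp => hconv_PhiC N m hinv hcusp)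
    (fun x hx h w =>
      Fermat.Agent.S29.Dict.Main.dvd_ordAt_of_forall_dvd_ord (isBridge_PhiC N) x hx n h w)

/-- instance form, for a positive exponent given as `NeZero`. -/
instance instFiniteTorsion (N : ℕ) [NeZero N] (n : ℕ) [NeZero n] :
    Finite (Pic0.torsion ℂ (FC N) n) :=
  finite_torsion N (Nat.pos_of_ne_zero (NeZero.ne n))

end Fermat.Agent.S29.Desc.FiniteTorsionMain
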