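import Mathlib
import Fermat.Agent.S29.Desc.DataOf

set_option autoImplicit false
set_option linter.unusedSectionVars false

/-!
(R3-Desc, integration glue)  From an injective base change `bcPic : Pic⁰(FK) →+ Pic⁰(FL)` which is
computed by `mapDomain up` on divisors, and the surjectivity statement `Data.exists_preimage_torsion`,
to an additive equivalence of the `n`-torsion subgroups, compatible with any pair of intertwined
operators (Hecke).
-/

open AlgebraicCurve

namespace Fermat.Agent.S29.Desc.Surject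

variable {K L FK FL : Type*} [Field K] [Field L] [Field FK] [Field FL]
  [Algebra K FK] [Algebra L FL]

/-- an injective additive map which is onto the `n`-torsion of the target induces an equivalence
of the `n`-torsion subgroups -/
theorem exists_torsion_equiv (bcPic : Pic0 K FK →+ Pic0 L FL)
    (hinj : Function.Injective bcPic) (n : ℕ)
    (hsurj : ∀ x ∈ Pic0.torsion L FL n, ∃ y : Pic0 K FK, bcPic y = x) :
    ∃ bc : Pic0.torsion K FK n ≃+ Pic0.torsion L FL n,
      ∀ y : Pic0.torsion K FK n,
        ((bc y : Pic0.torsion L FL n) : Pic0 L FL) = bcPic (y : Pic0 K FK) := by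
  have hmem : ∀ y : Pic0 K FK, y ∈ Pic0.torsion K FK n ↔ bcPic y ∈ Pic0.torsion L FL n := by
    intro y
    rw [Pic0.mem_torsion, Pic0.mem_torsion, ← map_zsmul]
    constructor
    · intro h; rw [h, map_zero]
    · intro h
      apply hinj
      rw [h, map_zero]
  let f : Pic0.torsion K FK n →+ Pic0.torsion L FL n :=
    { toFun := fun y => ⟨bcPic (y : Pic0 K FK), (hmem _).mp y.2⟩
      map_zero' := Subtype.ext (map_zero bcPic)
      map_add' := fun a b => Subtype.ext (map_add bcPic _ _) }
  have hfinj : Function.Injective f := by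
    intro a b hab
    apply Subtype.ext
    apply hinj
    exact congrArg Subtype.val hab
  have hfsurj : Function.Surjective f := by
    intro x
    obtain ⟨y, hy⟩ := hsurj x.1 x.2
    refine ⟨⟨y, (hmem y).mpr (by rw [hy]; exact x.2)⟩, Subtype.ext hy⟩
  exact ⟨AddEquiv.ofBijective f ⟨hfinj, hfsurj⟩, fun y => rfl⟩

/-- compatibility of the torsion equivalence with intertwined operators -/
theorem torsion_equiv_intertwines (bcPic : Pic0 K FK →+ Pic0 L FL) (n : ℕ)
    (bc : Pic0.torsion K FK n ≃+ Pic0.torsion L FL n)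
    (hbc : ∀ y : Pic0.torsion K FK n,
      ((bc y : Pic0.torsion L FL n) : Pic0 L FL) = bcPic (y : Pic0 K FK))
    (TK : Pic0 K FK →+ Pic0 K FK) (TL : Pic0 L FL →+ Pic0 L FL)
    (hT : ∀ y : Pic0 K FK, bcPic (TK y) = TL (bcPic y))
    (y : Pic0.torsion K FK n) (hy : TK (y : Pic0 K FK) ∈ Pic0.torsion K FK n) :
    ((bc ⟨TK (y : Pic0 K FK), hy⟩ : Pic0.torsion L FL n) : Pic0 L FL)
      = TL ((bc y : Pic0.torsion L FL n) : Pic0 L FL) := by
  rw [hbc, hbc, hT]

/-- additive maps preserve torsion -/
theorem map_mem_torsion (T : Pic0 K FK →+ Pic0 L FL) {n : ℕ} {y : Pic0 K FK}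
    (hy : y ∈ Pic0.torsion K FK n) : T y ∈ Pic0.torsion L FL n := by
  rw [Pic0.mem_torsion] at hy ⊢
  rw [← map_zsmul, hy, map_zero]

variable [Algebra K L] [IsAlgClosed K] [IsAlgClosed L] [HasPrincipalDivisors L FL]

/-- **the descent statement**: with the places layer (`Data`), finiteness of the `n`-torsion over
`L`, and an injective `bcPic` computed by `mapDomain up`, the `n`-torsion subgroups are
identified. -/
theorem Data.exists_bc (d : Data K L FK FL) (n : ℕ) [Finite (Pic0.torsion L FL n)]
    (bcPic : Pic0 K FK →+ Pic0 L FL) (hinj : Function.Injective bcPic)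
    (hmk : ∀ (D₀ : Divisor.degZero (K := K) (F := FK))
      (h0 : Finsupp.mapDomain d.up (D₀ : Divisor K FK) ∈ Divisor.degZero (K := L) (F := FL)),
      bcPic (Pic0.mk D₀) = Pic0.mk ⟨Finsupp.mapDomain d.up (D₀ : Divisor K FK), h0⟩) :
    ∃ bc : Pic0.torsion K FK n ≃+ Pic0.torsion L FL n,
      ∀ y : Pic0.torsion K FK n,
        ((bc y : Pic0.torsion L FL n) : Pic0 L FL) = bcPic (y : Pic0 K FK) := by
  apply exists_torsion_equiv bcPic hinj n
  intro x hx
  obtain ⟨D₀, hdeg, h0, hD⟩ := d.exists_preimage_torsion n x hx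
  exact ⟨Pic0.mk ⟨D₀, hdeg⟩, by rw [hmk ⟨D₀, hdeg⟩ h0]; exact hD⟩

end Fermat.Agent.S29.Desc.Surject
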