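import Mathlib
import Fermat.Agent.S18.ConstExt.Place
import Fermat.Agent.S29.HeckeInputsL
import Fermat.Agent.S29.Desc.TorsionEquiv

set_option autoImplicit false
set_option linter.unusedSectionVars false

/-!
(R3-Desc, instantiation)  The hypothesis bundle `Surject.Data` for the modular function fields
`FL K N → FL L N` (`K ⊆ L` algebraically closed of characteristic zero), with the places layer
(`upP`, `comap_up`, `up_unique`, `dich`) as the only remaining hypotheses:

* `ι := S18.ConstExt.up` (coefficientwise), `act := coeffAct`, `t := J`, degrees `= 1` from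
  `HeckeInputsL.deg_eq_one_L`, a place `P₀` from `FFGenus.sum_ord_zeros'`.
-/

open AlgebraicCurve IntermediateField ModularCurve

namespace Fermat.Agent.S29.Desc.DataLaurent

open Fermat.Agent.S24 Fermat.Agent.S29.HeckeInputsL Fermat.Agent.S29.Desc.Surject

variable (K L : Type*) [Field K] [Field L] [Algebra ℚ K] [Algebra ℚ L] [Algebra K L]
  [IsScalarTower ℚ K L]
variable (N : ℕ) [NeZero N]

/-- the coefficientwise embedding `F_K N → F_L N` -/
noncomputable abbrev bcF : FL K N →+* FL L N :=
  Fermat.Agent.S18.ConstExt.up (K := L) (modularFunctionFieldFull N)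

theorem bcF_algebraMap (a : K) :
    bcF K L N (algebraMap K (FL K N) a) = algebraMap L (FL L N) (algebraMap K L a) :=
  Fermat.Agent.S18.ConstExt.up_algebraMap _ a

theorem coe_bcF (x : FL K N) :
    ((bcF K L N x : FL L N) : LaurentSeries L)
      = coeffMap (algebraMap K L) (x : LaurentSeries K) := rfl

theorem bcF_JL : bcF K L N (JL K N) = JL L N := by
  apply Subtype.ext
  rw [coe_bcF]
  exact map_jqModC (algebraMap K L)

theorem bcF_JL_ne_const (c : L) : bcF K L N (JL K N) ≠ algebraMap L (FL L N) c := by
  rw [bcF_JL]
  intro h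
  apply transcendental_JL L N
  rw [h]
  exact isAlgebraic_algebraMap c

theorem coeffAct_bcF (σ : L ≃ₐ[K] L) (f : FL K N) :
    coeffAct (modularFunctionFieldFull N) σ • bcF K L N f = bcF K L N f :=
  coeffAct_fix _ σ _ ⟨(f : LaurentSeries K), rfl⟩

variable [IsAlgClosed K]

/-- the function field `F_K N` has a place -/
theorem exists_place : Nonempty (Place K (FL K N)) := by
  have := charZero_L K
  have := finiteDimensional_JL K N
  have hsum := FFGenus.sum_ord_zeros' (JL K N) (transcendental_JL K N) (JL K N)
    (transcendental_JL K N)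
  by_contra hne
  rw [not_nonempty_iff] at hne
  have h0 : (FFGenus.zeros_finite' (JL K N) (transcendental_JL K N) (JL K N)
      (transcendental_JL K N)).toFinset = ∅ := by
    ext v
    exact (hne.false v).elim
  rw [h0, Finset.sum_empty] at hsum
  have hpos : 0 < Module.finrank K⟮JL K N⟯ (FL K N) := Module.finrank_pos
  omega

variable [IsAlgClosed L]

/-- `Data` for `F_K N → F_L N`, from the places layer -/
noncomputable def dataFL
    (upP : Place K (FL K N) → Place L (FL L N))
    (comap_up : ∀ P₀ : Place K (FL K N),
      (upP P₀).toValuationSubring.comap (bcF K L N) = P₀.toValuationSubring)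
    (up_unique : ∀ (P : Place L (FL L N)) (P₀ : Place K (FL K N)),
      P.toValuationSubring.comap (bcF K L N) = P₀.toValuationSubring → P = upP P₀)
    (dich : ∀ P : Place L (FL L N),
      P.toValuationSubring.comap (bcF K L N) = ⊤ ∨ ∃ P₀ : Place K (FL K N), P = upP P₀) :
    Data K L (FL K N) (FL L N) :=
  Data.ofPlaces (bcF K L N) (bcF_algebraMap K L N) (coeffAct (modularFunctionFieldFull N))
    (coeffAct_base _) (coeffAct_bcF K L N) upP comap_up up_unique dich
    (deg_eq_one_L K N) (deg_eq_one_L L N) (JL K N) (bcF_JL_ne_const K L N)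
    (exists_place K N).some

@[simp]
theorem dataFL_up (upP comap_up up_unique dich) :
    (dataFL K L N upP comap_up up_unique dich).up = upP := rfl

@[simp]
theorem dataFL_ι (upP comap_up up_unique dich) :
    (dataFL K L N upP comap_up up_unique dich).ι = bcF K L N := rfl

/-- **descent of torsion for the modular function fields**, modulo the places layer, finiteness
and an injective `bcPic` computed by `mapDomain upP` -/
theorem exists_bc_FL
    (upP : Place K (FL K N) → Place L (FL L N))
    (comap_up : ∀ P₀ : Place K (FL K N),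
      (upP P₀).toValuationSubring.comap (bcF K L N) = P₀.toValuationSubring)
    (up_unique : ∀ (P : Place L (FL L N)) (P₀ : Place K (FL K N)),
      P.toValuationSubring.comap (bcF K L N) = P₀.toValuationSubring → P = upP P₀)
    (dich : ∀ P : Place L (FL L N),
      P.toValuationSubring.comap (bcF K L N) = ⊤ ∨ ∃ P₀ : Place K (FL K N), P = upP P₀)
    (n : ℕ) [Finite (Pic0.torsion L (FL L N) n)]
    (bcPic : Pic0 K (FL K N) →+ Pic0 L (FL L N)) (hinj : Function.Injective bcPic)
    (hmk : ∀ (D₀ : Divisor.degZero (K := K) (F := FL K N))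
      (h0 : Finsupp.mapDomain upP (D₀ : Divisor K (FL K N))
        ∈ Divisor.degZero (K := L) (F := FL L N)),
      bcPic (Pic0.mk D₀) = Pic0.mk ⟨Finsupp.mapDomain upP (D₀ : Divisor K (FL K N)), h0⟩) :
    ∃ bc : Pic0.torsion K (FL K N) n ≃+ Pic0.torsion L (FL L N) n,
      ∀ y : Pic0.torsion K (FL K N) n,
        ((bc y : Pic0.torsion L (FL L N) n) : Pic0 L (FL L N)) = bcPic (y : Pic0 K (FL K N)) := by
  have := hasPrincipalDivisors_L L N
  exact (dataFL K L N upP comap_up up_unique dich).exists_bc n bcPic hinj hmk

end Fermat.Agent.S29.Desc.DataLaurent
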