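import Mathlib
import Fermat.Agent.S29.NonVanish.Skeleton
import Fermat.Agent.S29.Desc.DataLaurent

/-!
# S29 (R3, Desc): the final junction, hypothesis-style

`blockDesc_of`: the block `Skeleton.BlockDesc N p` (additive bijection
`J₀(N)(ℚ̄)[p] ≃ Pic⁰(F_ℂ)[p]` commuting with `T_ℓ`) from
* the places layer for `bcF : F_ℚ̄ N → F_ℂ N` (`upP`, `comap_up`, `up_unique`, `dich`),
* finiteness of `Pic⁰(F_ℂ)[p]`,
* an injective `bcPic` computed by `mapDomain upP` on divisors,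
* `bcPic ∘ T_ℓ = T_ℓ ∘ bcPic` for the Prelude's `heckeOperatorAlong`.
-/

set_option autoImplicit false

noncomputable section

open AlgebraicCurve ModularCurve
open Fermat.Agent.S29.HeckeInputsL Fermat.Agent.S29.Desc.DataLaurent
open Fermat.Agent.S29.NonVanish Fermat.Agent.S29.Interface

namespace Fermat.Agent.S29.Desc.MainOf

/-- `ℚ̄` -/
abbrev Kb : Type := AlgebraicClosure ℚ

variable [Algebra Kb ℂ] [IsScalarTower ℚ Kb ℂ]
variable (N p : ℕ) [NeZero N]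

theorem blockDesc_of
    (upP : Place Kb (FL Kb N) → Place ℂ (FL ℂ N))
    (comap_up : ∀ P₀ : Place Kb (FL Kb N),
      (upP P₀).toValuationSubring.comap (bcF Kb ℂ N) = P₀.toValuationSubring)
    (up_unique : ∀ (P : Place ℂ (FL ℂ N)) (P₀ : Place Kb (FL Kb N)),
      P.toValuationSubring.comap (bcF Kb ℂ N) = P₀.toValuationSubring → P = upP P₀)
    (dich : ∀ P : Place ℂ (FL ℂ N),
      P.toValuationSubring.comap (bcF Kb ℂ N) = ⊤ ∨ ∃ P₀ : Place Kb (FL Kb N), P = upP P₀)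
    [Finite (Pic0.torsion ℂ (FL ℂ N) p)]
    (bcPic : Pic0 Kb (FL Kb N) →+ Pic0 ℂ (FL ℂ N)) (hinj : Function.Injective bcPic)
    (hmk : ∀ (D₀ : Divisor.degZero (K := Kb) (F := FL Kb N))
      (h0 : Finsupp.mapDomain upP (D₀ : Divisor Kb (FL Kb N))
        ∈ Divisor.degZero (K := ℂ) (F := FL ℂ N)),
      bcPic (Pic0.mk D₀) = Pic0.mk ⟨Finsupp.mapDomain upP (D₀ : Divisor Kb (FL Kb N)), h0⟩)
    (hT : ∀ (ℓ : ℕ) [NeZero ℓ] (y : Pic0 Kb (FL Kb N)),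
      bcPic (heckeOperatorAlong Kb N ℓ y) = heckeOperatorAlong ℂ N ℓ (bcPic y)) :
    Skeleton.BlockDesc N p := by
  obtain ⟨bc, hbc⟩ := exists_bc_FL Kb ℂ N upP comap_up up_unique dich p bcPic hinj hmk
  refine ⟨bc, fun ℓ x => ?_⟩
  have : NeZero (ℓ.1 : ℕ) := ⟨ℓ.1.2.ne_zero⟩
  have h1 := hbc (heckeTorsAdd N p ℓ.1 x)
  have h2 := hbc x
  have h3 := hT (ℓ.1 : ℕ) (x : Pic0 Kb (FL Kb N))
  calc ((bc (heckeTorsAdd N p ℓ.1 x) : Skeleton.JpC N p) : Pic0 ℂ (Skeleton.FCN N))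
      = bcPic ((heckeTorsAdd N p ℓ.1 x : Jp N p) : Pic0 Kb (FL Kb N)) := h1
    _ = bcPic (heckeOperatorAlong Kb N (ℓ.1 : ℕ) (x : Pic0 Kb (FL Kb N))) := rfl
    _ = heckeOperatorAlong ℂ N (ℓ.1 : ℕ) (bcPic (x : Pic0 Kb (FL Kb N))) := h3
    _ = Skeleton.heckeC N ℓ.1 ((bc x : Skeleton.JpC N p) : Pic0 ℂ (Skeleton.FCN N)) := by
        rw [h2]; rfl

end Fermat.Agent.S29.Desc.MainOf
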