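import Mathlib
import Fermat.Agent.S29.Desc.MainOf
import Fermat.Agent.S29.Desc.BcClass
import Fermat.Agent.S29.Desc.ConstExtTrLaurent
import Fermat.Agent.S29.Desc.ConstOfOrd
import Fermat.Agent.S29.Desc.FiniteTorsionMain

/-!
# S29 (R3, Desc): block (Desc), the integration

* generic `K ⊆ L` algebraically closed of characteristic zero: `upFL K L N` (places layer of
  `ConstExtTrLaurent` at the modular function field), `bcJ K L N : Pic⁰(F_K N) →+ Pic⁰(F_L N)`
  (`BcClass.bcPic`), `bcJ_mk`, `bcJ_hbc`, `bcJ_injective`;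
* `K = ℚ̄`, `L = ℂ` (`algQbarC`): `blockDesc_of_hecke`: `Skeleton.BlockDesc N p` for `0 < p`, from the
  Hecke compatibility of `bcJ` alone.
-/

set_option autoImplicit false
set_option linter.unusedSectionVars false
set_option linter.style.haveILetI false

noncomputable section

open AlgebraicCurve ModularCurve
open Fermat.Agent.S29.HeckeInputsL Fermat.Agent.S29.Desc.DataLaurent
open Fermat.Agent.S29.Desc.ConstExtTrLaurent
open Fermat.Agent.S29.NonVanish Fermat.Agent.S29.Interface

namespace Fermat.Agent.S29.Desc.Main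

open Fermat.Agent.S29.Desc.MainOf (Kb)

section Generic

variable (K L : Type*) [Field K] [Field L] [Algebra ℚ K] [Algebra ℚ L] [Algebra K L]
  [IsScalarTower ℚ K L] [IsAlgClosed K] [IsAlgClosed L]
variable (N : ℕ) [NeZero N]

/-- the extension of places `F_K N → F_L N` -/
def upFL : Place K (FL K N) → Place L (FL L N) :=
  haveI := finiteDimensional_JL K N
  upPlace (L := L) (modularFunctionFieldFull N) (JL K N) (transcendental_JL K N)

theorem ord_upFL (P₀ : Place K (FL K N)) (f : FL K N) :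
    (upFL K L N P₀).ord (bcF K L N f) = P₀.ord f :=
  haveI := finiteDimensional_JL K N
  ord_upPlace (L := L) (modularFunctionFieldFull N) (JL K N) (transcendental_JL K N) P₀ f

theorem comap_upFL (P₀ : Place K (FL K N)) :
    (upFL K L N P₀).toValuationSubring.comap (bcF K L N) = P₀.toValuationSubring :=
  haveI := finiteDimensional_JL K N
  comap_upPlace (L := L) (modularFunctionFieldFull N) (JL K N) (transcendental_JL K N) P₀

theorem eq_upFL (P : Place L (FL L N)) (P₀ : Place K (FL K N))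
    (h : P.toValuationSubring.comap (bcF K L N) = P₀.toValuationSubring) : P = upFL K L N P₀ :=
  haveI := finiteDimensional_JL K N
  eq_upPlace (L := L) (modularFunctionFieldFull N) (JL K N) (transcendental_JL K N) P P₀ h

theorem dich_upFL (P : Place L (FL L N)) :
    P.toValuationSubring.comap (bcF K L N) = ⊤ ∨ ∃ P₀ : Place K (FL K N), P = upFL K L N P₀ :=
  haveI := finiteDimensional_JL K N
  dich (L := L) (modularFunctionFieldFull N) (JL K N) (transcendental_JL K N) P

theorem dich_ord_upFL (P : Place L (FL L N)) :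
    (∀ f : FL K N, P.ord (bcF K L N f) = 0) ∨ ∃ P₀ : Place K (FL K N), P = upFL K L N P₀ :=
  haveI := finiteDimensional_JL K N
  dich_ord (L := L) (modularFunctionFieldFull N) (JL K N) (transcendental_JL K N) P

theorem degree_upFL (D : Divisor K (FL K N)) :
    Divisor.degree (Finsupp.mapDomain (upFL K L N) D) = Divisor.degree D :=
  Surject.degree_mapDomain_of_deg_one (upFL K L N) (deg_eq_one_L K N) (deg_eq_one_L L N) D

/-- the coefficientwise action of `Aut(L/K)` fixes the extended places -/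
theorem coeffAct_upFL (σ : L ≃ₐ[K] L) (P₀ : Place K (FL K N)) :
    Surject.coeffAct (modularFunctionFieldFull N) σ • upFL K L N P₀ = upFL K L N P₀ :=
  Surject.smul_up_eq (bcF K L N) (upFL K L N) (comap_upFL K L N) (eq_upFL K L N)
    (Surject.coeffAct (modularFunctionFieldFull N) σ)
    (fun f => by rw [← map_inv]; exact coeffAct_bcF K L N σ⁻¹ f) P₀

/-- **base change of divisor classes** `Pic⁰(F_K N) → Pic⁰(F_L N)` -/
def bcJ : Pic0 K (FL K N) →+ Pic0 L (FL L N) :=
  BcClass.bcPic (bcF K L N) (upFL K L N) (ord_upFL K L N) (dich_ord_upFL K L N)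
    (degree_upFL K L N)

theorem bcJ_mk (D₀ : Divisor.degZero (K := K) (F := FL K N))
    (h0 : Finsupp.mapDomain (upFL K L N) (D₀ : Divisor K (FL K N))
      ∈ Divisor.degZero (K := L) (F := FL L N)) :
    bcJ K L N (Pic0.mk D₀)
      = Pic0.mk ⟨Finsupp.mapDomain (upFL K L N) (D₀ : Divisor K (FL K N)), h0⟩ := rfl

theorem bcJ_hbc (D : Divisor.degZero (K := K) (F := FL K N)) :
    ∃ D' : Divisor.degZero (K := L) (F := FL L N),
      (D' : Divisor L (FL L N)) = Finsupp.mapDomain (upFL K L N) (D : Divisor K (FL K N)) ∧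
        bcJ K L N (Pic0.mk D) = Pic0.mk D' :=
  BcClass.bcPic_hbc (bcF K L N) (upFL K L N) (ord_upFL K L N) (dich_ord_upFL K L N)
    (degree_upFL K L N) D

theorem bcJ_injective : Function.Injective (bcJ K L N) :=
  BcClass.bcPic_injective_laurent (modularFunctionFieldFull N) (upFL K L N) (ord_upFL K L N)
    (coeffAct_upFL K L N)
    (fun u _ h => ConstOfOrd.const_of_ord_eq_zero L N u h)
    (dich_ord_upFL K L N) (degree_upFL K L N)

end Generic

/-! ### `K = ℚ̄`, `L = ℂ` -/

/-- an embedding `ℚ̄ → ℂ` -/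
def iotaQbar : Kb →ₐ[ℚ] ℂ :=
  haveI : Algebra.IsAlgebraic ℚ Kb := AlgebraicClosure.isAlgebraic ℚ
  IsAlgClosed.lift

/-- the `ℚ̄`-algebra structure of `ℂ` given by `iotaQbar` -/
@[reducible] def algQbarC : Algebra Kb ℂ := iotaQbar.toRingHom.toAlgebra

theorem isScalarTower_QbarC : @IsScalarTower ℚ Kb ℂ _ algQbarC.toSMul _ :=
  letI := algQbarC
  IsScalarTower.of_algebraMap_eq fun q => (iotaQbar.commutes q).symm

/-- **block (Desc)**, modulo the Hecke compatibility of `bcJ`. -/
theorem blockDesc_of_hecke (N p : ℕ) [NeZero N] (hp : 0 < p)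
    (hT : letI := algQbarC; haveI := isScalarTower_QbarC
      ∀ (ℓ : ℕ) [NeZero ℓ] (y : Pic0 Kb (FL Kb N)),
        bcJ Kb ℂ N (heckeOperatorAlong Kb N ℓ y) = heckeOperatorAlong ℂ N ℓ (bcJ Kb ℂ N y)) :
    Skeleton.BlockDesc N p := by
  letI := algQbarC
  haveI := isScalarTower_QbarC
  haveI : Finite (Pic0.torsion ℂ (FL ℂ N) p) := FiniteTorsionMain.finite_torsion N hp
  exact MainOf.blockDesc_of N p (upFL Kb ℂ N) (comap_upFL Kb ℂ N) (eq_upFL Kb ℂ N)
    (dich_upFL Kb ℂ N) (bcJ Kb ℂ N) (bcJ_injective Kb ℂ N) (bcJ_mk Kb ℂ N) hT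

end Fermat.Agent.S29.Desc.Main
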