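import Mathlib
import Fermat.Prelude.Def_ModularCurve_HeckeOperator
import Fermat.Prelude.Thm_ModularCurve_coeffMap_qExpand
import Fermat.Agent.S18.ConstExt.Place

/-!
# S29 (R3, Desc): the constant-field extension `up` commutes with the two degeneracy maps

`K ⊆ L` fields of characteristic zero, `F_K M = laurentBaseChange K (modularFunctionFieldFull M)`,
`up_M : F_K M → F_L M` coefficientwise.  Then `up_{Nℓ} ∘ α_K = α_L ∘ up_N` and
`up_{Nℓ} ∘ β_K = β_L ∘ up_N` for the Prelude's `heckeAlphaBar`, `heckeBetaBar`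
(the commuting squares needed for `T_ℓ ∘ bc = bc ∘ T_ℓ`).
-/

set_option autoImplicit false

noncomputable section

open HahnSeries AlgebraicCurve ModularCurve
open Fermat.Agent.S18.ConstExt

namespace Fermat.Agent.S29.Desc.UpHecke

variable {K L : Type*} [Field K] [Field L] [Algebra ℚ K] [Algebra ℚ L] [Algebra K L]
variable (N ℓ : ℕ) [NeZero N] [NeZero ℓ]

/-- `up ∘ α = α ∘ up`. -/
theorem up_heckeAlphaBar (x : laurentBaseChange K (modularFunctionFieldFull N)) :
    up (K := L) (modularFunctionFieldFull (N * ℓ)) (heckeAlphaBar K N ℓ x)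
      = heckeAlphaBar L N ℓ (up (K := L) (modularFunctionFieldFull N) x) := by
  apply Subtype.ext
  rw [coe_up, coe_heckeAlphaBar, coe_heckeAlphaBar, coe_up]

omit [NeZero N] in
/-- `up ∘ β = β ∘ up`. -/
theorem up_heckeBetaBar (x : laurentBaseChange K (modularFunctionFieldFull N)) :
    up (K := L) (modularFunctionFieldFull (N * ℓ)) (heckeBetaBar K N ℓ x)
      = heckeBetaBar L N ℓ (up (K := L) (modularFunctionFieldFull N) x) := by
  apply Subtype.ext
  rw [coe_up]
  change coeffMap (algebraMap K L) (qExpand K ℓ (x : LaurentSeries K))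
    = qExpand L ℓ ((up (K := L) (modularFunctionFieldFull N) x : _) : LaurentSeries L)
  rw [coe_up, ModularCurve.coeffMap_qExpand]

/-- ring-hom form of `up_heckeAlphaBar` -/
theorem up_comp_heckeAlphaBar :
    (up (K := L) (modularFunctionFieldFull (N * ℓ))).comp (heckeAlphaBar K N ℓ).toRingHom
      = (heckeAlphaBar L N ℓ).toRingHom.comp (up (K := L) (modularFunctionFieldFull N)) :=
  RingHom.ext fun x => up_heckeAlphaBar N ℓ x

omit [NeZero N] in
/-- ring-hom form of `up_heckeBetaBar` -/
theorem up_comp_heckeBetaBar :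
    (up (K := L) (modularFunctionFieldFull (N * ℓ))).comp (heckeBetaBar K N ℓ).toRingHom
      = (heckeBetaBar L N ℓ).toRingHom.comp (up (K := L) (modularFunctionFieldFull N)) :=
  RingHom.ext fun x => up_heckeBetaBar N ℓ x

end Fermat.Agent.S29.Desc.UpHecke
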