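import Mathlib
import Fermat.Agent.S29.Desc.Main
import Fermat.Agent.S29.Desc.UpHecke
import Fermat.Agent.S29.Desc.BcPushPull

/-!
# S29 (R3, Desc): base change of divisor classes commutes with the Hecke correspondence

`K ⊆ L` algebraically closed of characteristic zero.  Any additive `bcP : Pic⁰(F_K N) → Pic⁰(F_L N)`
computed by `Finsupp.mapDomain (upFL K L N)` on divisors satisfies
`bcP ∘ T_ℓ = T_ℓ ∘ bcP` for the Prelude's `heckeOperatorAlong`
(`BcPushPull.bcPic_correspondence` + `UpHecke` + `HeckeInputsL`).  Hence `Skeleton.BlockDesc N p`.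
-/

set_option autoImplicit false
set_option linter.unusedSectionVars false
set_option linter.style.haveILetI false

noncomputable section

open AlgebraicCurve ModularCurve
open Fermat.Agent.S29.HeckeInputsL Fermat.Agent.S29.Desc.DataLaurent
open Fermat.Agent.S29.Desc.Main
open Fermat.Agent.S29.NonVanish

namespace Fermat.Agent.S29.Desc.HeckeSquare

variable (K L : Type*) [Field K] [Field L] [Algebra ℚ K] [Algebra ℚ L] [Algebra K L]
  [IsScalarTower ℚ K L] [IsAlgClosed K] [IsAlgClosed L]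
variable (N : ℕ) [NeZero N]

/-- **`bcP ∘ T_ℓ = T_ℓ ∘ bcP`** -/
theorem bcP_heckeOperatorAlong
    (bcP : Pic0 K (FL K N) →+ Pic0 L (FL L N))
    (hbc : ∀ D : Divisor.degZero (K := K) (F := FL K N),
      ∃ D' : Divisor.degZero (K := L) (F := FL L N),
        (D' : Divisor L (FL L N)) = Finsupp.mapDomain (upFL K L N) (D : Divisor K (FL K N)) ∧
          bcP (Pic0.mk D) = Pic0.mk D')
    (ℓ : ℕ) [NeZero ℓ] (y : Pic0 K (FL K N)) :
    bcP (heckeOperatorAlong K N ℓ y) = heckeOperatorAlong L N ℓ (bcP y) := by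
  haveI := hasPrincipalDivisors_L K (N * ℓ)
  haveI := hasPrincipalDivisors_L L (N * ℓ)
  rw [heckeOperatorAlong_eq_heckePic0Bar K N ℓ, heckeOperatorAlong_eq_heckePic0Bar L N ℓ]
  exact BcPushPull.bcPic_correspondence (bcF K L N) (bcF K L (N * ℓ))
    (upFL K L N) (upFL K L (N * ℓ)) (ord_upFL K L N) (ord_upFL K L (N * ℓ))
    (dich_ord_upFL K L N) (dich_ord_upFL K L (N * ℓ))
    (fun P₀ => by rw [deg_eq_one_L, deg_eq_one_L])
    (fun P₀ => by rw [deg_eq_one_L, deg_eq_one_L])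
    (fun v => by rw [deg_eq_one_L]; exact one_ne_zero)
    (heckeBetaBar K N ℓ) (heckeAlphaBar K N ℓ)
    (heckeBetaBarIntegral K N ℓ) (heckeAlphaBarIntegral K N ℓ)
    (heckeBetaBar L N ℓ) (heckeAlphaBar L N ℓ)
    (heckeBetaBarIntegral L N ℓ) (heckeAlphaBarIntegral L N ℓ)
    (fun f => UpHecke.up_heckeBetaBar N ℓ f) (fun f => UpHecke.up_heckeAlphaBar N ℓ f)
    (fundamentalIdentityAlong_beta K N ℓ) (finiteAlong_alpha K N ℓ) (normFormulaAlong_alpha K N ℓ)
    (fundamentalIdentityAlong_beta L N ℓ) (finiteAlong_alpha L N ℓ) (normFormulaAlong_alpha L N ℓ)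
    bcP hbc y

/-- `bcJ ∘ T_ℓ = T_ℓ ∘ bcJ` -/
theorem bcJ_heckeOperatorAlong (ℓ : ℕ) [NeZero ℓ] (y : Pic0 K (FL K N)) :
    bcJ K L N (heckeOperatorAlong K N ℓ y) = heckeOperatorAlong L N ℓ (bcJ K L N y) :=
  bcP_heckeOperatorAlong K L N (bcJ K L N) (bcJ_hbc K L N) ℓ y

end Fermat.Agent.S29.Desc.HeckeSquare

namespace Fermat.Agent.S29.Desc.Final

open Fermat.Agent.S29.Desc.MainOf (Kb)

/-- **block (Desc)**: `J₀(N)(ℚ̄)[p] ≃ Pic⁰(F_ℂ N)[p]`, compatibly with `T_ℓ`. -/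
theorem blockDesc_of_pos (N : ℕ) [NeZero N] (p : ℕ) (hp : 0 < p) : Skeleton.BlockDesc N p :=
  blockDesc_of_hecke N p hp (by
    letI := algQbarC
    haveI := isScalarTower_QbarC
    intro ℓ _ y
    exact HeckeSquare.bcJ_heckeOperatorAlong Kb ℂ N ℓ y)

/-- **block (Desc)** in the shape consumed by `NonVanish.MainOf.nonVanishTarget_of_desc`. -/
theorem blockDesc : ∀ (N : ℕ) [NeZero N] (p : ℕ), p.Prime → Skeleton.BlockDesc N p :=
  fun N _ p hp => blockDesc_of_pos N p hp.pos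

end Fermat.Agent.S29.Desc.Final
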