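import Mathlib
import Fermat.Prelude.Def_AlgebraicCurve_DivisorClassGroup
import Fermat.Prelude.Def_AlgebraicCurve_BaseChangeGalois
import Fermat.Agent.S24.FFDeriv

/-!
# S29 (R3, Desc): base change of divisors and divisor classes along an extension of places

Abstract setting: function fields `FK / K` and `FL / L`, a ring homomorphism `ι : FK →+* FL`
(think: `K ⊆ L` algebraically closed, `FL = FK·L` a constant field extension), and a *place
extension datum* `E : PlaceExt ι`:

* `E.up : Place K FK → Place L FL` with `(E.up P₀).ord (ι f) = P₀.ord f` (unramified),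
* every place of `FL` is either trivial on `ι FK` or of the form `E.up P₀`,
* `(E.up P₀).deg = P₀.deg`.

From this we build `bcDiv E : Divisor K FK →+ Divisor L FL`, show that it preserves degrees and
maps `div f` to `div (ι f)`, and obtain `bcPic E : Pic0 K FK →+ Pic0 L FL`.  Semilinear
automorphisms of `FL` fixing `ι FK` pointwise fix every `E.up P₀`, hence the image of `bcPic`.
-/

set_option autoImplicit false

noncomputable section

open AlgebraicCurve

namespace Fermat.Agent.S29.Desc.BcDiv

open Fermat.Agent.S24.FFDeriv (mem_iff_ord_nonneg)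

variable {K L FK FL : Type*} [Field K] [Field L] [Field FK] [Field FL] [Algebra K FK]
  [Algebra L FL]

/-- A place is determined by its order function. -/
theorem place_ext_ord {P Q : Place K FK} (h : ∀ f : FK, P.ord f = Q.ord f) : P = Q := by
  apply Place.ext
  ext f
  rw [mem_iff_ord_nonneg, mem_iff_ord_nonneg, h]

/-- A place extension datum along `ι : FK →+* FL`. -/
structure PlaceExt (K L : Type*) {FK FL : Type*} [Field K] [Field L] [Field FK] [Field FL]
    [Algebra K FK] [Algebra L FL] (ι : FK →+* FL) where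
  /-- the extension of a place -/
  up : Place K FK → Place L FL
  /-- the extension is unramified -/
  ord_up : ∀ (P₀ : Place K FK) (f : FK), (up P₀).ord (ι f) = P₀.ord f
  /-- every place of `FL` is trivial on `ι FK` or an extension -/
  dich : ∀ P : Place L FL, (∀ f : FK, P.ord (ι f) = 0) ∨ ∃ P₀ : Place K FK, P = up P₀
  /-- degrees are preserved -/
  deg_up : ∀ P₀ : Place K FK, (up P₀).deg = P₀.deg

variable {ι : FK →+* FL} (E : PlaceExt K L ι)

namespace PlaceExt

theorem up_injective : Function.Injective E.up := by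
  intro P Q h
  apply place_ext_ord
  intro f
  rw [← E.ord_up P f, ← E.ord_up Q f, h]

/-- Every place has an element of positive order. -/
theorem exists_ord_pos (P₀ : Place K FK) : ∃ t : FK, P₀.ord t = 1 := by
  obtain ⟨π, hπ⟩ := IsDiscreteValuationRing.exists_irreducible P₀.toValuationSubring
  exact ⟨π, P₀.ord_coe_irreducible hπ⟩

/-- **Uniqueness of the extension.** -/
theorem up_unique {P : Place L FL} {P₀ : Place K FK}
    (h : ∀ f : FK, P.ord (ι f) = P₀.ord f) : P = E.up P₀ := by
  rcases E.dich P with h0 | ⟨P₁, rfl⟩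
  · obtain ⟨t, ht⟩ := exists_ord_pos P₀
    have := h t
    rw [h0 t, ht] at this
    omega
  · congr 1
    apply place_ext_ord
    intro f
    rw [← E.ord_up P₁ f, h]

/-- A place which is nontrivial on `ι FK` is an extension. -/
theorem exists_eq_up_of_ord_ne_zero {P : Place L FL} {f : FK} (hf : P.ord (ι f) ≠ 0) :
    ∃ P₀ : Place K FK, P = E.up P₀ := by
  rcases E.dich P with h0 | h
  · exact absurd (h0 f) hf
  · exact h

/-- A semilinear automorphism of `FL` fixing `ι FK` pointwise fixes every extended place. -/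
theorem smul_up (g : SemilinearAut L FL) (hg : ∀ f : FK, g • ι f = ι f) (P₀ : Place K FK) :
    g • E.up P₀ = E.up P₀ := by
  apply E.up_unique
  intro f
  have h := SemilinearAut.ord_smul g (E.up P₀) (ι f)
  rw [hg f] at h
  rw [h, E.ord_up]

end PlaceExt

/-! ## Base change of divisors -/

/-- Base change of divisors: `Σ n_P [P] ↦ Σ n_P [up P]`. -/
def bcDiv : Divisor K FK →+ Divisor L FL :=
  Finsupp.mapDomain.addMonoidHom E.up

theorem bcDiv_def (D : Divisor K FK) : bcDiv E D = Finsupp.mapDomain E.up D := rfl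

@[simp] theorem bcDiv_single (P₀ : Place K FK) (n : ℤ) :
    bcDiv E (Finsupp.single P₀ n) = Finsupp.single (E.up P₀) n := by
  rw [bcDiv_def, Finsupp.mapDomain_single]

@[simp] theorem bcDiv_apply_up (D : Divisor K FK) (P₀ : Place K FK) :
    bcDiv E D (E.up P₀) = D P₀ := by
  rw [bcDiv_def]
  exact Finsupp.mapDomain_apply E.up_injective D P₀

theorem bcDiv_apply_of_notMem_range (D : Divisor K FK) {P : Place L FL}
    (hP : P ∉ Set.range E.up) : bcDiv E D P = 0 := by
  rw [bcDiv_def]
  exact Finsupp.mapDomain_of_notMem_range D P hP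

theorem bcDiv_injective : Function.Injective (bcDiv E) :=
  Finsupp.mapDomain_injective E.up_injective

theorem degree_bcDiv (D : Divisor K FK) : Divisor.degree (bcDiv E D) = Divisor.degree D := by
  induction D using Finsupp.induction_linear with
  | zero => simp
  | add a b ha hb => rw [map_add, map_add, map_add, ha, hb]
  | single P₀ n => rw [bcDiv_single, Divisor.degree_single, Divisor.degree_single, E.deg_up]

theorem bcDiv_mem_degZero {D : Divisor K FK} (hD : D ∈ Divisor.degZero (K := K) (F := FK)) :
    bcDiv E D ∈ Divisor.degZero (K := L) (F := FL) := by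
  rw [Divisor.mem_degZero] at hD ⊢
  rw [degree_bcDiv, hD]

/-- **Base change of a principal divisor**: `bc (div f) = div (ι f)`. -/
theorem bcDiv_eq_ord {D : Divisor K FK} {f : FK} (hD : ∀ P₀ : Place K FK, D P₀ = P₀.ord f)
    (P : Place L FL) : bcDiv E D P = P.ord (ι f) := by
  rcases E.dich P with h0 | ⟨P₀, rfl⟩
  · rw [h0 f]
    apply bcDiv_apply_of_notMem_range
    rintro ⟨P₀, rfl⟩
    obtain ⟨t, ht⟩ := PlaceExt.exists_ord_pos P₀
    have := h0 t
    rw [E.ord_up, ht] at this
    omega
  · rw [bcDiv_apply_up, hD, E.ord_up]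

theorem bcDiv_mem_principal {D : Divisor K FK}
    (hD : D ∈ Divisor.principal (K := K) (F := FK)) :
    bcDiv E D ∈ Divisor.principal (K := L) (F := FL) := by
  obtain ⟨f, hf, hDf⟩ := hD
  exact ⟨ι f, (map_ne_zero ι).mpr hf, fun P => bcDiv_eq_ord E hDf P⟩

/-- Conversely, a divisor whose base change is `div (ι f)` is `div f`. -/
theorem eq_ord_of_bcDiv_eq_ord {D : Divisor K FK} {f : FK}
    (h : ∀ P : Place L FL, bcDiv E D P = P.ord (ι f)) (P₀ : Place K FK) : D P₀ = P₀.ord f := by
  rw [← bcDiv_apply_up E D P₀, h, E.ord_up]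

/-- Base change commutes with semilinear automorphisms fixing `ι FK`. -/
theorem smul_bcDiv (g : SemilinearAut L FL) (hg : ∀ f : FK, g • ι f = ι f) (D : Divisor K FK) :
    g • bcDiv E D = bcDiv E D := by
  induction D using Finsupp.induction_linear with
  | zero => rw [map_zero, smul_zero]
  | add a b ha hb => rw [map_add, smul_add, ha, hb]
  | single P₀ n => rw [bcDiv_single, SemilinearAut.smul_single, E.smul_up g hg]

/-! ## Base change of divisor classes -/

/-- Base change on degree-zero divisors. -/
def bcDegZero : Divisor.degZero (K := K) (F := FK) →+ Divisor.degZero (K := L) (F := FL) :=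
  ((bcDiv E).domRestrict (Divisor.degZero (K := K) (F := FK))).codRestrict _
    (fun D => bcDiv_mem_degZero E D.2)

@[simp] theorem coe_bcDegZero (D : Divisor.degZero (K := K) (F := FK)) :
    (bcDegZero E D : Divisor L FL) = bcDiv E (D : Divisor K FK) := rfl

/-- **Base change of divisor classes** `Pic⁰(FK) → Pic⁰(FL)`. -/
def bcPic : Pic0 K FK →+ Pic0 L FL :=
  QuotientAddGroup.map _ _ (bcDegZero E) (by
    rintro ⟨D, hD0⟩ hD
    simp only [AddSubgroup.mem_addSubgroupOf] at hD ⊢
    exact bcDiv_mem_principal E hD)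

theorem bcPic_mk (D : Divisor.degZero (K := K) (F := FK)) :
    bcPic E (Pic0.mk D) = Pic0.mk (bcDegZero E D) := rfl

/-- The image of `bcPic` is fixed by semilinear automorphisms fixing `ι FK`. -/
theorem smul_bcPic (g : SemilinearAut L FL) (hg : ∀ f : FK, g • ι f = ι f) (x : Pic0 K FK) :
    g • bcPic E x = bcPic E x := by
  obtain ⟨D, rfl⟩ := Pic0.mk_surjective x
  rw [bcPic_mk, SemilinearAut.pic0_smul_mk]
  exact congrArg Pic0.mk (Subtype.ext (smul_bcDiv E g hg D))

/-- `bcPic E x = 0` iff some (any) representative becomes principal after base change. -/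
theorem bcPic_mk_eq_zero_iff (D : Divisor.degZero (K := K) (F := FK)) :
    bcPic E (Pic0.mk D) = 0 ↔
      ∃ g : FL, g ≠ 0 ∧ ∀ P : Place L FL, bcDiv E (D : Divisor K FK) P = P.ord g := by
  rw [bcPic_mk]
  unfold Pic0.mk
  rw [QuotientAddGroup.eq_zero_iff, AddSubgroup.mem_addSubgroupOf]
  rfl

/-- **Injectivity criterion.** If every `g ∈ FL` whose divisor is a base change is, up to a
constant of `L`, in the image of `ι`, then `bcPic` is injective. -/
theorem bcPic_injective_of
    (h : ∀ (D : Divisor K FK) (g : FL), g ≠ 0 → (∀ P : Place L FL, bcDiv E D P = P.ord g) →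
      ∃ (c : L) (f : FK), c ≠ 0 ∧ f ≠ 0 ∧ g = algebraMap L FL c * ι f) :
    Function.Injective (bcPic E) := by
  rw [injective_iff_map_eq_zero]
  intro x hx
  obtain ⟨D, rfl⟩ := Pic0.mk_surjective x
  obtain ⟨g, hg, hDg⟩ := (bcPic_mk_eq_zero_iff E D).mp hx
  obtain ⟨c, f, hc, hf, rfl⟩ := h D g hg hDg
  unfold Pic0.mk
  rw [QuotientAddGroup.eq_zero_iff, AddSubgroup.mem_addSubgroupOf]
  refine ⟨f, hf, fun P₀ => ?_⟩
  apply eq_ord_of_bcDiv_eq_ord E
  intro P
  rw [hDg P, P.ord_mul ((map_ne_zero _).mpr hc) ((map_ne_zero ι).mpr hf),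
    Fermat.Agent.S24.FFDeriv.ord_algebraMap, zero_add]

end Fermat.Agent.S29.Desc.BcDiv

end
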