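import Mathlib
import Fermat.Prelude.Def_AlgebraicCurve_Correspondence
import Fermat.Agent.S29.Desc.BcDiv

/-!
# S29 (R3, Desc): base change of divisors commutes with pullback, pushforward, correspondences

Two levels: `F ⊆ F'` over `K` and `G ⊆ G'` over `L`, ring homomorphisms `ι : F →+* G`,
`ι' : F' →+* G'` forming a commuting square with the two inclusions, and place extension data
`E : PlaceExt K L ι`, `E' : PlaceExt K L ι'`.  Then

* `restrict_up` : `(E'.up Q₀).restrict G = E.up (Q₀.restrict F)`;
* `ramificationIndex_up`, `inertiaDeg_up`;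
* `bcDiv_pullback`, `bcDiv_pushforward` and their `…Along` forms;
* `bcDiv_correspondence`, `bcPic_correspondence` : base change commutes with the correspondence
  `ψ_* φ^*` (in particular with Hecke operators).
-/

set_option autoImplicit false

noncomputable section

open AlgebraicCurve

namespace Fermat.Agent.S29.Desc.BcHecke

open Fermat.Agent.S29.Desc.BcDiv

section Instances

variable {K L F F' G G' : Type*} [Field K] [Field L] [Field F] [Field F'] [Field G] [Field G']
  [Algebra K F] [Algebra K F'] [Algebra F F'] [IsScalarTower K F F'] [Algebra.IsIntegral F F']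
  [Algebra L G] [Algebra L G'] [Algebra G G'] [IsScalarTower L G G'] [Algebra.IsIntegral G G']
  {ι : F →+* G} {ι' : F' →+* G'} (E : PlaceExt K L ι) (E' : PlaceExt K L ι')
  (hsq : ∀ f : F, ι' (algebraMap F F' f) = algebraMap G G' (ι f))

include hsq

/-- The order of `ι f` at the restriction of an extended place. -/
theorem ramificationIndex_mul_ord (Q₀ : Place K F') (f : F) :
    ((E'.up Q₀).ramificationIndex G : ℤ) * ((E'.up Q₀).restrict G).ord (ι f) =
      (Q₀.ramificationIndex F : ℤ) * (Q₀.restrict F).ord f := by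
  rw [← Place.ord_restrict, ← hsq, E'.ord_up, Place.ord_restrict]

include E

/-- The restriction of an extended place is the extension of the restriction, and the
ramification indices agree. -/
theorem restrict_up_and_ramificationIndex (Q₀ : Place K F') :
    (E'.up Q₀).restrict G = E.up (Q₀.restrict F) ∧
      (E'.up Q₀).ramificationIndex G = Q₀.ramificationIndex F := by
  have heL : 0 < (E'.up Q₀).ramificationIndex G := Place.ramificationIndex_pos _
  have heK : 0 < Q₀.ramificationIndex F := Place.ramificationIndex_pos _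
  obtain ⟨t₀, ht₀⟩ := PlaceExt.exists_ord_pos (Q₀.restrict F)
  have h0 := ramificationIndex_mul_ord E' hsq Q₀ t₀
  rw [ht₀, mul_one] at h0
  have hne : ((E'.up Q₀).restrict G).ord (ι t₀) ≠ 0 := by
    intro h
    rw [h, mul_zero] at h0
    have : (Q₀.ramificationIndex F : ℤ) ≠ 0 := by exact_mod_cast heK.ne'
    exact this h0.symm
  obtain ⟨P₁, hP₁⟩ := E.exists_eq_up_of_ord_ne_zero hne
  have key : ∀ f : F, ((E'.up Q₀).ramificationIndex G : ℤ) * P₁.ord f =
      (Q₀.ramificationIndex F : ℤ) * (Q₀.restrict F).ord f := by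
    intro f
    rw [← ramificationIndex_mul_ord E' hsq Q₀ f, hP₁, E.ord_up]
  obtain ⟨t₁, ht₁⟩ := PlaceExt.exists_ord_pos P₁
  have h1 := key t₁
  rw [ht₁, mul_one] at h1
  have h2 := key t₀
  rw [ht₀, mul_one] at h2
  -- `eL = eK * a`, `eL * b = eK`, all positive
  have heq : ((E'.up Q₀).ramificationIndex G : ℤ) = (Q₀.ramificationIndex F : ℤ) := by
    have hL : (0 : ℤ) < ((E'.up Q₀).ramificationIndex G : ℤ) := by exact_mod_cast heL
    have hK : (0 : ℤ) < (Q₀.ramificationIndex F : ℤ) := by exact_mod_cast heK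
    have d1 : ((Q₀.ramificationIndex F : ℤ)) ∣ ((E'.up Q₀).ramificationIndex G : ℤ) :=
      ⟨_, h1⟩
    have d2 : ((E'.up Q₀).ramificationIndex G : ℤ) ∣ ((Q₀.ramificationIndex F : ℤ)) :=
      ⟨_, h2.symm⟩
    exact Int.dvd_antisymm hL.le hK.le d2 d1
  have heqN : (E'.up Q₀).ramificationIndex G = Q₀.ramificationIndex F := by exact_mod_cast heq
  refine ⟨?_, heqN⟩
  rw [hP₁]
  congr 1
  apply place_ext_ord
  intro f
  have hf := key f
  rw [heq] at hf
  have hK : ((Q₀.ramificationIndex F : ℤ)) ≠ 0 := by exact_mod_cast heK.ne'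
  exact mul_left_cancel₀ hK hf

theorem restrict_up (Q₀ : Place K F') : (E'.up Q₀).restrict G = E.up (Q₀.restrict F) :=
  (restrict_up_and_ramificationIndex E E' hsq Q₀).1

theorem ramificationIndex_up (Q₀ : Place K F') :
    (E'.up Q₀).ramificationIndex G = Q₀.ramificationIndex F :=
  (restrict_up_and_ramificationIndex E E' hsq Q₀).2

omit [IsScalarTower K F F'] [Algebra.IsIntegral F F'] in
/-- A place of `G'` outside the range of `E'.up` restricts to a place outside the range of
`E.up`. -/
theorem restrict_notMem_range {Q : Place L G'} (hQ : Q ∉ Set.range E'.up) :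
    Q.restrict G ∉ Set.range E.up := by
  rintro ⟨P₀, hP₀⟩
  apply hQ
  obtain ⟨t₀, ht₀⟩ := PlaceExt.exists_ord_pos P₀
  have h1 : Q.ord (algebraMap G G' (ι t₀)) ≠ 0 := by
    rw [Place.ord_restrict, ← hP₀, E.ord_up, ht₀, mul_one]
    have := Place.ramificationIndex_pos (F := G) Q
    exact_mod_cast this.ne'
  rw [← hsq] at h1
  obtain ⟨Q₀, rfl⟩ := E'.exists_eq_up_of_ord_ne_zero h1
  exact ⟨Q₀, rfl⟩

variable [HasPrincipalDivisors K F'] [HasPrincipalDivisors L G']

/-- **Base change commutes with pullback.** -/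
theorem bcDiv_pullback (D : Divisor K F) :
    bcDiv E' (Divisor.pullback F' D) = Divisor.pullback G' (bcDiv E D) := by
  ext Q
  rw [Divisor.pullback_apply]
  by_cases hQ : Q ∈ Set.range E'.up
  · obtain ⟨Q₀, rfl⟩ := hQ
    rw [bcDiv_apply_up, Divisor.pullback_apply, restrict_up E E' hsq, bcDiv_apply_up,
      ramificationIndex_up E E' hsq]
  · rw [bcDiv_apply_of_notMem_range E' _ hQ,
      bcDiv_apply_of_notMem_range E _ (restrict_notMem_range E E' hsq hQ), mul_zero]

omit [HasPrincipalDivisors K F'] [HasPrincipalDivisors L G'] in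
/-- Inertia degrees agree (when the places below have nonzero degree). -/
theorem inertiaDeg_up (hdeg : ∀ P₀ : Place K F, P₀.deg ≠ 0) (Q₀ : Place K F') :
    (E'.up Q₀).inertiaDeg G = Q₀.inertiaDeg F := by
  have h1 := (E'.up Q₀).deg_restrict_mul_inertiaDeg (F := G)
  have h2 := Q₀.deg_restrict_mul_inertiaDeg (F := F)
  rw [restrict_up E E' hsq, E.deg_up, E'.deg_up, ← h2] at h1
  exact Nat.eq_of_mul_eq_mul_left (Nat.pos_of_ne_zero (hdeg _)) h1

omit [HasPrincipalDivisors K F'] [HasPrincipalDivisors L G'] in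
/-- **Base change commutes with pushforward.** -/
theorem bcDiv_pushforward (hdeg : ∀ P₀ : Place K F, P₀.deg ≠ 0) (D : Divisor K F') :
    bcDiv E (Divisor.pushforward F D) = Divisor.pushforward G (bcDiv E' D) := by
  induction D using Finsupp.induction_linear with
  | zero => simp
  | add a b ha hb => rw [map_add, map_add, map_add, map_add, ha, hb]
  | single Q₀ n =>
    rw [Divisor.pushforward_single, bcDiv_single, bcDiv_single, Divisor.pushforward_single,
      restrict_up E E' hsq, inertiaDeg_up E E' hsq hdeg]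

end Instances

section Along

variable {K L F F' G G' : Type*} [Field K] [Field L] [Field F] [Field F'] [Field G] [Field G']
  [Algebra K F] [Algebra K F'] [Algebra L G] [Algebra L G']
  {ι : F →+* G} {ι' : F' →+* G'} (E : PlaceExt K L ι) (E' : PlaceExt K L ι')

/-- Base change commutes with `pullbackAlong`. -/
theorem bcDiv_pullbackAlong [HasPrincipalDivisors K F'] [HasPrincipalDivisors L G']
    (φK : F →ₐ[K] F') (hφK : φK.toRingHom.IsIntegral)
    (φL : G →ₐ[L] G') (hφL : φL.toRingHom.IsIntegral)
    (hsq : ∀ f : F, ι' (φK f) = φL (ι f)) (D : Divisor K F) :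
    bcDiv E' (Divisor.pullbackAlong φK hφK D) = Divisor.pullbackAlong φL hφL (bcDiv E D) := by
  let _ := algebraAlong φK
  have := isScalarTower_along φK
  have := isIntegral_along φK hφK
  let _ := algebraAlong φL
  have := isScalarTower_along φL
  have := isIntegral_along φL hφL
  exact bcDiv_pullback E E' hsq D

/-- Base change commutes with `pushforwardAlong`. -/
theorem bcDiv_pushforwardAlong
    (φK : F →ₐ[K] F') (hφK : φK.toRingHom.IsIntegral)
    (φL : G →ₐ[L] G') (hφL : φL.toRingHom.IsIntegral)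
    (hsq : ∀ f : F, ι' (φK f) = φL (ι f)) (hdeg : ∀ P₀ : Place K F, P₀.deg ≠ 0)
    (D : Divisor K F') :
    bcDiv E (Divisor.pushforwardAlong φK hφK D) = Divisor.pushforwardAlong φL hφL (bcDiv E' D) := by
  let _ := algebraAlong φK
  have := isScalarTower_along φK
  have := isIntegral_along φK hφK
  let _ := algebraAlong φL
  have := isScalarTower_along φL
  have := isIntegral_along φL hφL
  exact bcDiv_pushforward E E' hsq hdeg D

variable [HasPrincipalDivisors K F'] [HasPrincipalDivisors L G']
  (φK ψK : F →ₐ[K] F') (hφK : φK.toRingHom.IsIntegral) (hψK : ψK.toRingHom.IsIntegral)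
  (φL ψL : G →ₐ[L] G') (hφL : φL.toRingHom.IsIntegral) (hψL : ψL.toRingHom.IsIntegral)
  (hsqφ : ∀ f : F, ι' (φK f) = φL (ι f)) (hsqψ : ∀ f : F, ι' (ψK f) = ψL (ι f))
  (hdeg : ∀ P₀ : Place K F, P₀.deg ≠ 0)

include E' hsqφ hsqψ hdeg

/-- **Base change commutes with the correspondence `ψ_* φ^*` on divisors.** -/
theorem bcDiv_correspondence (D : Divisor K F) :
    bcDiv E (Divisor.correspondence φK ψK hφK hψK D) =
      Divisor.correspondence φL ψL hφL hψL (bcDiv E D) := by
  rw [Divisor.correspondence_apply, Divisor.correspondence_apply,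
    bcDiv_pushforwardAlong E E' ψK hψK ψL hψL hsqψ hdeg,
    bcDiv_pullbackAlong E E' φK hφK φL hφL hsqφ]

/-- **Base change commutes with the correspondence `ψ_* φ^*` on `Pic⁰`.** -/
theorem bcPic_correspondence
    (hFIK : FundamentalIdentityAlong K φK hφK) (hfinK : FiniteAlong K ψK)
    (hNK : NormFormulaAlong K ψK hfinK)
    (hFIL : FundamentalIdentityAlong L φL hφL) (hfinL : FiniteAlong L ψL)
    (hNL : NormFormulaAlong L ψL hfinL) (x : Pic0 K F) :
    bcPic E (Pic0.correspondence φK ψK hφK hψK hFIK hfinK hNK x) =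
      Pic0.correspondence φL ψL hφL hψL hFIL hfinL hNL (bcPic E x) := by
  obtain ⟨D, rfl⟩ := Pic0.mk_surjective x
  rw [Pic0.correspondence_mk, bcPic_mk, bcPic_mk, Pic0.correspondence_mk]
  refine congrArg Pic0.mk (Subtype.ext ?_)
  rw [coe_bcDegZero, Pic0.coe_degZeroCorrespondence, Pic0.coe_degZeroCorrespondence,
    coe_bcDegZero]
  exact bcDiv_correspondence E E' φK ψK hφK hψK φL ψL hφL hψL hsqφ hsqψ hdeg _

end Along

end Fermat.Agent.S29.Desc.BcHecke

end
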