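import Mathlib
import Fermat.Agent.S29.HeckeInputsL
import Fermat.Agent.S29.Desc.BcPushPull
import Fermat.Agent.S29.Desc.UpHecke
import Fermat.Agent.S29.Desc.DataLaurent
import Fermat.Agent.S29.Desc.ConstExtTrLaurent

/-!
# S29 (R3, Desc): the Hecke square for the base change of `Pic⁰` of the modular function fields

`K ⊆ L` algebraically closed of characteristic zero, `F_K M = laurentBaseChange K (Full M)`,
`bcF : F_K M → F_L M` coefficientwise.  For ANY additive `bcPic : Pic⁰(F_K N) → Pic⁰(F_L N)`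
which is computed by `Finsupp.mapDomain up` on divisors of degree zero (`hmk`), where `up`
(level `N`) and `up'` (level `N ℓ`) are place-extension maps with `ord_up` and the dichotomy:

`bcPic (heckeOperatorAlong K N ℓ y) = heckeOperatorAlong L N ℓ (bcPic y)`.

* `hT_of_hmk` : the abstract-`up` version;
* `hT_upPlace` : the version for `ConstExtTrLaurent.upPlace` (= the hypothesis `hT` of
  `Desc.MainOf.blockDesc_of`).
-/

set_option autoImplicit false
set_option linter.unusedSectionVars false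
set_option linter.style.haveILetI false

noncomputable section

open AlgebraicCurve ModularCurve
open Fermat.Agent.S29.HeckeInputsL Fermat.Agent.S29.Desc.DataLaurent

namespace Fermat.Agent.S29.Desc.BcHeckeModular

variable (K L : Type*) [Field K] [Field L] [Algebra ℚ K] [Algebra ℚ L] [Algebra K L]
  [IsScalarTower ℚ K L] [IsAlgClosed K] [IsAlgClosed L]
variable (N ℓ : ℕ) [NeZero N] [NeZero ℓ]

/-- **the Hecke square**, abstract place-extension maps. -/
theorem hT_of_hmk
    (up : Place K (FL K N) → Place L (FL L N))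
    (up' : Place K (FL K (N * ℓ)) → Place L (FL L (N * ℓ)))
    (ord_up : ∀ (P₀ : Place K (FL K N)) (f : FL K N), (up P₀).ord (bcF K L N f) = P₀.ord f)
    (ord_up' : ∀ (P₀ : Place K (FL K (N * ℓ))) (f : FL K (N * ℓ)),
      (up' P₀).ord (bcF K L (N * ℓ) f) = P₀.ord f)
    (dich : ∀ P : Place L (FL L N),
      (∀ f : FL K N, P.ord (bcF K L N f) = 0) ∨ ∃ P₀, P = up P₀)
    (dich' : ∀ P : Place L (FL L (N * ℓ)),
      (∀ f : FL K (N * ℓ), P.ord (bcF K L (N * ℓ) f) = 0) ∨ ∃ P₀, P = up' P₀)
    (bcPic : Pic0 K (FL K N) →+ Pic0 L (FL L N))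
    (hmk : ∀ (D₀ : Divisor.degZero (K := K) (F := FL K N))
      (h0 : Finsupp.mapDomain up (D₀ : Divisor K (FL K N))
        ∈ Divisor.degZero (K := L) (F := FL L N)),
      bcPic (Pic0.mk D₀) = Pic0.mk ⟨Finsupp.mapDomain up (D₀ : Divisor K (FL K N)), h0⟩)
    (y : Pic0 K (FL K N)) :
    bcPic (heckeOperatorAlong K N ℓ y) = heckeOperatorAlong L N ℓ (bcPic y) := by
  haveI := hasPrincipalDivisors_L K (N * ℓ)
  haveI := hasPrincipalDivisors_L L (N * ℓ)
  rw [heckeOperatorAlong_eq_heckePic0Bar K N ℓ, heckeOperatorAlong_eq_heckePic0Bar L N ℓ]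
  unfold heckePic0Bar
  refine Fermat.Agent.S29.Desc.BcPushPull.bcPic_correspondence
    (bcF K L N) (bcF K L (N * ℓ)) up up' ord_up ord_up' dich dich'
    (fun P₀ => by rw [deg_eq_one_L L N, deg_eq_one_L K N])
    (fun P₀ => by rw [deg_eq_one_L L (N * ℓ), deg_eq_one_L K (N * ℓ)])
    (fun v => by rw [deg_eq_one_L K N]; exact one_ne_zero)
    (heckeBetaBar K N ℓ) (heckeAlphaBar K N ℓ) (heckeBetaBarIntegral K N ℓ)
    (heckeAlphaBarIntegral K N ℓ)
    (heckeBetaBar L N ℓ) (heckeAlphaBar L N ℓ) (heckeBetaBarIntegral L N ℓ)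
    (heckeAlphaBarIntegral L N ℓ)
    (fun f => Fermat.Agent.S29.Desc.UpHecke.up_heckeBetaBar N ℓ f)
    (fun f => Fermat.Agent.S29.Desc.UpHecke.up_heckeAlphaBar N ℓ f)
    (fundamentalIdentityAlong_beta K N ℓ) (finiteAlong_alpha K N ℓ) (normFormulaAlong_alpha K N ℓ)
    (fundamentalIdentityAlong_beta L N ℓ) (finiteAlong_alpha L N ℓ) (normFormulaAlong_alpha L N ℓ)
    bcPic ?_ y
  intro D
  have h0 : Finsupp.mapDomain up (D : Divisor K (FL K N))
      ∈ Divisor.degZero (K := L) (F := FL L N) := by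
    rw [Divisor.mem_degZero,
      Fermat.Agent.S29.Desc.Surject.degree_mapDomain_of_deg_one up (deg_eq_one_L K N)
        (deg_eq_one_L L N)]
    exact D.2
  exact ⟨⟨_, h0⟩, rfl, hmk D h0⟩

/-- helper29's place-extension map at the modular function field of level `M`. -/
def upFL (M : ℕ) [NeZero M] : Place K (FL K M) → Place L (FL L M) :=
  haveI := finiteDimensional_JL K M
  Fermat.Agent.S29.Desc.ConstExtTrLaurent.upPlace (L := L) (modularFunctionFieldFull M)
    (JL K M) (transcendental_JL K M)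

theorem ord_upFL (M : ℕ) [NeZero M] (P₀ : Place K (FL K M)) (f : FL K M) :
    (upFL K L M P₀).ord (bcF K L M f) = P₀.ord f :=
  haveI := finiteDimensional_JL K M
  Fermat.Agent.S29.Desc.ConstExtTrLaurent.ord_upPlace (L := L) (modularFunctionFieldFull M)
    (JL K M) (transcendental_JL K M) P₀ f

theorem comap_upFL (M : ℕ) [NeZero M] (P₀ : Place K (FL K M)) :
    (upFL K L M P₀).toValuationSubring.comap (bcF K L M) = P₀.toValuationSubring :=
  haveI := finiteDimensional_JL K M
  Fermat.Agent.S29.Desc.ConstExtTrLaurent.comap_upPlace (L := L) (modularFunctionFieldFull M)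
    (JL K M) (transcendental_JL K M) P₀

theorem upFL_unique (M : ℕ) [NeZero M] (P : Place L (FL L M)) (P₀ : Place K (FL K M))
    (h : P.toValuationSubring.comap (bcF K L M) = P₀.toValuationSubring) :
    P = upFL K L M P₀ :=
  haveI := finiteDimensional_JL K M
  Fermat.Agent.S29.Desc.ConstExtTrLaurent.eq_upPlace (L := L) (modularFunctionFieldFull M)
    (JL K M) (transcendental_JL K M) P P₀ h

theorem dich_upFL (M : ℕ) [NeZero M] (P : Place L (FL L M)) :
    P.toValuationSubring.comap (bcF K L M) = ⊤ ∨ ∃ P₀ : Place K (FL K M), P = upFL K L M P₀ :=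
  haveI := finiteDimensional_JL K M
  Fermat.Agent.S29.Desc.ConstExtTrLaurent.dich (L := L) (modularFunctionFieldFull M)
    (JL K M) (transcendental_JL K M) P

theorem dich_ord_upFL (M : ℕ) [NeZero M] (P : Place L (FL L M)) :
    (∀ f : FL K M, P.ord (bcF K L M f) = 0) ∨ ∃ P₀ : Place K (FL K M), P = upFL K L M P₀ :=
  haveI := finiteDimensional_JL K M
  Fermat.Agent.S29.Desc.ConstExtTrLaurent.dich_ord (L := L) (modularFunctionFieldFull M)
    (JL K M) (transcendental_JL K M) P

/-- **the Hecke square for `upFL`** (= the hypothesis `hT` of `Desc.MainOf.blockDesc_of` with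
`upP := upFL K L N`). -/
theorem hT_upFL
    (bcPic : Pic0 K (FL K N) →+ Pic0 L (FL L N))
    (hmk : ∀ (D₀ : Divisor.degZero (K := K) (F := FL K N))
      (h0 : Finsupp.mapDomain (upFL K L N) (D₀ : Divisor K (FL K N))
        ∈ Divisor.degZero (K := L) (F := FL L N)),
      bcPic (Pic0.mk D₀)
        = Pic0.mk ⟨Finsupp.mapDomain (upFL K L N) (D₀ : Divisor K (FL K N)), h0⟩)
    (y : Pic0 K (FL K N)) :
    bcPic (heckeOperatorAlong K N ℓ y) = heckeOperatorAlong L N ℓ (bcPic y) :=
  hT_of_hmk K L N ℓ (upFL K L N) (upFL K L (N * ℓ)) (ord_upFL K L N) (ord_upFL K L (N * ℓ))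
    (dich_ord_upFL K L N) (dich_ord_upFL K L (N * ℓ)) bcPic hmk y

end Fermat.Agent.S29.Desc.BcHeckeModular

end
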