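import Mathlib
import Fermat.Prelude.Def_AlgebraicCurve_BaseChangeGalois
import Fermat.Agent.S24.FFDeriv

set_option autoImplicit false
set_option linter.unusedSectionVars false

/-!
(R3-Desc, hedge of the "Bc" layer)  Base change of divisors and of `Pic⁰` along an extension of
places `up : Place K FK → Place L FL` over `ι : FK →+* FL` with `e = f = 1`
(plain-function hypotheses, bundled in the `Prop`-structure `Ext`):

* `bcDiv := mapDomain up`, `bcDiv_eq_ord` (`bcDiv (div f) = div (ι f)`), `degree_bcDiv`;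
* `bcPic : Pic⁰(FK) →+ Pic⁰(FL)`, `bcPic_mk`, `bcPic_mk'`, `bcPic_hbc`;
* `bcPic_injective` from an abstract descent hypothesis (a function of `FL` whose divisor is
  invariant under a group of semilinear automorphisms fixing `ι(FK)` is a constant times `ι x`).
-/

open AlgebraicCurve

namespace Fermat.Agent.S29.Desc.BcPicAbs

open Fermat.Agent.S24

variable {K L FK FL : Type*} [Field K] [Field L] [Field FK] [Field FL]
  [Algebra K FK] [Algebra L FL]

/-- the hypotheses on the extension of places -/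
structure Ext (ι : FK →+* FL) (up : Place K FK → Place L FL) : Prop where
  ord_up : ∀ (P₀ : Place K FK) (f : FK), (up P₀).ord (ι f) = P₀.ord f
  dich : ∀ P : Place L FL, (∀ f : FK, P.ord (ι f) = 0) ∨ ∃ P₀ : Place K FK, P = up P₀
  up_injective : Function.Injective up
  deg_up : ∀ P₀ : Place K FK, (up P₀).deg = P₀.deg

variable {ι : FK →+* FL} {up : Place K FK → Place L FL}

/-- base change of divisors -/
noncomputable def bcDiv (up : Place K FK → Place L FL) : Divisor K FK →+ Divisor L FL :=
  Finsupp.mapDomain.addMonoidHom up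

theorem bcDiv_apply (D : Divisor K FK) : bcDiv up D = Finsupp.mapDomain up D := rfl

theorem bcDiv_apply_up (h : Ext ι up) (D : Divisor K FK) (P₀ : Place K FK) :
    bcDiv up D (up P₀) = D P₀ :=
  Finsupp.mapDomain_apply h.up_injective D P₀

theorem bcDiv_apply_of_notMem (D : Divisor K FK) {P : Place L FL} (hP : P ∉ Set.range up) :
    bcDiv up D P = 0 :=
  Finsupp.mapDomain_of_notMem_range D P hP

/-- `bcDiv (div f) = div (ι f)` -/
theorem bcDiv_eq_ord (h : Ext ι up) {f : FK} {D : Divisor K FK}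
    (hD : ∀ P₀ : Place K FK, D P₀ = P₀.ord f) (P : Place L FL) :
    bcDiv up D P = P.ord (ι f) := by
  by_cases hP : P ∈ Set.range up
  · obtain ⟨P₀, rfl⟩ := hP
    rw [bcDiv_apply_up h, hD, h.ord_up]
  · rw [bcDiv_apply_of_notMem D hP]
    rcases h.dich P with h0 | ⟨P₀, rfl⟩
    · exact (h0 f).symm
    · exact absurd ⟨P₀, rfl⟩ hP

theorem degree_bcDiv (h : Ext ι up) (D : Divisor K FK) :
    Divisor.degree (bcDiv up D) = Divisor.degree D := by
  classical
  induction D using Finsupp.induction with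
  | zero => simp
  | single_add v n D _ _ ih =>
      rw [map_add, map_add, map_add, ih, bcDiv_apply, Finsupp.mapDomain_single,
        Divisor.degree_single, Divisor.degree_single, h.deg_up]

theorem bcDiv_mem_degZero (h : Ext ι up) {D : Divisor K FK}
    (hD : D ∈ Divisor.degZero (K := K) (F := FK)) :
    bcDiv up D ∈ Divisor.degZero (K := L) (F := FL) := by
  rw [Divisor.mem_degZero] at hD ⊢
  rw [degree_bcDiv h, hD]

theorem bcDiv_mem_principal (h : Ext ι up) {D : Divisor K FK}
    (hD : D ∈ Divisor.principal (K := K) (F := FK)) :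
    bcDiv up D ∈ Divisor.principal (K := L) (F := FL) := by
  obtain ⟨f, hf, hDf⟩ := hD
  exact ⟨ι f, (map_ne_zero ι).mpr hf, bcDiv_eq_ord h hDf⟩

/-- base change on divisors of degree zero -/
noncomputable def bcDegZero (h : Ext ι up) :
    Divisor.degZero (K := K) (F := FK) →+ Divisor.degZero (K := L) (F := FL) :=
  ((bcDiv up).domRestrict (Divisor.degZero (K := K) (F := FK))).codRestrict _
    (fun D => bcDiv_mem_degZero h D.2)

@[simp]
theorem coe_bcDegZero (h : Ext ι up) (D : Divisor.degZero (K := K) (F := FK)) :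
    (bcDegZero h D : Divisor L FL) = Finsupp.mapDomain up (D : Divisor K FK) := rfl

/-- base change on `Pic⁰` -/
noncomputable def bcPic (h : Ext ι up) : Pic0 K FK →+ Pic0 L FL :=
  QuotientAddGroup.map _ _ (bcDegZero h) (by
    rintro ⟨D, hD0⟩ hD
    simp only [AddSubgroup.mem_addSubgroupOf] at hD
    rw [AddSubgroup.mem_comap, AddSubgroup.mem_addSubgroupOf]
    exact bcDiv_mem_principal h hD)

theorem bcPic_mk (h : Ext ι up) (D : Divisor.degZero (K := K) (F := FK)) :
    bcPic h (Pic0.mk D) = Pic0.mk (bcDegZero h D) := rfl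

/-- the shape consumed by `MainOf.blockDesc_of` / `DataLaurent.exists_bc_FL` -/
theorem bcPic_mk' (h : Ext ι up) (D₀ : Divisor.degZero (K := K) (F := FK))
    (h0 : Finsupp.mapDomain up (D₀ : Divisor K FK) ∈ Divisor.degZero (K := L) (F := FL)) :
    bcPic h (Pic0.mk D₀) = Pic0.mk ⟨Finsupp.mapDomain up (D₀ : Divisor K FK), h0⟩ := rfl

/-- the shape consumed by `BcPushPull.bcPic_correspondence` -/
theorem bcPic_hbc (h : Ext ι up) (D : Divisor.degZero (K := K) (F := FK)) :
    ∃ D' : Divisor.degZero (K := L) (F := FL),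
      (D' : Divisor L FL) = Finsupp.mapDomain up (D : Divisor K FK) ∧
        bcPic h (Pic0.mk D) = Pic0.mk D' :=
  ⟨bcDegZero h D, rfl, rfl⟩

/-- **injectivity** of `bcPic` from the descent of functions with invariant divisor -/
theorem bcPic_injective (h : Ext ι up) {G : Type*} [Group G] (act : G →* SemilinearAut L FL)
    (hup : ∀ (σ : G) (P₀ : Place K FK), act σ • up P₀ = up P₀)
    (hdesc : ∀ z : FL, z ≠ 0 →
      (∀ (σ : G) (P : Place L FL), P.ord (act σ • z) = P.ord z) →
      ∃ (c : L) (x : FK), c ≠ 0 ∧ x ≠ 0 ∧ z = algebraMap L FL c * ι x) :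
    Function.Injective (bcPic h) := by
  rw [injective_iff_map_eq_zero]
  intro x hx
  obtain ⟨D₀, rfl⟩ := Pic0.mk_surjective x
  rw [bcPic_mk] at hx
  have hprin : (bcDegZero h D₀ : Divisor L FL) ∈ Divisor.principal (K := L) (F := FL) := by
    have h1 : (QuotientAddGroup.mk (bcDegZero h D₀) : Pic0 L FL) = 0 := hx
    rw [QuotientAddGroup.eq_zero_iff, AddSubgroup.mem_addSubgroupOf] at h1
    exact h1
  obtain ⟨z, hz, hzD⟩ := hprin
  rw [coe_bcDegZero] at hzD
  -- the divisor `mapDomain up D₀` is invariant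
  have hinvD : ∀ (σ : G) (P : Place L FL),
      Finsupp.mapDomain up (D₀ : Divisor K FK) ((act σ)⁻¹ • P)
        = Finsupp.mapDomain up (D₀ : Divisor K FK) P := by
    intro σ P
    by_cases hP : P ∈ Set.range up
    · obtain ⟨P₀, rfl⟩ := hP
      have : (act σ)⁻¹ • up P₀ = up P₀ := by
        rw [inv_smul_eq_iff, hup]
      rw [this]
    · have hP' : (act σ)⁻¹ • P ∉ Set.range up := by
        rintro ⟨P₀, hP₀⟩
        apply hP
        refine ⟨P₀, ?_⟩
        have : P = act σ • up P₀ := by rw [hP₀, smul_inv_smul]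
        rw [this, hup]
      rw [Finsupp.mapDomain_of_notMem_range _ _ hP, Finsupp.mapDomain_of_notMem_range _ _ hP']
  have hinvz : ∀ (σ : G) (P : Place L FL), P.ord (act σ • z) = P.ord z := by
    intro σ P
    have h1 := SemilinearAut.ord_smul (act σ) ((act σ)⁻¹ • P) z
    rw [smul_inv_smul] at h1
    rw [h1, ← hzD, ← hzD, hinvD]
  obtain ⟨c, x, hc, hx0, hzx⟩ := hdesc z hz hinvz
  -- `D₀ = div x`
  have hD₀ : (D₀ : Divisor K FK) ∈ Divisor.principal (K := K) (F := FK) := by
    refine ⟨x, hx0, fun P₀ => ?_⟩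
    have h1 := hzD (up P₀)
    rw [Finsupp.mapDomain_apply h.up_injective] at h1
    rw [h1, hzx, (up P₀).ord_mul (by simpa using hc) ((map_ne_zero ι).mpr hx0),
      FFDeriv.ord_algebraMap, zero_add, h.ord_up]
  show (QuotientAddGroup.mk D₀ : Pic0 K FK) = 0
  rw [QuotientAddGroup.eq_zero_iff, AddSubgroup.mem_addSubgroupOf]
  exact hD₀

end Fermat.Agent.S29.Desc.BcPicAbs
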