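import Mathlib
import Fermat.Agent.S29.Desc.BcPicAbs
import Fermat.Agent.S29.Desc.ConstExtTrLaurent
import Fermat.Agent.S29.Desc.DataLaurent
import Fermat.Agent.S29.Desc.InvDivisor
import Fermat.Agent.S29.Desc.ConstOfOrd

/-!
# S29 (R3, Desc): the modular instantiation of `bcPic`, `hmk`, `hinj`

`K ⊆ L` algebraically closed fields of characteristic zero, `FL K N → FL L N` the coefficientwise
embedding of the modular function fields.  We instantiate the abstract `BcPicAbs` at the places
layer of `ConstExtTrLaurent`: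

* `upFLp K L N` : the unique place of `FL L N` above a place of `FL K N`;
* `ext K L N : BcPicAbs.Ext (bcF K L N) (upFLp K L N)`;
* `bcPicFL K L N : Pic0 K (FL K N) →+ Pic0 L (FL L N)`, with `bcPicFL_mk` (the `hmk` of
  `MainOf.blockDesc_of`), `bcPicFL_hbc` (the `hbc` of `BcPushPull.bcPic_correspondence`);
* `bcPicFL_injective` (the `hinj` of `MainOf.blockDesc_of`).
-/

set_option autoImplicit false
set_option linter.unusedSectionVars false

noncomputable section

open AlgebraicCurve ModularCurve IntermediateField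
open Fermat.Agent.S29.HeckeInputsL Fermat.Agent.S29.Desc.DataLaurent
open Fermat.Agent.S29.Desc.Surject

namespace Fermat.Agent.S29.Desc.BcPicModular

variable (K L : Type*) [Field K] [Field L] [Algebra ℚ K] [Algebra ℚ L] [Algebra K L]
  [IsScalarTower ℚ K L] [IsAlgClosed K]
variable (N : ℕ) [NeZero N]

/-- the unique place of `FL L N` above a place of `FL K N` -/
def upFLp : Place K (FL K N) → Place L (FL L N) :=
  haveI := finiteDimensional_JL K N
  ConstExtTrLaurent.upPlace (L := L) (modularFunctionFieldFull N) (JL K N) (transcendental_JL K N)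

theorem ord_upFLp (P₀ : Place K (FL K N)) (f : FL K N) :
    (upFLp K L N P₀).ord (bcF K L N f) = P₀.ord f :=
  haveI := finiteDimensional_JL K N
  ConstExtTrLaurent.ord_upPlace (L := L) (modularFunctionFieldFull N) (JL K N)
    (transcendental_JL K N) P₀ f

theorem comap_upFLp (P₀ : Place K (FL K N)) :
    (upFLp K L N P₀).toValuationSubring.comap (bcF K L N) = P₀.toValuationSubring :=
  haveI := finiteDimensional_JL K N
  ConstExtTrLaurent.comap_upPlace (L := L) (modularFunctionFieldFull N) (JL K N)
    (transcendental_JL K N) P₀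

theorem upFLp_unique (P : Place L (FL L N)) (P₀ : Place K (FL K N))
    (h : P.toValuationSubring.comap (bcF K L N) = P₀.toValuationSubring) :
    P = upFLp K L N P₀ :=
  haveI := finiteDimensional_JL K N
  ConstExtTrLaurent.eq_upPlace (L := L) (modularFunctionFieldFull N) (JL K N)
    (transcendental_JL K N) P P₀ h

theorem dich_upFLp (P : Place L (FL L N)) :
    P.toValuationSubring.comap (bcF K L N) = ⊤ ∨ ∃ P₀ : Place K (FL K N), P = upFLp K L N P₀ :=
  haveI := finiteDimensional_JL K N
  ConstExtTrLaurent.dich (L := L) (modularFunctionFieldFull N) (JL K N)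
    (transcendental_JL K N) P

theorem dich_ord_upFLp (P : Place L (FL L N)) :
    (∀ f : FL K N, P.ord (bcF K L N f) = 0) ∨ ∃ P₀ : Place K (FL K N), P = upFLp K L N P₀ :=
  haveI := finiteDimensional_JL K N
  ConstExtTrLaurent.dich_ord (L := L) (modularFunctionFieldFull N) (JL K N)
    (transcendental_JL K N) P

theorem upFLp_injective : Function.Injective (upFLp K L N) :=
  haveI := finiteDimensional_JL K N
  ConstExtTrLaurent.upPlace_injective (L := L) (modularFunctionFieldFull N) (JL K N)
    (transcendental_JL K N)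

variable [IsAlgClosed L]

/-- the hypotheses of `BcPicAbs` for the modular function fields -/
theorem ext : BcPicAbs.Ext (bcF K L N) (upFLp K L N) where
  ord_up := ord_upFLp K L N
  dich := dich_ord_upFLp K L N
  up_injective := upFLp_injective K L N
  deg_up := fun P₀ => by rw [deg_eq_one_L L N, deg_eq_one_L K N]

/-- base change `Pic⁰(F_K N) → Pic⁰(F_L N)` -/
def bcPicFL : Pic0 K (FL K N) →+ Pic0 L (FL L N) :=
  BcPicAbs.bcPic (ext K L N)

/-- the `hmk` of `MainOf.blockDesc_of` -/
theorem bcPicFL_mk (D₀ : Divisor.degZero (K := K) (F := FL K N))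
    (h0 : Finsupp.mapDomain (upFLp K L N) (D₀ : Divisor K (FL K N))
      ∈ Divisor.degZero (K := L) (F := FL L N)) :
    bcPicFL K L N (Pic0.mk D₀)
      = Pic0.mk ⟨Finsupp.mapDomain (upFLp K L N) (D₀ : Divisor K (FL K N)), h0⟩ :=
  BcPicAbs.bcPic_mk' (ext K L N) D₀ h0

/-- the `hbc` of `BcPushPull.bcPic_correspondence` -/
theorem bcPicFL_hbc (D : Divisor.degZero (K := K) (F := FL K N)) :
    ∃ D' : Divisor.degZero (K := L) (F := FL L N),
      (D' : Divisor L (FL L N)) = Finsupp.mapDomain (upFLp K L N) (D : Divisor K (FL K N)) ∧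
        bcPicFL K L N (Pic0.mk D) = Pic0.mk D' :=
  BcPicAbs.bcPic_hbc (ext K L N) D

/-- the coefficientwise action of `Aut(L/K)` fixes the places coming from `F_K N` -/
theorem coeffAct_smul_upFLp (σ : L ≃ₐ[K] L) (P₀ : Place K (FL K N)) :
    coeffAct (modularFunctionFieldFull N) σ • upFLp K L N P₀ = upFLp K L N P₀ :=
  smul_up_eq (bcF K L N) (upFLp K L N) (comap_upFLp K L N) (upFLp_unique K L N)
    (coeffAct (modularFunctionFieldFull N) σ)
    (fun f => by rw [← map_inv]; exact coeffAct_bcF K L N σ⁻¹ f) P₀

/-- the `hinj` of `MainOf.blockDesc_of` -/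
theorem bcPicFL_injective : Function.Injective (bcPicFL K L N) := by
  refine BcPicAbs.bcPic_injective (ext K L N) (coeffAct (modularFunctionFieldFull N))
    (coeffAct_smul_upFLp K L N) ?_
  intro z hz hinv
  refine InvDivisor.exists_const_mul_up (K := K) (L := L) (modularFunctionFieldFull N)
    (fun u _ hu => ConstOfOrd.const_of_ord_eq_zero L N u hu) z hz (fun σ => ?_)
  exact ⟨coeffAct (modularFunctionFieldFull N) σ • z, coe_coeffAct_smul _ σ z, hinv σ⟩

end Fermat.Agent.S29.Desc.BcPicModular
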