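import Mathlib
import Fermat.Agent.S29.Desc.MainOf
import Fermat.Agent.S29.Desc.ConstExtTrLaurent
import Fermat.Agent.S29.Desc.BcPicAbs
import Fermat.Agent.S29.Desc.BcPushPull
import Fermat.Agent.S29.Desc.InvDivisor
import Fermat.Agent.S29.Desc.ConstOfOrd
import Fermat.Agent.S29.Desc.UpHecke
import Fermat.Agent.S29.Desc.FiniteTorsionMain

set_option autoImplicit false
set_option linter.unusedSectionVars false

/-!
(R3-Desc, FINAL)  `Skeleton.BlockDesc N p` unconditionally (for `0 < p`), by plugging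

* the places layer `ConstExtTrLaurent` (helper29),
* the abstract base change `BcPicAbs` with injectivity from `InvDivisor` + `ConstOfOrd` (helper12),
* the Hecke compatibility `BcPushPull.bcPic_correspondence` (helper22) + `UpHecke` (helper12) +
  `HeckeInputsL.heckeOperatorAlong_eq_heckePic0Bar` (helper20),
* finiteness `FiniteTorsionMain.finite_torsion` (helper3),

into `MainOf.blockDesc_of` / `DataLaurent.exists_bc_FL`.
-/

noncomputable section

open AlgebraicCurve ModularCurve IntermediateField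
open Fermat.Agent.S24 Fermat.Agent.S29.HeckeInputsL Fermat.Agent.S29.Desc.DataLaurent
open Fermat.Agent.S29.Desc.Surject Fermat.Agent.S29.Desc

namespace Fermat.Agent.S29.Desc.BlockDescMain

section generic

variable (K L : Type*) [Field K] [Field L] [Algebra ℚ K] [Algebra ℚ L] [Algebra K L]
  [IsScalarTower ℚ K L] [IsAlgClosed K] [IsAlgClosed L]

/-- the extension of places at level `M` -/
def upM (M : ℕ) [NeZero M] : Place K (FL K M) → Place L (FL L M) :=
  haveI := finiteDimensional_JL K M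
  ConstExtTrLaurent.upPlace (L := L) (modularFunctionFieldFull M) (JL K M) (transcendental_JL K M)

theorem ord_upM (M : ℕ) [NeZero M] (P₀ : Place K (FL K M)) (f : FL K M) :
    (upM K L M P₀).ord (bcF K L M f) = P₀.ord f :=
  haveI := finiteDimensional_JL K M
  ConstExtTrLaurent.ord_upPlace (L := L) (modularFunctionFieldFull M) (JL K M)
    (transcendental_JL K M) P₀ f

theorem comap_upM (M : ℕ) [NeZero M] (P₀ : Place K (FL K M)) :
    (upM K L M P₀).toValuationSubring.comap (bcF K L M) = P₀.toValuationSubring :=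
  haveI := finiteDimensional_JL K M
  ConstExtTrLaurent.comap_upPlace (L := L) (modularFunctionFieldFull M) (JL K M)
    (transcendental_JL K M) P₀

theorem eq_upM (M : ℕ) [NeZero M] (P : Place L (FL L M)) (P₀ : Place K (FL K M))
    (h : P.toValuationSubring.comap (bcF K L M) = P₀.toValuationSubring) : P = upM K L M P₀ :=
  haveI := finiteDimensional_JL K M
  ConstExtTrLaurent.eq_upPlace (L := L) (modularFunctionFieldFull M) (JL K M)
    (transcendental_JL K M) P P₀ h

theorem dichM (M : ℕ) [NeZero M] (P : Place L (FL L M)) :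
    P.toValuationSubring.comap (bcF K L M) = ⊤ ∨ ∃ P₀ : Place K (FL K M), P = upM K L M P₀ :=
  haveI := finiteDimensional_JL K M
  ConstExtTrLaurent.dich (L := L) (modularFunctionFieldFull M) (JL K M)
    (transcendental_JL K M) P

theorem dich_ordM (M : ℕ) [NeZero M] (P : Place L (FL L M)) :
    (∀ f : FL K M, P.ord (bcF K L M f) = 0) ∨ ∃ P₀ : Place K (FL K M), P = upM K L M P₀ :=
  haveI := finiteDimensional_JL K M
  ConstExtTrLaurent.dich_ord (L := L) (modularFunctionFieldFull M) (JL K M)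
    (transcendental_JL K M) P

theorem upM_injective (M : ℕ) [NeZero M] : Function.Injective (upM K L M) :=
  haveI := finiteDimensional_JL K M
  ConstExtTrLaurent.upPlace_injective (L := L) (modularFunctionFieldFull M) (JL K M)
    (transcendental_JL K M)

theorem deg_upM (M : ℕ) [NeZero M] (P₀ : Place K (FL K M)) : (upM K L M P₀).deg = P₀.deg := by
  rw [deg_eq_one_L, deg_eq_one_L]

/-- the hypotheses of the abstract base change -/
theorem extM (M : ℕ) [NeZero M] : BcPicAbs.Ext (bcF K L M) (upM K L M) :=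
  ⟨ord_upM K L M, dich_ordM K L M, upM_injective K L M, deg_upM K L M⟩

/-- base change on `Pic⁰` at level `M` -/
def bcPicM (M : ℕ) [NeZero M] : Pic0 K (FL K M) →+ Pic0 L (FL L M) :=
  BcPicAbs.bcPic (extM K L M)

theorem smul_upM (M : ℕ) [NeZero M] (σ : L ≃ₐ[K] L) (P₀ : Place K (FL K M)) :
    coeffAct (modularFunctionFieldFull M) σ • upM K L M P₀ = upM K L M P₀ :=
  smul_up_eq (bcF K L M) (upM K L M) (comap_upM K L M) (eq_upM K L M)
    (coeffAct (modularFunctionFieldFull M) σ)
    (fun f => by rw [← map_inv]; exact coeffAct_bcF K L M σ⁻¹ f) P₀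

theorem bcPicM_injective (M : ℕ) [NeZero M] : Function.Injective (bcPicM K L M) := by
  refine BcPicAbs.bcPic_injective (extM K L M) (coeffAct (modularFunctionFieldFull M))
    (smul_upM K L M) ?_
  intro z hz hinv
  exact InvDivisor.exists_const_mul_up (K := K) (L := L) (modularFunctionFieldFull M)
    (fun u _ h => ConstOfOrd.const_of_ord_eq_zero L M u h) z hz
    (fun σ => ⟨coeffAct (modularFunctionFieldFull M) σ • z, rfl, hinv σ⟩)

/-- **Hecke compatibility** of the base change -/
theorem bcPicM_hecke (N ℓ : ℕ) [NeZero N] [NeZero ℓ] (y : Pic0 K (FL K N)) :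
    bcPicM K L N (heckeOperatorAlong K N ℓ y) = heckeOperatorAlong L N ℓ (bcPicM K L N y) := by
  have := hasPrincipalDivisors_L K (N * ℓ)
  have := hasPrincipalDivisors_L L (N * ℓ)
  rw [heckeOperatorAlong_eq_heckePic0Bar K N ℓ, heckeOperatorAlong_eq_heckePic0Bar L N ℓ]
  exact BcPushPull.bcPic_correspondence (bcF K L N) (bcF K L (N * ℓ)) (upM K L N)
    (upM K L (N * ℓ)) (ord_upM K L N) (ord_upM K L (N * ℓ)) (dich_ordM K L N)
    (dich_ordM K L (N * ℓ)) (deg_upM K L N) (deg_upM K L (N * ℓ))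
    (fun v => by rw [deg_eq_one_L]; exact one_ne_zero)
    (heckeBetaBar K N ℓ) (heckeAlphaBar K N ℓ) (heckeBetaBarIntegral K N ℓ)
    (heckeAlphaBarIntegral K N ℓ) (heckeBetaBar L N ℓ) (heckeAlphaBar L N ℓ)
    (heckeBetaBarIntegral L N ℓ) (heckeAlphaBarIntegral L N ℓ)
    (fun f => UpHecke.up_heckeBetaBar N ℓ f) (fun f => UpHecke.up_heckeAlphaBar N ℓ f)
    (fundamentalIdentityAlong_beta K N ℓ) (finiteAlong_alpha K N ℓ)
    (normFormulaAlong_alpha K N ℓ) (fundamentalIdentityAlong_beta L N ℓ)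
    (finiteAlong_alpha L N ℓ) (normFormulaAlong_alpha L N ℓ) (bcPicM K L N)
    (BcPicAbs.bcPic_hbc (extM K L N)) y

end generic

/-! ### the block `BlockDesc` -/

open Fermat.Agent.S29.Desc.MainOf Fermat.Agent.S29.NonVanish

variable [Algebra Kb ℂ] [IsScalarTower ℚ Kb ℂ]

theorem blockDesc (N p : ℕ) [NeZero N] (hp : 0 < p) : Skeleton.BlockDesc N p := by
  have : Finite (Pic0.torsion ℂ (FL ℂ N) p) := FiniteTorsionMain.finite_torsion N hp
  exact blockDesc_of N p (upM Kb ℂ N) (comap_upM Kb ℂ N) (eq_upM Kb ℂ N) (dichM Kb ℂ N)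
    (bcPicM Kb ℂ N) (bcPicM_injective Kb ℂ N)
    (fun D₀ h0 => BcPicAbs.bcPic_mk' (extM Kb ℂ N) D₀ h0)
    (fun ℓ _ y => bcPicM_hecke Kb ℂ N ℓ y)

omit [Algebra Kb ℂ] [IsScalarTower ℚ Kb ℂ] in
/-- **block (Desc), unconditional**: an embedding `ℚ̄ → ℂ` is chosen by `IsAlgClosed.lift`. -/
theorem blockDesc_unconditional (N p : ℕ) [NeZero N] (hp : 0 < p) : Skeleton.BlockDesc N p := by
  have halg : Algebra.IsAlgebraic ℚ Kb := AlgebraicClosure.isAlgebraic ℚ
  let _ : Algebra Kb ℂ := (IsAlgClosed.lift : Kb →ₐ[ℚ] ℂ).toRingHom.toAlgebra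
  have : IsScalarTower ℚ Kb ℂ :=
    IsScalarTower.of_algebraMap_eq fun q => ((IsAlgClosed.lift : Kb →ₐ[ℚ] ℂ).commutes q).symm
  exact blockDesc N p hp

end Fermat.Agent.S29.Desc.BlockDescMain
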