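import Mathlib
import Fermat.Agent.S29.Desc.ConstExtTrLaurent
import Fermat.Agent.S29.Desc.DataLaurent

set_option autoImplicit false

/-!
(R3-Desc, places layer, modular instance)  The extension of places along the constant field
extension `FL K N → FL L N` of the modular function fields (`K` algebraically closed of
characteristic zero, `L ⊇ K` any field), obtained from `ConstExtTrLaurent` at the separating
transcendental `x := JL K N`, in the shapes consumed by `DataLaurent.exists_bc_FL`.
-/

open AlgebraicCurve IntermediateField ModularCurve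

namespace Fermat.Agent.S29.Desc.PlacesModular

open Fermat.Agent.S29.HeckeInputsL Fermat.Agent.S29.Desc.DataLaurent
open Fermat.Agent.S29.Desc.ConstExtTrLaurent

variable (K L : Type*) [Field K] [Field L] [Algebra ℚ K] [Algebra ℚ L] [Algebra K L]
variable (N : ℕ) [NeZero N] [IsAlgClosed K]

attribute [local instance] finiteDimensional_JL

/-- **the unique place of `F_L N` above a place of `F_K N`** -/
noncomputable def upFL : Place K (FL K N) → Place L (FL L N) :=
  upPlace (modularFunctionFieldFull N) (JL K N) (transcendental_JL K N)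

/-- `e = 1` -/
theorem ord_upFL (P₀ : Place K (FL K N)) (f : FL K N) :
    (upFL K L N P₀).ord (bcF K L N f) = P₀.ord f :=
  ord_upPlace _ _ _ P₀ f

theorem comap_upFL (P₀ : Place K (FL K N)) :
    (upFL K L N P₀).toValuationSubring.comap (bcF K L N) = P₀.toValuationSubring :=
  comap_upPlace _ _ _ P₀

theorem upFL_unique (P : Place L (FL L N)) (P₀ : Place K (FL K N))
    (h : P.toValuationSubring.comap (bcF K L N) = P₀.toValuationSubring) : P = upFL K L N P₀ :=
  eq_upPlace _ _ _ P P₀ h

theorem upFL_injective : Function.Injective (upFL K L N) :=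
  upPlace_injective _ _ _

theorem mem_upFL_iff (P₀ : Place K (FL K N)) (f : FL K N) :
    bcF K L N f ∈ (upFL K L N P₀).toValuationSubring ↔ f ∈ P₀.toValuationSubring :=
  mem_upPlace_iff _ _ _ P₀ f

/-- **dichotomy**, valuation ring form -/
theorem dich_FL (P : Place L (FL L N)) :
    P.toValuationSubring.comap (bcF K L N) = ⊤ ∨ ∃ P₀ : Place K (FL K N), P = upFL K L N P₀ :=
  dich _ _ _ P

/-- **dichotomy**, order form -/
theorem dichOrd_FL (P : Place L (FL L N)) :
    (∀ f : FL K N, P.ord (bcF K L N f) = 0) ∨ ∃ P₀ : Place K (FL K N), P = upFL K L N P₀ :=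
  dich_ord _ _ _ P

theorem exists_eq_upFL_of_ord_ne_zero {P : Place L (FL L N)} {f : FL K N}
    (hf : P.ord (bcF K L N f) ≠ 0) : ∃ P₀ : Place K (FL K N), P = upFL K L N P₀ :=
  exists_eq_upPlace_of_ord_ne_zero _ _ _ hf

variable [IsAlgClosed L]

/-- degrees are preserved (both are `1`) -/
theorem deg_upFL (P₀ : Place K (FL K N)) : (upFL K L N P₀).deg = P₀.deg := by
  rw [deg_eq_one_L L N, deg_eq_one_L K N]

variable [IsScalarTower ℚ K L]

/-- `DataLaurent.dataFL` with the places layer filled in -/
noncomputable def dataFL' : Fermat.Agent.S29.Desc.Surject.Data K L (FL K N) (FL L N) :=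
  dataFL K L N (upFL K L N) (comap_upFL K L N) (upFL_unique K L N) (dich_FL K L N)

/-- **descent of torsion for the modular function fields**: `DataLaurent.exists_bc_FL` with the
places layer discharged; remaining inputs: finiteness of the `n`-torsion over `L`, and an
injective `bcPic` computed by `mapDomain (upFL K L N)`. -/
theorem exists_bc_FL' (n : ℕ) [Finite (Pic0.torsion L (FL L N) n)]
    (bcPic : Pic0 K (FL K N) →+ Pic0 L (FL L N)) (hinj : Function.Injective bcPic)
    (hmk : ∀ (D₀ : Divisor.degZero (K := K) (F := FL K N))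
      (h0 : Finsupp.mapDomain (upFL K L N) (D₀ : Divisor K (FL K N))
        ∈ Divisor.degZero (K := L) (F := FL L N)),
      bcPic (Pic0.mk D₀)
        = Pic0.mk ⟨Finsupp.mapDomain (upFL K L N) (D₀ : Divisor K (FL K N)), h0⟩) :
    ∃ bc : Pic0.torsion K (FL K N) n ≃+ Pic0.torsion L (FL L N) n,
      ∀ y : Pic0.torsion K (FL K N) n,
        ((bc y : Pic0.torsion L (FL L N) n) : Pic0 L (FL L N)) = bcPic (y : Pic0 K (FL K N)) :=
  exists_bc_FL K L N (upFL K L N) (comap_upFL K L N) (upFL_unique K L N) (dich_FL K L N)
    n bcPic hinj hmk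

end Fermat.Agent.S29.Desc.PlacesModular
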