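import Mathlib
import Fermat.Agent.S29.HeckeInputsL
import Fermat.Agent.S29.Desc.BcPushPull
import Fermat.Agent.S29.Desc.UpHecke
import Fermat.Agent.S29.Desc.PlacesModular

/-!
# S29 (R3, Desc): base change of divisor classes commutes with the Hecke operator

`K ⊆ L` algebraically closed fields of characteristic zero,
`F_K M = laurentBaseChange K (modularFunctionFieldFull M)`, `bcFL : F_K M → F_L M` coefficientwise.
For ANY additive map `bcP : Pic⁰(F_K N) → Pic⁰(F_L N)` which is induced on divisors by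
`Finsupp.mapDomain up` (`up` = the extension of places), we prove

`bcP (heckeOperatorAlong K N ℓ y) = heckeOperatorAlong L N ℓ (bcP y)`

for the Prelude's total Hecke operator (= the hypothesis `hT` of `Desc.MainOf.blockDesc_of`).

* `bcP_heckeOperatorAlong_of` : plain-function hypotheses on `up`, `up'` (levels `N`, `N ℓ`);
* `bcP_heckeOperatorAlong` : the statement for `up := PlacesModular.upFL K L N`;
* `bcP_heckeOperatorAlong'` : the same with the `hmk`-shaped hypothesis of `blockDesc_of`.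
-/

set_option autoImplicit false

noncomputable section

open AlgebraicCurve ModularCurve
open Fermat.Agent.S29.HeckeInputsL Fermat.Agent.S29.Desc.PlacesModular

namespace Fermat.Agent.S29.Desc.HeckeCompat

variable (K L : Type*) [Field K] [Field L] [Algebra ℚ K] [Algebra ℚ L] [Algebra K L]

/-- the coefficientwise base change `F_K M → F_L M` (= `DataLaurent.bcF`, `ConstExtTrLaurent.bc`) -/
abbrev bcFL (M : ℕ) : FL K M →+* FL L M :=
  Fermat.Agent.S18.ConstExt.up (K := L) (modularFunctionFieldFull M)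

section Abstract

variable [IsAlgClosed K] [IsAlgClosed L] (N ℓ : ℕ) [NeZero N] [NeZero ℓ]

/-- **`T_ℓ ∘ bc = bc ∘ T_ℓ`**, for any extension of places `up`, `up'` at the two levels with
`e = 1` and the dichotomy, and any `bcP` induced by `mapDomain up`. -/
theorem bcP_heckeOperatorAlong_of
    (up : Place K (FL K N) → Place L (FL L N))
    (up' : Place K (FL K (N * ℓ)) → Place L (FL L (N * ℓ)))
    (ord_up : ∀ (P₀ : Place K (FL K N)) (f : FL K N), (up P₀).ord (bcFL K L N f) = P₀.ord f)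
    (ord_up' : ∀ (P₀ : Place K (FL K (N * ℓ))) (f : FL K (N * ℓ)),
      (up' P₀).ord (bcFL K L (N * ℓ) f) = P₀.ord f)
    (dich : ∀ P : Place L (FL L N),
      (∀ f : FL K N, P.ord (bcFL K L N f) = 0) ∨ ∃ P₀, P = up P₀)
    (dich' : ∀ P : Place L (FL L (N * ℓ)),
      (∀ f : FL K (N * ℓ), P.ord (bcFL K L (N * ℓ) f) = 0) ∨ ∃ P₀, P = up' P₀)
    (bcP : Pic0 K (FL K N) →+ Pic0 L (FL L N))
    (hbc : ∀ D : Divisor.degZero (K := K) (F := FL K N),
      ∃ D' : Divisor.degZero (K := L) (F := FL L N),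
        (D' : Divisor L (FL L N)) = Finsupp.mapDomain up (D : Divisor K (FL K N)) ∧
          bcP (Pic0.mk D) = Pic0.mk D')
    (y : Pic0 K (FL K N)) :
    bcP (heckeOperatorAlong K N ℓ y) = heckeOperatorAlong L N ℓ (bcP y) := by
  have := hasPrincipalDivisors_L K (N * ℓ)
  have := hasPrincipalDivisors_L L (N * ℓ)
  rw [heckeOperatorAlong_eq_heckePic0Bar K N ℓ, heckeOperatorAlong_eq_heckePic0Bar L N ℓ]
  exact BcPushPull.bcPic_correspondence (bcFL K L N) (bcFL K L (N * ℓ)) up up' ord_up ord_up'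
    dich dich'
    (fun P₀ => by rw [deg_eq_one_L L N, deg_eq_one_L K N])
    (fun P₀ => by rw [deg_eq_one_L L (N * ℓ), deg_eq_one_L K (N * ℓ)])
    (fun v => by rw [deg_eq_one_L K N]; exact one_ne_zero)
    (heckeBetaBar K N ℓ) (heckeAlphaBar K N ℓ)
    (heckeBetaBarIntegral K N ℓ) (heckeAlphaBarIntegral K N ℓ)
    (heckeBetaBar L N ℓ) (heckeAlphaBar L N ℓ)
    (heckeBetaBarIntegral L N ℓ) (heckeAlphaBarIntegral L N ℓ)
    (fun f => UpHecke.up_heckeBetaBar N ℓ f) (fun f => UpHecke.up_heckeAlphaBar N ℓ f)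
    (fundamentalIdentityAlong_beta K N ℓ) (finiteAlong_alpha K N ℓ) (normFormulaAlong_alpha K N ℓ)
    (fundamentalIdentityAlong_beta L N ℓ) (finiteAlong_alpha L N ℓ) (normFormulaAlong_alpha L N ℓ)
    bcP hbc y

end Abstract

section Main

variable [IsAlgClosed K] [IsAlgClosed L] (N : ℕ) [NeZero N]

/-- **`T_ℓ ∘ bc = bc ∘ T_ℓ`** for `up := upFL K L N` (= `hT` of `MainOf.blockDesc_of`). -/
theorem bcP_heckeOperatorAlong
    (bcP : Pic0 K (FL K N) →+ Pic0 L (FL L N))
    (hbc : ∀ D : Divisor.degZero (K := K) (F := FL K N),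
      ∃ D' : Divisor.degZero (K := L) (F := FL L N),
        (D' : Divisor L (FL L N)) = Finsupp.mapDomain (upFL K L N) (D : Divisor K (FL K N)) ∧
          bcP (Pic0.mk D) = Pic0.mk D')
    (ℓ : ℕ) [NeZero ℓ] (y : Pic0 K (FL K N)) :
    bcP (heckeOperatorAlong K N ℓ y) = heckeOperatorAlong L N ℓ (bcP y) :=
  bcP_heckeOperatorAlong_of K L N ℓ (upFL K L N) (upFL K L (N * ℓ))
    (ord_upFL K L N) (ord_upFL K L (N * ℓ)) (dichOrd_FL K L N) (dichOrd_FL K L (N * ℓ))
    bcP hbc y

/-- the same with the `hmk`-shaped hypothesis of `MainOf.blockDesc_of`. -/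
theorem bcP_heckeOperatorAlong'
    (bcP : Pic0 K (FL K N) →+ Pic0 L (FL L N))
    (hdeg : ∀ D₀ : Divisor.degZero (K := K) (F := FL K N),
      Finsupp.mapDomain (upFL K L N) (D₀ : Divisor K (FL K N))
        ∈ Divisor.degZero (K := L) (F := FL L N))
    (hmk : ∀ (D₀ : Divisor.degZero (K := K) (F := FL K N))
      (h0 : Finsupp.mapDomain (upFL K L N) (D₀ : Divisor K (FL K N))
        ∈ Divisor.degZero (K := L) (F := FL L N)),
      bcP (Pic0.mk D₀) = Pic0.mk ⟨Finsupp.mapDomain (upFL K L N) (D₀ : Divisor K (FL K N)), h0⟩)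
    (ℓ : ℕ) [NeZero ℓ] (y : Pic0 K (FL K N)) :
    bcP (heckeOperatorAlong K N ℓ y) = heckeOperatorAlong L N ℓ (bcP y) :=
  bcP_heckeOperatorAlong K L N bcP (fun D => ⟨⟨_, hdeg D⟩, rfl, hmk D (hdeg D)⟩) ℓ y

end Main

end Fermat.Agent.S29.Desc.HeckeCompat
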