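/-
S29 (project R, half R3, block Desc; helper19): **existence of a place.**

* `isOrdFun_order` : the `q`-adic order is an order function (in the sense of `S24/PlaceOfOrd`) on
  every intermediate field `F` of `K((q))`;
* `nonempty_place_of_order_ne_zero` : if some element of `F` has nonzero order, `F` has a place
  (the cusp `∞`), with `ord` proportional to the `q`-adic order;
* `order_JL`, `nonempty_place_FL` : `F_L N = laurentBaseChange L (modularFunctionFieldFull N)` has a
  place, for EVERY field `L` with `[Algebra ℚ L]` (input `P₀` of `Desc/DataOf.Data.ofPlaces` at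
  `L = ℚ̄`; the inputs `degK`, `degL` are `HeckeInputsL.deg_eq_one_L ℚ̄ N`, `deg_eq_one_L ℂ N`).
-/
import Mathlib
import Fermat.Agent.S24.PlaceOfOrd
import Fermat.Agent.S29.HeckeInputsL

set_option autoImplicit false

noncomputable section

open AlgebraicCurve IntermediateField ModularCurve

namespace Fermat.Agent.S29.Desc.PlaceExists

open Fermat.Agent.S24

section Generic

variable {K : Type*} [Field K] (F : IntermediateField K (LaurentSeries K))

theorem algebraMap_eq_C (c : K) : (algebraMap K (LaurentSeries K)) c = HahnSeries.C c := by
  rw [HahnSeries.algebraMap_apply']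
  exact HahnSeries.ofPowerSeries_C c

/-- the `q`-adic order is an order function on every intermediate field of `K((q))`. -/
theorem isOrdFun_order : IsOrdFun K (fun f : F => (f : LaurentSeries K).order) where
  mul f g hf hg := by
    have hf' : (f : LaurentSeries K) ≠ 0 := fun h => hf (Subtype.ext h)
    have hg' : (g : LaurentSeries K) ≠ 0 := fun h => hg (Subtype.ext h)
    show ((f * g : F) : LaurentSeries K).order = _
    rw [IntermediateField.coe_mul]
    exact HahnSeries.order_mul hf' hg'
  add f g _ _ hfg := by
    have h : (f : LaurentSeries K) + (g : LaurentSeries K) ≠ 0 := fun h => hfg (Subtype.ext h)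
    show min _ _ ≤ ((f + g : F) : LaurentSeries K).order
    rw [IntermediateField.coe_add]
    exact HahnSeries.min_order_le_order_add h
  const a ha := by
    show ((algebraMap K F a : F) : LaurentSeries K).order = 0
    have h1 : ((algebraMap K F a : F) : LaurentSeries K) = HahnSeries.C a := by
      rw [← algebraMap_eq_C]
      rfl
    rw [h1]
    exact HahnSeries.order_C

/-- an intermediate field of `K((q))` containing an element of nonzero order has a place, whose
`ord` is proportional to the `q`-adic order. -/
theorem exists_place_of_order_ne_zero (f : F) (hf : f ≠ 0) (hord : (f : LaurentSeries K).order ≠ 0) :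
    ∃ (v : Place K F) (m : ℕ), 0 < m ∧
      (∀ g : F, g ≠ 0 → (g : LaurentSeries K).order = m * v.ord g) ∧
      ∀ g : F, g ∈ v.toValuationSubring ↔ (g = 0 ∨ 0 ≤ (g : LaurentSeries K).order) :=
  exists_place_of_isOrdFun (isOrdFun_order F) ⟨f, hf, hord⟩

theorem nonempty_place_of_order_ne_zero (f : F) (hf : f ≠ 0)
    (hord : (f : LaurentSeries K).order ≠ 0) : Nonempty (Place K F) := by
  obtain ⟨v, -⟩ := exists_place_of_order_ne_zero F f hf hord
  exact ⟨v⟩

end Generic

section Modular

open Fermat.Agent.S29.HeckeInputsL

variable (L : Type*) [Field L] [Algebra ℚ L]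

omit [Algebra ℚ L] in
/-- `j(q) = q⁻¹ + 744 + …` has order `-1`. -/
theorem order_jqModC : (jqModC L).order = -1 := by
  have hne : jqModC L ≠ 0 := by
    intro h
    have := coeff_jqModC_neg_one L
    rw [h, HahnSeries.coeff_zero] at this
    exact zero_ne_one this
  apply le_antisymm
  · exact HahnSeries.order_le_of_coeff_ne_zero (by rw [coeff_jqModC_neg_one]; exact one_ne_zero)
  · by_contra hlt
    rw [not_le] at hlt
    have h0 := coeff_jqModC_of_lt L hlt
    exact hne (HahnSeries.coeff_order_eq_zero.mp h0)

theorem order_JL (M : ℕ) [NeZero M] : ((JL L M : FL L M) : LaurentSeries L).order = -1 :=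
  order_jqModC L

/-- **`F_L M` has a place** (the cusp `∞`), for every field `L` with `[Algebra ℚ L]`. -/
theorem nonempty_place_FL (M : ℕ) [NeZero M] : Nonempty (Place L (FL L M)) := by
  refine nonempty_place_of_order_ne_zero _ (JL L M) ?_ ?_
  · intro h
    have := order_JL L M
    rw [h] at this
    simp at this
  · rw [order_JL]
    decide

/-- the cusp `∞` of `F_L M`: a place whose `ord` is the `q`-adic order (`J` has order `-1`, so the
proportionality factor is `1`). -/
theorem exists_place_ord_eq_order (M : ℕ) [NeZero M] :
    ∃ v : Place L (FL L M), ∀ g : FL L M, g ≠ 0 → v.ord g = (g : LaurentSeries L).order := by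
  have hJ0 : JL L M ≠ 0 := by
    intro h
    have := order_JL L M
    rw [h] at this
    simp at this
  obtain ⟨v, m, hm, hv, -⟩ := exists_place_of_order_ne_zero _ (JL L M) hJ0
    (by rw [order_JL]; decide)
  have h1 := hv (JL L M) hJ0
  rw [order_JL] at h1
  -- `-1 = m * ord J` forces `m = 1`
  have hm1 : m = 1 := by
    have h2 : (m : ℤ) ∣ 1 := ⟨-v.ord (JL L M), by linarith⟩
    have h3 : (m : ℤ) = 1 := by
      rcases Int.isUnit_iff.mp (isUnit_of_dvd_one h2) with h | h
      · exact h
      · omega
    exact_mod_cast h3
  refine ⟨v, fun g hg => ?_⟩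
  have := hv g hg
  rw [hm1] at this
  simpa using this.symm

end Modular

end Fermat.Agent.S29.Desc.PlaceExists
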