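import Mathlib
import Fermat.Prelude.Def_ModularCurve_LaurentCoeff
import Fermat.Prelude.Def_AlgebraicCurve_DivisorClassGroup
import Fermat.Agent.S18.ConstExt.Place
import Fermat.Agent.S18.Places.ConstExt
import Fermat.Agent.S29.HeckeInputsL

/-!
# S29 (R3), block (Desc): two concrete inputs of `ConstExtTr.Setup` for Laurent function fields

For fields `K ⊆ L` of characteristic zero and `F₀ ⊆ ℚ((q))`,
`F_K := laurentBaseChange K F₀ → F_L := laurentBaseChange L F₀` (coefficientwise, `S18.ConstExt.up`):

* `adjoin_range_up_eq_top` (GEN): `F_L = L(F_K)`;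
* `adjoin_range_algebraMap_eq_top` : the same with `algebraMap F_K F_L` for the algebra structure
  `(S18.ConstExt.up F₀).toAlgebra`;
* `dvr_of_transcendental` (DVR): a nontrivial valuation subring of `F_K` containing `K` is a
  principal ideal ring as soon as `F_K` is finite over `K(x)`, `x` transcendental;
* `dvr_FL` : the modular instance, `F₀ = modularFunctionFieldFull N`.
-/

set_option autoImplicit false

noncomputable section

open HahnSeries AlgebraicCurve ModularCurve IntermediateField

namespace Fermat.Agent.S29.Desc.SetupLaurent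

open Fermat.Agent.S18.ConstExt (up coeffMap_coeffEmb_up)

section Gen

variable {K L : Type*} [Field K] [Field L] [Algebra ℚ K] [Algebra ℚ L] [Algebra K L]
variable (F₀ : IntermediateField ℚ (LaurentSeries ℚ))

/-- **(GEN)** `F_L` is generated over the constants `L` by the image of `F_K`. -/
theorem adjoin_range_up_eq_top :
    IntermediateField.adjoin L (Set.range (up (K := L) F₀ :
      ↥(laurentBaseChange K F₀) → ↥(laurentBaseChange L F₀))) = ⊤ := by
  rw [eq_top_iff]
  rintro ⟨x, hx⟩ -
  let T : Subfield (LaurentSeries L) :=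
    (IntermediateField.adjoin L (Set.range (up (K := L) F₀ :
      ↥(laurentBaseChange K F₀) → ↥(laurentBaseChange L F₀)))).toSubfield.map
        (laurentBaseChange L F₀).val.toRingHom
  have hle : Subfield.closure (Set.range (algebraMap L (LaurentSeries L)) ∪
      (⇑(coeffEmb L) '' (F₀ : Set (LaurentSeries ℚ)))) ≤ T := by
    rw [Subfield.closure_le]
    rintro y (⟨a, rfl⟩ | ⟨z, hz, rfl⟩)
    · exact ⟨algebraMap L (laurentBaseChange L F₀) a,
        IntermediateField.algebraMap_mem _ _, rfl⟩
    · refine ⟨up (K := L) F₀ ⟨coeffEmb K z, coeffEmb_mem_laurentBaseChange K hz⟩,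
        IntermediateField.subset_adjoin _ _ ⟨_, rfl⟩, ?_⟩
      exact coeffMap_coeffEmb_up z
  obtain ⟨y, hy, hyx⟩ := hle (mem_laurentBaseChange_iff.mp hx)
  have : y = ⟨x, hx⟩ := Subtype.ext hyx
  rw [← this]
  exact hy

/-- (GEN) in `algebraMap` form, for the algebra structure given by `up`. -/
theorem adjoin_range_algebraMap_eq_top :
    letI : Algebra ↥(laurentBaseChange K F₀) ↥(laurentBaseChange L F₀) :=
      (up (K := L) F₀).toAlgebra
    IntermediateField.adjoin L (Set.range (algebraMap ↥(laurentBaseChange K F₀)
      ↥(laurentBaseChange L F₀))) = ⊤ :=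
  adjoin_range_up_eq_top F₀

end Gen

section Dvr

variable {K : Type*} [Field K] [Algebra ℚ K]

/-- **(DVR)** nontrivial valuation subrings of `F_K` containing the constants are principal ideal
rings, as soon as `F_K` is finite over a rational subfield `K(x)`. -/
theorem dvr_of_transcendental (F₀ : IntermediateField ℚ (LaurentSeries ℚ))
    (x : ↥(laurentBaseChange K F₀)) (hx : Transcendental K x)
    [FiniteDimensional K⟮x⟯ ↥(laurentBaseChange K F₀)]
    (V : ValuationSubring ↥(laurentBaseChange K F₀))
    (hK : ∀ c : K, algebraMap K ↥(laurentBaseChange K F₀) c ∈ V) (hne : V ≠ ⊤) :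
    IsPrincipalIdealRing V := by
  have : CharZero K := algebraRat.charZero K
  exact Fermat.Agent.S18.Places.ConstExt.isPrincipalIdealRing_of_transcendental x hx V hK hne

/-- **(DVR)**, modular instance: `F₀ = modularFunctionFieldFull N`, `x = j`. -/
theorem dvr_FL (K : Type*) [Field K] [Algebra ℚ K] (N : ℕ) [NeZero N] :
    ∀ V : ValuationSubring (Fermat.Agent.S29.HeckeInputsL.FL K N),
      (∀ c : K, algebraMap K (Fermat.Agent.S29.HeckeInputsL.FL K N) c ∈ V) → V ≠ ⊤ →
      IsPrincipalIdealRing V := by
  intro V hK hne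
  have := Fermat.Agent.S29.HeckeInputsL.finiteDimensional_JL K N
  exact dvr_of_transcendental (modularFunctionFieldFull N)
    (Fermat.Agent.S29.HeckeInputsL.JL K N)
    (Fermat.Agent.S29.HeckeInputsL.transcendental_JL K N) V hK hne

end Dvr

end Fermat.Agent.S29.Desc.SetupLaurent
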